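/-
GATE-B (Ribet level lowering, S38/S43) / node GB-SETUP (iii), leaf BN2 (helper61):
**Brauer–Nesbitt / Carayol over a field, in the frozen vocabulary.**

`isEquiv_of_trace_eq` : two residual representations `ρ₁ ρ₂ : ResidualGaloisRep k` with the same
trace function, `ρ₁` absolutely irreducible, are isomorphic (`ρ₁.IsEquiv ρ₂`).
`isEquiv_of_frob` : the same when the traces agree only at Frobenius lifts at the primes outside
a finite set `B` (Chebotarev, `GP/TW/ChebExist`).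

This is the producer of the `hres` binder of the frozen S54 (`H.ρ.residual.IsEquiv (ρbar…)`), and of
`ρ̄_E ⊗ κ ≃ ρ̄_f` in GB-SETUP.

Proof: Burnside (`S53/DictResidual.span_range_rbarOf`, on main) gives the full span for `ρ₁`; full
span for `ρ₂` follows (four elements of the group algebra mapping to the matrix units under `ρ₁` map
to linearly independent matrices under `ρ₂`, because `ker ρ₂ ⊆ ker ρ₁` by non-degeneracy of the trace
form); then Carayol's theorem (`S53_helper60/Carayol.exists_conj_of_trace_eq`, on main).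
-/
import Mathlib
import Fermat.Agent.S53.DictResidual
import Fermat.Agent.S53_helper60.Carayol
import Fermat.Agent.GP.TW.ChebExist
import Fermat.Agent.Common_helper32.FrobeniusExists

set_option autoImplicit false

namespace Fermat.Agent.GB.Setup.Carayol2

open Matrix Fermat.Agent.S53_helper60 Fermat.Agent.Common_helper32

/-- `ℚ̄`. -/
local notation "Qb" => AlgebraicClosure ℚ

section Span

variable {k : Type*} [Field k] {G : Type*} [Monoid G]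

theorem algExt_mem_span (r : G →* M₂ k) (x : MonoidAlgebra k G) :
    algExt r x ∈ Submodule.span k (Set.range r) := by
  induction x using MonoidAlgebra.induction_on with
  | of g => rw [algExt_of]; exact Submodule.subset_span ⟨g, rfl⟩
  | add a b ha hb => rw [map_add]; exact Submodule.add_mem _ ha hb
  | smul c a ha => rw [map_smul]; exact Submodule.smul_mem _ _ ha

/-- Over a field: full span of `r` and equality of traces force the full span of `r'`. -/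
theorem span_range_eq_top_of_trace_eq (r r' : G →* M₂ k)
    (h : Submodule.span k (Set.range r) = ⊤) (htr : ∀ g, (r g).trace = (r' g).trace) :
    Submodule.span k (Set.range r') = ⊤ := by
  classical
  have hsurj := algExt_surjective r h
  -- `ker (algExt r') ⊆ ker (algExt r)`
  have hker : ∀ z : MonoidAlgebra k G, algExt r' z = 0 → algExt r z = 0 := fun z hz =>
    algExt_eq_zero_of_trace_eq r' r h (fun g => (htr g).symm) hz
  choose x hx using fun ij : Fin 2 × Fin 2 => hsurj (Matrix.single ij.1 ij.2 (1 : k))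
  set v : Fin 2 × Fin 2 → M₂ k := fun ij => algExt r' (x ij) with hv
  have hli : LinearIndependent k v := by
    rw [Fintype.linearIndependent_iff]
    intro c hc ij
    have h1 : algExt r' (∑ i, c i • x i) = 0 := by
      rw [map_sum]
      simp only [map_smul]
      exact hc
    have h2 := hker _ h1
    rw [map_sum] at h2
    simp only [map_smul, hx] at h2
    have h3 := congrFun (congrFun h2 ij.1) ij.2
    rw [Matrix.sum_apply, Matrix.zero_apply] at h3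
    rw [Finset.sum_eq_single ij] at h3
    · simpa using h3
    · intro b _ hb
      rw [Matrix.smul_apply, Matrix.single_apply_of_ne, smul_zero]
      rintro ⟨h4, h5⟩
      exact hb (Prod.ext h4 h5)
    · intro hn
      exact absurd (Finset.mem_univ ij) hn
  have hcard : Fintype.card (Fin 2 × Fin 2) = Module.finrank k (M₂ k) := by
    rw [Module.finrank_matrix]
    simp
  have htop := hli.span_eq_top_of_card_eq_finrank' hcard
  rw [eq_top_iff, ← htop, Submodule.span_le]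
  rintro _ ⟨ij, rfl⟩
  exact algExt_mem_span r' (x ij)

end Span

section Residual

open Fermat.Agent.S53

variable {k : Type} [Field k]

theorem rbarOf_apply (ρ : ResidualGaloisRep k) (σ : Qb ≃ₐ[ℚ] Qb) :
    rbarOf ρ σ = LinearMap.toMatrix (Module.finBasisOfFinrankEq k ρ.V ρ.finrank_eq)
      (Module.finBasisOfFinrankEq k ρ.V ρ.finrank_eq) (ρ.ρ σ) := rfl

theorem trace_rbarOf (ρ : ResidualGaloisRep k) (σ : Qb ≃ₐ[ℚ] Qb) :
    (rbarOf ρ σ).trace = LinearMap.trace k ρ.V (ρ.ρ σ) := by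
  rw [rbarOf_apply]
  exact (LinearMap.trace_eq_matrix_trace k _ (ρ.ρ σ)).symm

/-- **Brauer–Nesbitt in dimension two, frozen vocabulary.** -/
theorem isEquiv_of_trace_eq (ρ₁ ρ₂ : ResidualGaloisRep k) (habs : ρ₁.IsAbsolutelyIrreducible)
    (htr : ∀ σ : Qb ≃ₐ[ℚ] Qb,
      LinearMap.trace k ρ₁.V (ρ₁.ρ σ) = LinearMap.trace k ρ₂.V (ρ₂.ρ σ)) :
    ρ₁.IsEquiv ρ₂ := by
  classical
  have h1 : Submodule.span k (Set.range (rbarOf ρ₁)) = ⊤ := span_range_rbarOf ρ₁ habs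
  have htr' : ∀ σ, (rbarOf ρ₁ σ).trace = (rbarOf ρ₂ σ).trace := fun σ => by
    rw [trace_rbarOf, trace_rbarOf, htr]
  have h2 : Submodule.span k (Set.range (rbarOf ρ₂)) = ⊤ :=
    span_range_eq_top_of_trace_eq (rbarOf ρ₁) (rbarOf ρ₂) h1 htr'
  obtain ⟨P, hP⟩ := exists_conj_of_trace_eq (rbarOf ρ₁) (rbarOf ρ₂) h1 h2 htr'
  set b₁ := Module.finBasisOfFinrankEq k ρ₁.V ρ₁.finrank_eq with hb₁
  set b₂ := Module.finBasisOfFinrankEq k ρ₂.V ρ₂.finrank_eq with hb₂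
  have hPQ : (P : M₂ k) * ((P⁻¹ : (M₂ k)ˣ) : M₂ k) = 1 := P.mul_inv
  have hQP : ((P⁻¹ : (M₂ k)ˣ) : M₂ k) * (P : M₂ k) = 1 := P.inv_mul
  let e : ρ₁.V ≃ₗ[k] ρ₂.V := LinearEquiv.ofLinearMap (Matrix.toLin b₁ b₂ (P : M₂ k))
    (Matrix.toLin b₂ b₁ ((P⁻¹ : (M₂ k)ˣ) : M₂ k))
    (by rw [← Matrix.toLin_mul, hPQ, Matrix.toLin_one])
    (by rw [← Matrix.toLin_mul, hQP, Matrix.toLin_one])
  refine ⟨⟨e, fun σ x => ?_⟩⟩
  have h3 : Matrix.toLin b₁ b₂ (P : M₂ k) ∘ₗ ρ₁.ρ σ = ρ₂.ρ σ ∘ₗ Matrix.toLin b₁ b₂ (P : M₂ k) := by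
    have e1 : ρ₁.ρ σ = Matrix.toLin b₁ b₁ (rbarOf ρ₁ σ) := by
      rw [rbarOf_apply, Matrix.toLin_toMatrix]
    have e2 : ρ₂.ρ σ = Matrix.toLin b₂ b₂ (rbarOf ρ₂ σ) := by
      rw [rbarOf_apply, Matrix.toLin_toMatrix]
    rw [e1, e2, ← Matrix.toLin_mul, ← Matrix.toLin_mul, hP σ]
  exact LinearMap.congr_fun h3 x

/-- The symmetric form (absolute irreducibility on the right). -/
theorem isEquiv_of_trace_eq' (ρ₁ ρ₂ : ResidualGaloisRep k) (habs : ρ₂.IsAbsolutelyIrreducible)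
    (htr : ∀ σ : Qb ≃ₐ[ℚ] Qb,
      LinearMap.trace k ρ₁.V (ρ₁.ρ σ) = LinearMap.trace k ρ₂.V (ρ₂.ρ σ)) :
    ρ₁.IsEquiv ρ₂ := by
  obtain ⟨e⟩ := isEquiv_of_trace_eq ρ₂ ρ₁ habs (fun σ => (htr σ).symm)
  exact ⟨e.symm⟩

/-! ### Chebotarev: Frobenius lifts suffice -/

theorem conj_eq (ρ : ResidualGaloisRep k) (g σ : Qb ≃ₐ[ℚ] Qb) :
    ρ.ρ (g * σ * g⁻¹) = (LinearEquiv.ofLinearMap (ρ.ρ g) (ρ.ρ g⁻¹)
      (by rw [← Module.End.mul_eq_comp, ← map_mul, mul_inv_cancel, map_one]; rfl)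
      (by rw [← Module.End.mul_eq_comp, ← map_mul, inv_mul_cancel, map_one]; rfl)).conj
        (ρ.ρ σ) := by
  rw [map_mul, map_mul]
  rfl

theorem trace_conj_eq (ρ : ResidualGaloisRep k) (g σ : Qb ≃ₐ[ℚ] Qb) :
    LinearMap.trace k ρ.V (ρ.ρ (g * σ * g⁻¹)) = LinearMap.trace k ρ.V (ρ.ρ σ) := by
  rw [conj_eq, LinearMap.trace_conj']

theorem charpoly_conj_eq (ρ : ResidualGaloisRep k) (g σ : Qb ≃ₐ[ℚ] Qb) :
    LinearMap.charpoly (ρ.ρ (g * σ * g⁻¹)) = LinearMap.charpoly (ρ.ρ σ) := by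
  rw [conj_eq, LinearEquiv.charpoly_conj]

/-- Every `σ` is matched, simultaneously in two residual representations, by a Frobenius lift at a
prime outside `B`, up to conjugation. -/
theorem exists_frob_match (ρ₁ ρ₂ : ResidualGaloisRep k) (B : Finset ℕ) (σ : Qb ≃ₐ[ℚ] Qb) :
    ∃ (ℓ : ℕ) (_ : ℓ.Prime) (_ : ℓ ∉ B) (A : ValuationSubring Qb) (_ : A.LiesOverPrime ℓ)
      (τ : Qb ≃ₐ[ℚ] Qb) (_ : A.IsFrobeniusAt τ ℓ) (g : Qb ≃ₐ[ℚ] Qb),
      ρ₁.ρ τ = ρ₁.ρ (g * σ * g⁻¹) ∧ ρ₂.ρ τ = ρ₂.ρ (g * σ * g⁻¹) := by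
  obtain ⟨ℓ, hℓ, hℓB, hfrob⟩ := Fermat.Agent.GP.TW.ChebExist.exists_prime_forall_frob
    (ρ₁.ρ.prod ρ₂.ρ)
    (Fermat.Agent.GP.TW.ChebExist.factorsThroughFiniteLevel_prod _ _
      ρ₁.factorsThroughFiniteLevel ρ₂.factorsThroughFiniteLevel) σ B
  obtain ⟨A, hA⟩ := exists_liesOverPrime ℓ hℓ
  obtain ⟨τ, hτ⟩ := exists_isFrobeniusAt_of_liesOver A ℓ hℓ hA
  obtain ⟨g, hg⟩ := hfrob A τ hA hτ
  exact ⟨ℓ, hℓ, hℓB, A, hA, τ, hτ, g, congrArg Prod.fst hg, congrArg Prod.snd hg⟩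

/-- Traces which agree at the Frobenius lifts outside a finite set agree everywhere. -/
theorem trace_eq_of_frob (ρ₁ ρ₂ : ResidualGaloisRep k) (B : Finset ℕ)
    (hfrob : ∀ ℓ : ℕ, ℓ.Prime → ℓ ∉ B → ∀ A : ValuationSubring Qb, A.LiesOverPrime ℓ →
      ∀ τ : Qb ≃ₐ[ℚ] Qb, A.IsFrobeniusAt τ ℓ →
        LinearMap.trace k ρ₁.V (ρ₁.ρ τ) = LinearMap.trace k ρ₂.V (ρ₂.ρ τ))
    (σ : Qb ≃ₐ[ℚ] Qb) :
    LinearMap.trace k ρ₁.V (ρ₁.ρ σ) = LinearMap.trace k ρ₂.V (ρ₂.ρ σ) := by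
  obtain ⟨ℓ, hℓ, hℓB, A, hA, τ, hτ, g, h1, h2⟩ := exists_frob_match ρ₁ ρ₂ B σ
  rw [← trace_conj_eq ρ₁ g σ, ← trace_conj_eq ρ₂ g σ, ← h1, ← h2]
  exact hfrob ℓ hℓ hℓB A hA τ hτ

/-- Characteristic polynomials which agree at the Frobenius lifts outside a finite set agree
everywhere. -/
theorem charpoly_eq_of_frob (ρ₁ ρ₂ : ResidualGaloisRep k) (B : Finset ℕ)
    (hfrob : ∀ ℓ : ℕ, ℓ.Prime → ℓ ∉ B → ∀ A : ValuationSubring Qb, A.LiesOverPrime ℓ →
      ∀ τ : Qb ≃ₐ[ℚ] Qb, A.IsFrobeniusAt τ ℓ →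
        LinearMap.charpoly (ρ₁.ρ τ) = LinearMap.charpoly (ρ₂.ρ τ))
    (σ : Qb ≃ₐ[ℚ] Qb) :
    LinearMap.charpoly (ρ₁.ρ σ) = LinearMap.charpoly (ρ₂.ρ σ) := by
  obtain ⟨ℓ, hℓ, hℓB, A, hA, τ, hτ, g, h1, h2⟩ := exists_frob_match ρ₁ ρ₂ B σ
  rw [← charpoly_conj_eq ρ₁ g σ, ← charpoly_conj_eq ρ₂ g σ, ← h1, ← h2]
  exact hfrob ℓ hℓ hℓB A hA τ hτ

/-- **Brauer–Nesbitt + Chebotarev**: an absolutely irreducible residual representation is
determined by its traces at the Frobenius lifts outside a finite set of primes. -/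
theorem isEquiv_of_frob (ρ₁ ρ₂ : ResidualGaloisRep k) (habs : ρ₁.IsAbsolutelyIrreducible)
    (B : Finset ℕ)
    (hfrob : ∀ ℓ : ℕ, ℓ.Prime → ℓ ∉ B → ∀ A : ValuationSubring Qb, A.LiesOverPrime ℓ →
      ∀ τ : Qb ≃ₐ[ℚ] Qb, A.IsFrobeniusAt τ ℓ →
        LinearMap.trace k ρ₁.V (ρ₁.ρ τ) = LinearMap.trace k ρ₂.V (ρ₂.ρ τ)) :
    ρ₁.IsEquiv ρ₂ :=
  isEquiv_of_trace_eq ρ₁ ρ₂ habs (trace_eq_of_frob ρ₁ ρ₂ B hfrob)

/-- The symmetric form. -/
theorem isEquiv_of_frob' (ρ₁ ρ₂ : ResidualGaloisRep k) (habs : ρ₂.IsAbsolutelyIrreducible)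
    (B : Finset ℕ)
    (hfrob : ∀ ℓ : ℕ, ℓ.Prime → ℓ ∉ B → ∀ A : ValuationSubring Qb, A.LiesOverPrime ℓ →
      ∀ τ : Qb ≃ₐ[ℚ] Qb, A.IsFrobeniusAt τ ℓ →
        LinearMap.trace k ρ₁.V (ρ₁.ρ τ) = LinearMap.trace k ρ₂.V (ρ₂.ρ τ)) :
    ρ₁.IsEquiv ρ₂ :=
  isEquiv_of_trace_eq' ρ₁ ρ₂ habs (trace_eq_of_frob ρ₁ ρ₂ B hfrob)

/-- In a plane, the trace is read off the characteristic polynomial `X² - t X + d`. -/
theorem trace_eq_of_charpoly_eq (ρ : ResidualGaloisRep k) (σ : Qb ≃ₐ[ℚ] Qb) (t d : k)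
    (h : LinearMap.charpoly (ρ.ρ σ) = Polynomial.X ^ 2 - Polynomial.C t * Polynomial.X
      + Polynomial.C d) : LinearMap.trace k ρ.V (ρ.ρ σ) = t := by
  classical
  set b := Module.finBasisOfFinrankEq k ρ.V ρ.finrank_eq with hb
  have h1 : (LinearMap.toMatrix b b (ρ.ρ σ)).charpoly =
      Polynomial.X ^ 2 - Polynomial.C t * Polynomial.X + Polynomial.C d := by
    rw [LinearMap.charpoly_toMatrix]
    exact h
  rw [Matrix.charpoly_fin_two] at h1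
  have h2 := congrArg (fun q : Polynomial k => q.coeff 1) h1
  simp only [Polynomial.coeff_add, Polynomial.coeff_sub, Polynomial.coeff_X_pow,
    Polynomial.coeff_C_mul, Polynomial.coeff_X_one, Polynomial.coeff_C] at h2
  norm_num at h2
  rw [LinearMap.trace_eq_matrix_trace k b]
  exact h2

end Residual

end Fermat.Agent.GB.Setup.Carayol2
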