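/-
GATE-B (Ribet level lowering, S38/S43) / node GB-SETUP (iii), leaf HABS (helper61):
**irreducible + transvection ⟹ absolutely irreducible** (the `habs` binder of the frozen S56 and of
helper78's `GB/Def/TWHyp.hTW_S56`).

`isIrreducible_baseChange_of_transvection` : if `ρ : ResidualGaloisRep k` is irreducible over `k`
and its image contains a transvection `u` (`u ≠ 1`, `(u - 1)² = 0`), then `ρ.baseChange K` is
irreducible for EVERY field `K` over `k`.  Hence `ρ` and every `ρ.baseChange K` are absolutely
irreducible.

Proof (the argument of `TWHyp.hTW_of_transvection`, simplified): with `N = u - 1`, a stable line of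
`K ⊗ V` is `N_K`-stable, hence equals `ker N_K = range N_K`; so `N_K ρ_K(g) N_K = 0` for all `g`,
hence `N ρ(g) N = 0` over `k` (base change is injective on endomorphisms), i.e. `range N = ker N` is
a stable line of `V`: contradiction.
-/
import Mathlib
import Fermat.Agent.GB.Def.TWHyp

set_option autoImplicit false

open scoped TensorProduct

namespace Fermat.Agent.GB.Setup.Irr

open Fermat.Agent.GB.Def.TWHyp

/-- `ℚ̄`. -/
local notation "Qb" => AlgebraicClosure ℚ

variable {k : Type} [Field k]

/-- **Irreducible + transvection ⟹ irreducible after every base change.** -/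
theorem isIrreducible_baseChange_of_transvection (ρ : ResidualGaloisRep k)
    (hirr : ρ.IsIrreducible) (htrans : HasTransvection ρ) (K : Type) [Field K] [Algebra k K] :
    (ρ.baseChange K).IsIrreducible := by
  obtain ⟨σ, hσ1, hσ2⟩ := htrans
  set N : Module.End k ρ.V := ρ.ρ σ - 1 with hNdef
  have hN : N ≠ 0 := sub_ne_zero.mpr hσ1
  have hNN : N * N = 0 := by rw [← sq]; exact hσ2
  intro V hV
  by_contra hcon
  obtain ⟨hV0, hV1⟩ := not_or.mp hcon
  let bc := Module.End.baseChangeHom k K ρ.V
  have hbc_inj : Function.Injective bc := LinearMap.baseChangeHom_injective k ρ.V K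
  have hρK : ∀ g, (ρ.baseChange K).ρ g = bc (ρ.ρ g) := fun g => rfl
  set NK := bc N with hNKdef
  have hNK : NK ≠ 0 := fun h => hN (hbc_inj (by rw [← hNKdef, h, map_zero]))
  have hNK2 : NK * NK = 0 := by rw [hNKdef, ← map_mul, hNN, map_zero]
  have hNKρ : NK = (ρ.baseChange K).ρ σ - 1 := by
    rw [hρK, hNKdef, hNdef, map_sub, map_one]
  have hfin : Module.finrank K (ρ.baseChange K).V = 2 := (ρ.baseChange K).finrank_eq
  -- `V = ker NK`
  have hVker : V = LinearMap.ker NK := by
    apply eq_ker_of_stable hfin NK hNK hNK2 V hV0 hV1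
    intro x hx
    rw [hNKρ, LinearMap.sub_apply, Module.End.one_apply]
    exact V.sub_mem (hV σ x hx) hx
  obtain ⟨hrk, -⟩ := range_eq_ker_and_finrank hfin NK hNK hNK2
  -- `N ρ(g) N = 0`
  have hzero : ∀ g : Qb ≃ₐ[ℚ] Qb, N * ρ.ρ g * N = 0 := by
    intro g
    apply hbc_inj
    rw [map_zero, map_mul, map_mul, ← hNKdef, ← hρK]
    refine LinearMap.ext fun x => ?_
    have hx : NK x ∈ V := by
      rw [hVker, ← hrk]
      exact LinearMap.mem_range_self NK x
    have h2 := hV g _ hx
    rw [hVker, LinearMap.mem_ker] at h2
    simpa using h2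
  -- `range N` is a stable line of `ρ.V`
  obtain ⟨hrk0, hk0⟩ := range_eq_ker_and_finrank ρ.finrank_eq N hN hNN
  rcases hirr (LinearMap.ker N) (by
    intro g x hx
    rw [← hrk0] at hx
    obtain ⟨y, rfl⟩ := hx
    rw [LinearMap.mem_ker]
    exact LinearMap.congr_fun (hzero g) y) with h | h
  · rw [h, finrank_bot] at hk0
    exact absurd hk0 (by norm_num)
  · rw [h, finrank_top, ρ.finrank_eq] at hk0
    exact absurd hk0 (by norm_num)

/-- Irreducible + transvection ⟹ absolutely irreducible. -/
theorem isAbsolutelyIrreducible_of_transvection (ρ : ResidualGaloisRep k)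
    (hirr : ρ.IsIrreducible) (htrans : HasTransvection ρ) : ρ.IsAbsolutelyIrreducible :=
  isIrreducible_baseChange_of_transvection ρ hirr htrans (AlgebraicClosure k)

/-- Irreducible + transvection ⟹ every base change is absolutely irreducible. -/
theorem isAbsolutelyIrreducible_baseChange_of_transvection (ρ : ResidualGaloisRep k)
    (hirr : ρ.IsIrreducible) (htrans : HasTransvection ρ) (K : Type) [Field K] [Algebra k K] :
    (ρ.baseChange K).IsAbsolutelyIrreducible :=
  isAbsolutelyIrreducible_of_transvection (ρ.baseChange K)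
    (isIrreducible_baseChange_of_transvection ρ hirr htrans K)
    (hasTransvection_baseChange K ρ htrans)

end Fermat.Agent.GB.Setup.Irr
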