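/-
GATE-B (Ribet level lowering, S38/S43) / node GB-SETUP (iii), algebra leaf (helper61):
**characteristic polynomials from quadratic relations**.

On main, the Frobenius at a good prime `ℓ` is only known to satisfy the RELATION
`τ² - a_ℓ τ + ℓ = 0` on `E[p]` (`GE/Top/ECFinal.frobRel`); there is no Weil pairing, so neither
`det ρ̄_E = cyclotomic` nor `tr ρ̄_E(Frob_ℓ) = a_ℓ` is available (a scalar Frobenius is ambiguous).
This file closes that gap by pure linear algebra:

`charpoly_of_rel` : let `ρ : G →* End_F V` be an IRREDUCIBLE representation of a group on a plane,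
`a d : G → F` with `d` multiplicative, and `ρ(g)² - a(g) ρ(g) + d(g) = 0` for ALL `g`.  Then
`charpoly ρ(g) = X² - a(g) X + d(g)` for all `g`.

(Non-scalar `ρ(g)`: Cayley–Hamilton.  Scalar `ρ(g) = c`: pick a non-scalar `ρ(h)`; `ρ(gh) = c ρ(h)`
is non-scalar, so `c² d(h) = det ρ(gh) = d(g) d(h)`, i.e. `d(g) = c²`, and then the relation gives
`a(g) = 2c`.)  In the application `a, d` are the trace and determinant of `ρ̄_f` (S29) and the
relation comes from Chebotarev + `frobRel`.

Mathlib only.
-/
import Mathlib

set_option autoImplicit false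

namespace Fermat.Agent.GB.Setup.QuadRel

open Matrix Polynomial

section Mat

variable {F : Type*} [Field F]

/-- Cayley–Hamilton for `2 × 2` matrices, explicit form. -/
theorem sq_sub_trace_add_det (M : Matrix (Fin 2) (Fin 2) F) :
    M * M - M.trace • M + M.det • (1 : Matrix (Fin 2) (Fin 2) F) = 0 := by
  ext i j
  fin_cases i <;> fin_cases j <;>
    simp [Matrix.mul_apply, Matrix.trace_fin_two, Matrix.det_fin_two, Fin.sum_univ_two] <;> ring

/-- A non-scalar `2 × 2` matrix killed by `X² - a X + d` has trace `a` and determinant `d`. -/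
theorem trace_det_of_rel_of_not_scalar {M : Matrix (Fin 2) (Fin 2) F} {a d : F}
    (hrel : M * M - a • M + d • (1 : Matrix (Fin 2) (Fin 2) F) = 0)
    (hns : ∀ c : F, M ≠ c • (1 : Matrix (Fin 2) (Fin 2) F)) : M.trace = a ∧ M.det = d := by
  have hCH := sq_sub_trace_add_det M
  have hsub : (a - M.trace) • M = (d - M.det) • (1 : Matrix (Fin 2) (Fin 2) F) := by
    have h := congrArg₂ (· - ·) hCH hrel
    simp only [sub_zero] at h
    have h2 : (a - M.trace) • M - (d - M.det) • (1 : Matrix (Fin 2) (Fin 2) F) =
        (M * M - M.trace • M + M.det • (1 : Matrix (Fin 2) (Fin 2) F)) -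
          (M * M - a • M + d • (1 : Matrix (Fin 2) (Fin 2) F)) := by
      simp only [sub_smul]
      abel
    rw [← sub_eq_zero, h2, h]
  have htr : M.trace = a := by
    by_contra hne
    have hne' : a - M.trace ≠ 0 := sub_ne_zero.mpr (Ne.symm hne)
    apply hns ((a - M.trace)⁻¹ * (d - M.det))
    rw [mul_smul, ← hsub, smul_smul, inv_mul_cancel₀ hne', one_smul]
  refine ⟨htr, ?_⟩
  rw [htr, sub_self, zero_smul] at hsub
  have h00 := congrFun (congrFun hsub 0) 0
  simp only [Matrix.zero_apply, Matrix.smul_apply, Matrix.one_apply_eq, smul_eq_mul,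
    mul_one] at h00
  exact (sub_eq_zero.mp h00.symm).symm

variable {G : Type*} [Group G]

/-- **Matrix form.** -/
theorem trace_det_of_rel (r : G →* Matrix (Fin 2) (Fin 2) F) (a d : G → F)
    (hd : ∀ g h, d (g * h) = d g * d h)
    (hrel : ∀ g, r g * r g - a g • r g + d g • (1 : Matrix (Fin 2) (Fin 2) F) = 0)
    (hns : ∃ h, ∀ c : F, r h ≠ c • (1 : Matrix (Fin 2) (Fin 2) F)) (g : G) :
    (r g).trace = a g ∧ (r g).det = d g := by
  by_cases hg : ∀ c : F, r g ≠ c • (1 : Matrix (Fin 2) (Fin 2) F)
  · exact trace_det_of_rel_of_not_scalar (hrel g) hg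
  · push Not at hg
    obtain ⟨c, hc⟩ := hg
    obtain ⟨h, hh⟩ := hns
    obtain ⟨-, hdeth⟩ := trace_det_of_rel_of_not_scalar (hrel h) hh
    -- units
    have hinv : ∀ x : G, r x * r x⁻¹ = 1 := fun x => by rw [← map_mul, mul_inv_cancel, map_one]
    have hc0 : c ≠ 0 := by
      rintro rfl
      have := hinv g
      rw [hc, zero_smul, zero_mul] at this
      exact zero_ne_one this
    have hdh0 : d h ≠ 0 := by
      rw [← hdeth]
      intro h0
      have := congrArg Matrix.det (hinv h)
      rw [Matrix.det_mul, h0, zero_mul, Matrix.det_one] at this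
      exact zero_ne_one this
    -- `r (g * h) = c • r h` is not scalar
    have hgh : r (g * h) = c • r h := by rw [map_mul, hc, smul_mul_assoc, one_mul]
    have hghns : ∀ e : F, r (g * h) ≠ e • (1 : Matrix (Fin 2) (Fin 2) F) := by
      intro e he
      apply hh (c⁻¹ * e)
      rw [mul_smul, ← he, hgh, smul_smul, inv_mul_cancel₀ hc0, one_smul]
    obtain ⟨-, hdetgh⟩ := trace_det_of_rel_of_not_scalar (hrel (g * h)) hghns
    have hdg : d g = c ^ 2 := by
      rw [hgh, Matrix.det_smul, Fintype.card_fin, hdeth, hd] at hdetgh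
      exact (mul_right_cancel₀ hdh0 hdetgh).symm
    have hrg : c * c - a g * c + d g = 0 := by
      have h1 := hrel g
      rw [hc, smul_mul_smul_comm, one_mul, smul_smul, ← sub_smul, ← add_smul] at h1
      have h00 := congrFun (congrFun h1 0) 0
      simpa using h00
    have hag : a g = 2 * c := by
      rw [hdg] at hrg
      have h1 : c * (2 * c - a g) = 0 := by
        have : c * (2 * c - a g) = c * c - a g * c + c ^ 2 := by ring
        rw [this]
        exact hrg
      rcases mul_eq_zero.mp h1 with h2 | h2
      · exact absurd h2 hc0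
      · exact (sub_eq_zero.mp h2).symm
    constructor
    · rw [hc, Matrix.trace_smul, Matrix.trace_one, Fintype.card_fin, hag]
      simp [mul_comm]
    · rw [hc, Matrix.det_smul, Matrix.det_one, Fintype.card_fin, mul_one, hdg]

end Mat

section Lin

variable {F : Type*} [Field F] {V : Type*} [AddCommGroup V] [Module F V] [Module.Finite F V]
variable {G : Type*} [Group G]

/-- **GB-SETUP, relation ⟹ characteristic polynomial.** An irreducible representation of a group
on a plane, each of whose operators is killed by `X² - a(g) X + d(g)` with `d` multiplicative, has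
`charpoly ρ(g) = X² - a(g) X + d(g)` for every `g`. -/
theorem charpoly_of_rel (hV : Module.finrank F V = 2) (ρ : G →* Module.End F V) (a d : G → F)
    (hd : ∀ g h, d (g * h) = d g * d h)
    (hrel : ∀ g, ρ g * ρ g - a g • ρ g + d g • (1 : Module.End F V) = 0)
    (hirr : ∀ U : Submodule F V, (∀ g, ∀ x ∈ U, ρ g x ∈ U) → U = ⊥ ∨ U = ⊤) (g : G) :
    (ρ g).charpoly = X ^ 2 - C (a g) * X + C (d g) := by
  classical
  set b : Module.Basis (Fin 2) F V := Module.finBasisOfFinrankEq F V hV with hb
  set e : Module.End F V ≃ₐ[F] Matrix (Fin 2) (Fin 2) F := LinearMap.toMatrixAlgEquiv b with he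
  set r : G →* Matrix (Fin 2) (Fin 2) F := (e : Module.End F V →* Matrix (Fin 2) (Fin 2) F).comp ρ
    with hr
  have hr_apply : ∀ x, r x = e (ρ x) := fun x => rfl
  have hrel' : ∀ x, r x * r x - a x • r x + d x • (1 : Matrix (Fin 2) (Fin 2) F) = 0 := by
    intro x
    have := congrArg e (hrel x)
    rw [map_add, map_sub, map_mul, map_smul, map_smul, map_one, map_zero] at this
    exact this
  have hns : ∃ h, ∀ c : F, r h ≠ c • (1 : Matrix (Fin 2) (Fin 2) F) := by
    by_contra hcon
    push Not at hcon
    have hsc : ∀ h, ∃ c : F, ρ h = c • (1 : Module.End F V) := by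
      intro h
      obtain ⟨c, hc⟩ := hcon h
      refine ⟨c, e.injective ?_⟩
      rw [map_smul, map_one]
      exact hc
    have hb0 : b 0 ≠ 0 := b.ne_zero 0
    rcases hirr (Submodule.span F {b 0}) (by
      intro h x hx
      obtain ⟨c, hc⟩ := hsc h
      rw [hc, LinearMap.smul_apply, Module.End.one_apply]
      exact Submodule.smul_mem _ _ hx) with h0 | h1
    · apply hb0
      have : b 0 ∈ Submodule.span F {b 0} := Submodule.mem_span_singleton_self _
      rw [h0, Submodule.mem_bot] at this
      exact this
    · have h2 := finrank_span_singleton (K := F) hb0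
      rw [h1, finrank_top, hV] at h2
      exact absurd h2 (by norm_num)
  obtain ⟨htr, hdet⟩ := trace_det_of_rel r a d hd hrel' hns g
  have hcp : (ρ g).charpoly = (r g).charpoly := by
    rw [hr_apply, he]
    exact (LinearMap.charpoly_toMatrix (ρ g) b).symm
  rw [hcp, Matrix.charpoly_fin_two, htr, hdet]

end Lin

end Fermat.Agent.GB.Setup.QuadRel
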