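/-
GATE-B (Ribet level lowering, S38/S43) / node GB-SETUP (iii) (helper61): **the residual
representation `ρ̄ = W[p]` of a residually modular curve**.

There is no Weil pairing on main: for `E[p]` only the Frobenius RELATION
`τ² - a_ℓ(W) τ + ℓ = 0` at good `ℓ ≠ p` is known (`GE/Top/ECFinal.frobRel`).  If `W` is residually
modular of level `M` (datum `D : ModData W p M` = the witnesses `(f, 𝔪)` of the frozen
`W.IsResiduallyModularOfLevel p M`) and `W[p]` is irreducible, everything else follows from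
`ρ̄_f` (S29, on main), Chebotarev and `QuadRel.charpoly_of_rel`:

* `charpoly_map_eq`   : `charpoly ρ̄(σ)`, mapped to `κ = ℤ̄/𝔪`, is `charpoly ρ̄_f(σ)`, for ALL `σ`;
* `charpoly_frob`     : `charpoly ρ̄(Frob_ℓ) = X² - a_ℓ(W) X + ℓ` over `ZMod p`, `ℓ` good, `ℓ ∤ M p`;
* `detIsCyclotomic`   : the `hdet` binder of the frozen S56 for every base change `ρ̄ ⊗ k`;
* `isEquiv_rhof`      : `ρ̄ ⊗ κ ≃ ρ̄_f` when `ρ̄ ⊗ κ` is absolutely irreducible (BN2);
* `isUnramifiedAt`    : `ρ̄` (and every `ρ̄ ⊗ k`) is unramified at every prime `r ∤ M p`;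
* `isAbsolutelyIrreducible_baseChange` : `habs` of S56 from `hirr` + `htrans`.
-/
import Mathlib
import Fermat.Agent.GB.Setup.QuadRel
import Fermat.Agent.GB.Setup.Carayol2
import Fermat.Agent.GB.Setup.Irr
import Fermat.Agent.GB.Top.ModelChange
import Fermat.Agent.GS.DetCyc

set_option autoImplicit false

open WeierstrassCurve WeierstrassCurve.Affine.Point Polynomial
open scoped WeierstrassCurve.Affine
open Fermat.Agent.Common_helper32

namespace Fermat.Agent.GB.Setup.RhoBar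

/-- `ℚ̄`. -/
local notation "Qb" => AlgebraicClosure ℚ
/-- `G_ℚ`. -/
local notation "GQ" => (AlgebraicClosure ℚ ≃ₐ[ℚ] AlgebraicClosure ℚ)
/-- `ℤ̄`. -/
local notation "Zbar" => integralClosure ℤ ℂ

/-! ### conjugation invariance of a quadratic relation -/

section Alg

variable {F : Type*} [CommRing F] {A : Type*} [Ring A] [Algebra F A]

theorem rel_of_conj (X Y S : A) (hYX : Y * X = 1) (α δ : F)
    (h : (X * S * Y) * (X * S * Y) - α • (X * S * Y) + δ • (1 : A) = 0) :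
    S * S - α • S + δ • (1 : A) = 0 := by
  have e1 : Y * ((X * S * Y) * (X * S * Y)) * X = S * S := by
    calc Y * ((X * S * Y) * (X * S * Y)) * X
        = (Y * X) * S * (Y * X) * S * (Y * X) := by noncomm_ring
      _ = S * S := by rw [hYX]; noncomm_ring
  have e2 : Y * (α • (X * S * Y)) * X = α • S := by
    calc Y * (α • (X * S * Y)) * X = α • ((Y * X) * S * (Y * X)) := by
          rw [mul_smul_comm, smul_mul_assoc]; noncomm_ring
      _ = α • S := by rw [hYX]; noncomm_ring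
  have e3 : Y * (δ • (1 : A)) * X = δ • (1 : A) := by
    rw [mul_smul_comm, smul_mul_assoc, mul_one, hYX]
  have := congrArg (fun T => Y * T * X) h
  simp only [mul_add, mul_sub, add_mul, sub_mul, mul_zero, zero_mul] at this
  rw [e1, e2, e3] at this
  exact this

end Alg

/-! ### the datum -/

/-- The witnesses of the frozen `W.IsResiduallyModularOfLevel p M`. -/
structure ModData (W : WeierstrassCurve ℤ) (p M : ℕ) where
  /-- the eigenform -/
  f : CuspForm (CongruenceSubgroup.Gamma0 M) 2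
  /-- the maximal ideal over `p` -/
  𝔪 : Ideal Zbar
  hf : f.IsNormalizedEigenform
  [hmax : 𝔪.IsMaximal]
  hp : (p : Zbar) ∈ 𝔪
  hcong : ∀ ℓ : ℕ, ℓ.Prime → W.IsGoodPrimeFor ℓ → ¬ ℓ ∣ M → ℓ ≠ p →
    ∃ a : Zbar, (a : ℂ) = ModularFormClass.qCoeff f ℓ ∧
      a - ((W.apOfModel ℓ : ℤ) : Zbar) ∈ 𝔪

attribute [instance] ModData.hmax

theorem nonempty_modData_iff (W : WeierstrassCurve ℤ) (p M : ℕ) :
    W.IsResiduallyModularOfLevel p M ↔ Nonempty (ModData W p M) := by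
  constructor
  · rintro ⟨f, 𝔪, hf, hmax, hp, hcong⟩
    exact ⟨{ f := f, 𝔪 := 𝔪, hf := hf, hmax := hmax, hp := hp, hcong := hcong }⟩
  · rintro ⟨D⟩
    exact ⟨D.f, D.𝔪, D.hf, D.hmax, D.hp, D.hcong⟩

namespace ModData

variable {W : WeierstrassCurve ℤ} {p M : ℕ} (D : ModData W p M)

/-- the residue field `κ = ℤ̄/𝔪` -/
abbrev κ : Type := Zbar ⧸ D.𝔪

noncomputable instance instFieldκ : Field D.κ := Ideal.Quotient.field D.𝔪

instance instCharPκ [hp : Fact p.Prime] : CharP D.κ p :=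
  Fermat.Agent.GB.Top.ModelChangeProof.charP_quot D.𝔪 hp.out D.hp

noncomputable instance instAlgebraκ [Fact p.Prime] : Algebra (ZMod p) D.κ := ZMod.algebra D.κ p

/-- the residue map -/
abbrev φ : Zbar →+* D.κ := Ideal.Quotient.mk D.𝔪

variable [Fact p.Prime]

/-- `ρ̄_f` (S29). -/
noncomputable def rhof : ResidualGaloisRep D.κ :=
  (Fermat.Agent.S29.result D.hf (Fact.out : p.Prime) D.φ).choose

theorem rhof_isAttachedTo : D.rhof.IsAttachedTo D.f D.φ :=
  (Fermat.Agent.S29.result D.hf (Fact.out : p.Prime) D.φ).choose_spec.1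

theorem rhof_isUnramifiedAt {ℓ : ℕ} (hℓ : ℓ.Prime) (h : ¬ ℓ ∣ M * p) :
    D.rhof.IsUnramifiedAt ℓ :=
  (Fermat.Agent.S29.result D.hf (Fact.out : p.Prime) D.φ).choose_spec.2 ℓ hℓ h

theorem natCast_ne_zero {ℓ : ℕ} (hℓ : ℓ.Prime) (hℓp : ℓ ≠ p) : ((ℓ : ℕ) : D.κ) ≠ 0 := by
  intro h0
  have := (CharP.cast_eq_zero_iff D.κ p ℓ).mp h0
  exact hℓp ((Nat.prime_dvd_prime_iff_eq (Fact.out : p.Prime) hℓ).mp this).symm

/-- The characteristic polynomial of `ρ̄_f` at a Frobenius lift at a good prime `ℓ ∤ M p`, in terms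
of `a_ℓ(W)`. -/
theorem charpoly_rhof_frob {ℓ : ℕ} (hℓ : ℓ.Prime) (hgood : W.IsGoodPrimeFor ℓ) (hℓM : ¬ ℓ ∣ M)
    (hℓp : ℓ ≠ p) (A : ValuationSubring Qb) (hA : A.LiesOverPrime ℓ) (τ : GQ)
    (hτ : A.IsFrobeniusAt τ ℓ) :
    LinearMap.charpoly (D.rhof.ρ τ) =
      X ^ 2 - C (algebraMap (ZMod p) D.κ ((W.apOfModel ℓ : ℤ) : ZMod p)) * X
        + C (algebraMap (ZMod p) D.κ ((ℓ : ℕ) : ZMod p)) := by
  obtain ⟨a, ha, hchar⟩ := D.rhof_isAttachedTo ℓ hℓ hℓM (D.natCast_ne_zero hℓ hℓp) A hA τ hτ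
  obtain ⟨a', ha', hmem⟩ := D.hcong ℓ hℓ hgood hℓM hℓp
  have haa : a = a' := Subtype.ext (ha.trans ha'.symm)
  have h1 : D.φ a = algebraMap (ZMod p) D.κ ((W.apOfModel ℓ : ℤ) : ZMod p) := by
    rw [haa, map_intCast, ← map_intCast D.φ]
    exact Ideal.Quotient.eq.mpr hmem
  have h2 : algebraMap (ZMod p) D.κ ((ℓ : ℕ) : ZMod p) = ((ℓ : ℕ) : D.κ) := map_natCast _ _
  rw [hchar, h1, h2]

end ModData

/-! ### `ρ̄ = W[p]` -/

section Main

variable (p : ℕ) [Fact p.Prime] (W : WeierstrassCurve ℤ)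
  (hcard₁ : Nat.card (Submodule.torsionBy ℤ
    ((W.map (Int.castRingHom ℚ))⁄(AlgebraicClosure ℚ)).Point p) = p ^ 2)
  (hker : GaloisFactorsThroughFiniteLevel
    (galoisRepModuleEnd (K := AlgebraicClosure ℚ) ℚ (W.map (Int.castRingHom ℚ)) p))

/-- `ρ̄ = W[p]` as a residual representation over `ZMod p` (the one of the frozen S38). -/
noncomputable abbrev rb : ResidualGaloisRep (ZMod p) :=
  (W.map (Int.castRingHom ℚ)).residualGaloisRepOf p hcard₁ hker

/-- The Frobenius relation on `W[p]` as an identity of endomorphisms (`galoisRepModuleEnd`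
form). -/
theorem rel_frob' {ℓ : ℕ} (hℓ : ℓ.Prime) (hℓp : ℓ ≠ p) (hgood : W.IsGoodPrimeFor ℓ)
    (A : ValuationSubring Qb) (hA : A.LiesOverPrime ℓ) (τ : GQ) (hτ : A.IsFrobeniusAt τ ℓ) :
    galoisRepModuleEnd (K := Qb) ℚ (W.map (Int.castRingHom ℚ)) p τ *
        galoisRepModuleEnd (K := Qb) ℚ (W.map (Int.castRingHom ℚ)) p τ
      - ((W.apOfModel ℓ : ℤ) : ZMod p) • galoisRepModuleEnd (K := Qb) ℚ (W.map (Int.castRingHom ℚ)) p τ
      + ((ℓ : ℕ) : ZMod p) • (1 : Module.End (ZMod p)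
          (Submodule.torsionBy ℤ ((W.map (Int.castRingHom ℚ))⁄Qb).Point p)) = 0 := by
  refine LinearMap.ext fun x => Subtype.ext ?_
  have hx : (p ^ 1) • (x : ((W.map (Int.castRingHom ℚ))⁄Qb).Point) = 0 := by
    have := x.2
    rw [Submodule.mem_torsionBy_iff, natCast_zsmul] at this
    rw [pow_one]
    exact this
  have h := Fermat.Agent.GE.ECFinal.frobRel W (Fact.out : p.Prime) 1 ℓ hℓ hℓp hgood A hA τ hτ
    (x : ((W.map (Int.castRingHom ℚ))⁄Qb).Point) hx
  simp only [LinearMap.add_apply, LinearMap.sub_apply, LinearMap.smul_apply,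
    Module.End.mul_apply, Module.End.one_apply, LinearMap.zero_apply]
  rw [Int.cast_smul_eq_zsmul, Nat.cast_smul_eq_nsmul]
  rw [← natCast_zsmul] at *
  exact h

/-- The Frobenius relation on `W[p]` as an identity of endomorphisms. -/
theorem rel_frob {ℓ : ℕ} (hℓ : ℓ.Prime) (hℓp : ℓ ≠ p) (hgood : W.IsGoodPrimeFor ℓ)
    (A : ValuationSubring Qb) (hA : A.LiesOverPrime ℓ) (τ : GQ) (hτ : A.IsFrobeniusAt τ ℓ) :
    (rb p W hcard₁ hker).ρ τ * (rb p W hcard₁ hker).ρ τ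
      - ((W.apOfModel ℓ : ℤ) : ZMod p) • (rb p W hcard₁ hker).ρ τ
      + ((ℓ : ℕ) : ZMod p) • (1 : Module.End (ZMod p) (rb p W hcard₁ hker).V) = 0 :=
  rel_frob' p W hℓ hℓp hgood A hA τ hτ

variable {p W}

/-- **(R0)** Every `σ` satisfies on `W[p]` a quadratic relation whose image in `κ` is the
characteristic polynomial of `ρ̄_f(σ)` (Chebotarev + `frobRel` + S29). -/
theorem exists_rel {M : ℕ} (D : ModData W p M) (hM : M ≠ 0) (hΔ : W.Δ ≠ 0) (σ : GQ) :
    ∃ α δ : ZMod p,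
      LinearMap.charpoly (D.rhof.ρ σ) =
        X ^ 2 - C (algebraMap (ZMod p) D.κ α) * X + C (algebraMap (ZMod p) D.κ δ) ∧
      (rb p W hcard₁ hker).ρ σ * (rb p W hcard₁ hker).ρ σ - α • (rb p W hcard₁ hker).ρ σ
        + δ • (1 : Module.End (ZMod p) (rb p W hcard₁ hker).V) = 0 := by
  classical
  have hp : p.Prime := Fact.out
  let B : Finset ℕ := M.primeFactors ∪ {p} ∪ W.Δ.natAbs.primeFactors
  obtain ⟨ℓ, hℓ, hℓB, hfrob⟩ := Fermat.Agent.GP.TW.ChebExist.exists_prime_forall_frob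
    (D.rhof.ρ.prod (rb p W hcard₁ hker).ρ)
    (Fermat.Agent.GP.TW.ChebExist.factorsThroughFiniteLevel_prod _ _
      D.rhof.factorsThroughFiniteLevel (rb p W hcard₁ hker).factorsThroughFiniteLevel) σ B
  have hℓM : ¬ ℓ ∣ M := fun h => hℓB (by
    simp only [B, Finset.mem_union]
    exact Or.inl (Or.inl (Nat.mem_primeFactors.mpr ⟨hℓ, h, hM⟩)))
  have hℓp : ℓ ≠ p := fun h => hℓB (by
    simp only [B, Finset.mem_union, Finset.mem_singleton]
    exact Or.inl (Or.inr h))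
  have hgood : W.IsGoodPrimeFor ℓ := fun h => hℓB (by
    simp only [B, Finset.mem_union]
    exact Or.inr (Nat.mem_primeFactors.mpr
      ⟨hℓ, Int.natCast_dvd.mp h, Int.natAbs_ne_zero.mpr hΔ⟩))
  obtain ⟨A, hA⟩ := exists_liesOverPrime ℓ hℓ
  obtain ⟨τ, hτ⟩ := exists_isFrobeniusAt_of_liesOver A ℓ hℓ hA
  obtain ⟨g, hg⟩ := hfrob A τ hA hτ
  have hg1 : D.rhof.ρ τ = D.rhof.ρ (g * σ * g⁻¹) := congrArg Prod.fst hg
  have hg2 : (rb p W hcard₁ hker).ρ τ = (rb p W hcard₁ hker).ρ (g * σ * g⁻¹) :=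
    congrArg Prod.snd hg
  refine ⟨((W.apOfModel ℓ : ℤ) : ZMod p), ((ℓ : ℕ) : ZMod p), ?_, ?_⟩
  · rw [← Fermat.Agent.GB.Setup.Carayol2.charpoly_conj_eq D.rhof g σ, ← hg1]
    exact D.charpoly_rhof_frob hℓ hgood hℓM hℓp A hA τ hτ
  · have h := rel_frob p W hcard₁ hker hℓ hℓp hgood A hA τ hτ
    rw [hg2, map_mul, map_mul] at h
    exact rel_of_conj ((rb p W hcard₁ hker).ρ g) ((rb p W hcard₁ hker).ρ g⁻¹)
      ((rb p W hcard₁ hker).ρ σ) (by rw [← map_mul, inv_mul_cancel, map_one]) _ _ h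

/-- The frozen irreducibility hypothesis in `ResidualGaloisRep` vocabulary. -/
theorem isIrreducible_rb (hirr : W.ModRepIsIrreducible p) :
    (rb p W hcard₁ hker).IsIrreducible := fun U hU =>
  hirr.2 U (fun σ x hx => hU σ x hx)

/-- **(R1)** For EVERY `σ`, the characteristic polynomial of `ρ̄(σ)` on `W[p]` maps to the
characteristic polynomial of `ρ̄_f(σ)`. -/
theorem charpoly_map_eq {M : ℕ} (D : ModData W p M) (hM : M ≠ 0) (hΔ : W.Δ ≠ 0)
    (hirr : W.ModRepIsIrreducible p) (σ : GQ) :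
    (LinearMap.charpoly ((rb p W hcard₁ hker).ρ σ)).map (algebraMap (ZMod p) D.κ) =
      LinearMap.charpoly (D.rhof.ρ σ) := by
  choose a d hcp hrel using exists_rel hcard₁ hker D hM hΔ
  have hinj : Function.Injective (algebraMap (ZMod p) D.κ) := (algebraMap (ZMod p) D.κ).injective
  have hdet : ∀ g, LinearMap.det (D.rhof.ρ g) = algebraMap (ZMod p) D.κ (d g) := fun g =>
    Fermat.Agent.GK.Tate.det_eq_of_charpoly_eq D.rhof.finrank_eq _ _ _ (hcp g)
  have hd : ∀ g h, d (g * h) = d g * d h := by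
    intro g h
    apply hinj
    rw [map_mul, ← hdet, ← hdet, ← hdet, map_mul, map_mul]
  have h := Fermat.Agent.GB.Setup.QuadRel.charpoly_of_rel (rb p W hcard₁ hker).finrank_eq
    (rb p W hcard₁ hker).ρ a d hd hrel (isIrreducible_rb hcard₁ hker hirr) σ
  rw [h, hcp σ]
  simp only [Polynomial.map_add, Polynomial.map_sub, Polynomial.map_mul, Polynomial.map_pow,
    Polynomial.map_X, Polynomial.map_C]

/-- **(R2)** The characteristic polynomial of a Frobenius lift at a good prime `ℓ ∤ M p` on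
`W[p]` is `X² - a_ℓ(W) X + ℓ`. -/
theorem charpoly_frob {M : ℕ} (D : ModData W p M) (hM : M ≠ 0) (hΔ : W.Δ ≠ 0)
    (hirr : W.ModRepIsIrreducible p) {ℓ : ℕ} (hℓ : ℓ.Prime) (hgood : W.IsGoodPrimeFor ℓ)
    (hℓM : ¬ ℓ ∣ M) (hℓp : ℓ ≠ p) (A : ValuationSubring Qb) (hA : A.LiesOverPrime ℓ) (τ : GQ)
    (hτ : A.IsFrobeniusAt τ ℓ) :
    LinearMap.charpoly ((rb p W hcard₁ hker).ρ τ) =
      X ^ 2 - C (((W.apOfModel ℓ : ℤ) : ZMod p)) * X + C (((ℓ : ℕ) : ZMod p)) := by
  have h1 := charpoly_map_eq hcard₁ hker D hM hΔ hirr τ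
  rw [D.charpoly_rhof_frob hℓ hgood hℓM hℓp A hA τ hτ] at h1
  apply Polynomial.map_injective _ (algebraMap (ZMod p) D.κ).injective
  rw [h1]
  simp only [Polynomial.map_add, Polynomial.map_sub, Polynomial.map_mul, Polynomial.map_pow,
    Polynomial.map_X, Polynomial.map_C]

/-! ### base change to a coefficient field `k ⊇ 𝔽_p` -/

theorem natCast_p_eq_zero (k : Type) [Field k] [Algebra (ZMod p) k] : ((p : ℕ) : k) = 0 := by
  rw [← map_natCast (algebraMap (ZMod p) k), ZMod.natCast_self, _root_.map_zero]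

/-- charpoly of a base change. -/
theorem charpoly_baseChange_frob {M : ℕ} (D : ModData W p M) (hM : M ≠ 0) (hΔ : W.Δ ≠ 0)
    (hirr : W.ModRepIsIrreducible p) (k : Type) [Field k] [Algebra (ZMod p) k]
    {ℓ : ℕ} (hℓ : ℓ.Prime) (hgood : W.IsGoodPrimeFor ℓ)
    (hℓM : ¬ ℓ ∣ M) (hℓp : ℓ ≠ p) (A : ValuationSubring Qb) (hA : A.LiesOverPrime ℓ) (τ : GQ)
    (hτ : A.IsFrobeniusAt τ ℓ) :
    LinearMap.charpoly (((rb p W hcard₁ hker).baseChange k).ρ τ) =
      X ^ 2 - C (((W.apOfModel ℓ : ℤ) : k)) * X + C (((ℓ : ℕ) : k)) := by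
  have h1 : ((rb p W hcard₁ hker).baseChange k).ρ τ =
      ((rb p W hcard₁ hker).ρ τ).baseChange k := rfl
  rw [h1, LinearMap.charpoly_baseChange,
    charpoly_frob hcard₁ hker D hM hΔ hirr hℓ hgood hℓM hℓp A hA τ hτ]
  simp only [Polynomial.map_add, Polynomial.map_sub, Polynomial.map_mul, Polynomial.map_pow,
    Polynomial.map_X, Polynomial.map_C, map_intCast, map_natCast, Polynomial.map_intCast,
    Polynomial.map_natCast]

/-- **(R3)** the `hdet` binder of the frozen S56, for every base change of `ρ̄ = W[p]`. -/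
theorem detIsCyclotomic {M : ℕ} (D : ModData W p M) (hM : M ≠ 0) (hΔ : W.Δ ≠ 0)
    (hirr : W.ModRepIsIrreducible p) (k : Type) [Field k] [Algebra (ZMod p) k] :
    (GaloisRepAdic.ofResidualGaloisRep ((rb p W hcard₁ hker).baseChange k)).DetIsCyclotomic p := by
  classical
  refine Fermat.Agent.GS.DetCyc.detIsCyclotomic_of_charpoly_frob
    (GaloisRepAdic.ofResidualGaloisRep ((rb p W hcard₁ hker).baseChange k))
    (M.primeFactors ∪ {p} ∪ W.Δ.natAbs.primeFactors) ?_ ?_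
    (fun ℓ => ((W.apOfModel ℓ : ℤ) : k)) ?_
  · simp
  · rw [natCast_p_eq_zero k]
    exact Submodule.zero_mem _
  · intro ℓ hℓ hℓB A hA τ hτ
    have hℓM : ¬ ℓ ∣ M := fun h => hℓB (by
      simp only [Finset.mem_union]
      exact Or.inl (Or.inl (Nat.mem_primeFactors.mpr ⟨hℓ, h, hM⟩)))
    have hℓp : ℓ ≠ p := fun h => hℓB (by
      simp only [Finset.mem_union, Finset.mem_singleton]
      exact Or.inl (Or.inr h))
    have hgood : W.IsGoodPrimeFor ℓ := fun h => hℓB (by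
      simp only [Finset.mem_union]
      exact Or.inr (Nat.mem_primeFactors.mpr
        ⟨hℓ, Int.natCast_dvd.mp h, Int.natAbs_ne_zero.mpr hΔ⟩))
    exact charpoly_baseChange_frob hcard₁ hker D hM hΔ hirr k hℓ hgood hℓM hℓp A hA τ hτ

/-- **(R4)** the `habs` binder of the frozen S56 from the frozen irreducibility hypothesis and a
transvection in the image (`htrans` of the GATE-B top interface). -/
theorem isAbsolutelyIrreducible_baseChange (hirr : W.ModRepIsIrreducible p)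
    (htrans : ∃ σ : GQ,
      galoisRepModuleEnd (K := Qb) ℚ (W.map (Int.castRingHom ℚ)) p σ ≠ 1 ∧
        (galoisRepModuleEnd (K := Qb) ℚ (W.map (Int.castRingHom ℚ)) p σ - 1) ^ 2 = 0)
    (k : Type) [Field k] [Algebra (ZMod p) k] :
    ((rb p W hcard₁ hker).baseChange k).IsAbsolutelyIrreducible :=
  Fermat.Agent.GB.Setup.Irr.isAbsolutelyIrreducible_baseChange_of_transvection
    (rb p W hcard₁ hker) (isIrreducible_rb hcard₁ hker hirr) htrans k

/-- the transvection survives base change (the `htrans` binder of `TWHyp.hTW_S56`). -/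
theorem hasTransvection_baseChange
    (htrans : ∃ σ : GQ,
      galoisRepModuleEnd (K := Qb) ℚ (W.map (Int.castRingHom ℚ)) p σ ≠ 1 ∧
        (galoisRepModuleEnd (K := Qb) ℚ (W.map (Int.castRingHom ℚ)) p σ - 1) ^ 2 = 0)
    (k : Type) [Field k] [Algebra (ZMod p) k] :
    ∃ σ : GQ, ((rb p W hcard₁ hker).baseChange k).ρ σ ≠ 1 ∧
      (((rb p W hcard₁ hker).baseChange k).ρ σ - 1) ^ 2 = 0 :=
  Fermat.Agent.GB.Def.TWHyp.hasTransvection_baseChange k (rb p W hcard₁ hker) htrans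

/-! ### comparison with `ρ̄_f`, unramifiedness outside `M p` -/

/-- equal characteristic polynomials in a plane give equal traces -/
theorem trace_eq_of_charpoly_eq_charpoly {k : Type} [Field k] (ρ₁ ρ₂ : ResidualGaloisRep k) (σ : GQ)
    (h : LinearMap.charpoly (ρ₁.ρ σ) = LinearMap.charpoly (ρ₂.ρ σ)) :
    LinearMap.trace k ρ₁.V (ρ₁.ρ σ) = LinearMap.trace k ρ₂.V (ρ₂.ρ σ) := by
  rw [Fermat.Agent.GK.Tate.charpoly_eq_of_finrank_two ρ₁.finrank_eq,
    Fermat.Agent.GK.Tate.charpoly_eq_of_finrank_two ρ₂.finrank_eq] at h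
  exact (Fermat.Agent.GB.Top.ModelChangeProof.coeffs_of_quad_eq h).1

/-- **(R5a)** `ρ̄ ⊗ κ ≃ ρ̄_f` (Brauer–Nesbitt), when `ρ̄ ⊗ κ` is absolutely irreducible. -/
theorem isEquiv_rhof {M : ℕ} (D : ModData W p M) (hM : M ≠ 0) (hΔ : W.Δ ≠ 0)
    (hirr : W.ModRepIsIrreducible p)
    (habs : ((rb p W hcard₁ hker).baseChange D.κ).IsAbsolutelyIrreducible) :
    ((rb p W hcard₁ hker).baseChange D.κ).IsEquiv D.rhof := by
  apply Fermat.Agent.GB.Setup.Carayol2.isEquiv_of_trace_eq _ _ habs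
  intro σ
  apply trace_eq_of_charpoly_eq_charpoly
  rw [← charpoly_map_eq hcard₁ hker D hM hΔ hirr σ]
  exact LinearMap.charpoly_baseChange ((rb p W hcard₁ hker).ρ σ) D.κ

/-- **(R5b)** `ρ̄ = W[p]` is unramified at every prime `r ∤ M p` — also at the bad primes of `W`
which do not divide `M`. -/
theorem isUnramifiedAt {M : ℕ} (D : ModData W p M) (hM : M ≠ 0) (hΔ : W.Δ ≠ 0)
    (hirr : W.ModRepIsIrreducible p)
    (habs : ((rb p W hcard₁ hker).baseChange D.κ).IsAbsolutelyIrreducible)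
    {r : ℕ} (hr : r.Prime) (hrMp : ¬ r ∣ M * p) : (rb p W hcard₁ hker).IsUnramifiedAt r := by
  intro A hA σ hσ
  obtain ⟨e⟩ := isEquiv_rhof hcard₁ hker D hM hΔ hirr habs
  have h1 : D.rhof.ρ σ = 1 := D.rhof_isUnramifiedAt hr hrMp A hA σ hσ
  have h2 : ((rb p W hcard₁ hker).baseChange D.κ).ρ σ = 1 := by
    refine LinearMap.ext fun x => e.toLinearEquiv.injective ?_
    rw [e.map_apply, h1]
    rfl
  apply LinearMap.baseChangeHom_injective (ZMod p) (rb p W hcard₁ hker).V D.κ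
  change Module.End.baseChangeHom (ZMod p) D.κ (rb p W hcard₁ hker).V ((rb p W hcard₁ hker).ρ σ) =
    Module.End.baseChangeHom (ZMod p) D.κ (rb p W hcard₁ hker).V 1
  rw [map_one]
  exact h2

/-- unramifiedness passes to base changes -/
theorem isUnramifiedAt_baseChange {r : ℕ} (h : (rb p W hcard₁ hker).IsUnramifiedAt r)
    (k : Type) [Field k] [Algebra (ZMod p) k] :
    ((rb p W hcard₁ hker).baseChange k).IsUnramifiedAt r := by
  intro A hA σ hσ
  have h1 := h A hA σ hσ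
  change ((rb p W hcard₁ hker).ρ σ).baseChange k = 1
  rw [h1, LinearMap.baseChange_one]

/-- **(R5), top-interface form**: with the transvection binder, `ρ̄ ⊗ k` is unramified at every
prime `r ∤ M p`. -/
theorem isUnramifiedAt_of_transvection {M : ℕ} (D : ModData W p M) (hM : M ≠ 0) (hΔ : W.Δ ≠ 0)
    (hirr : W.ModRepIsIrreducible p)
    (htrans : ∃ σ : GQ,
      galoisRepModuleEnd (K := Qb) ℚ (W.map (Int.castRingHom ℚ)) p σ ≠ 1 ∧
        (galoisRepModuleEnd (K := Qb) ℚ (W.map (Int.castRingHom ℚ)) p σ - 1) ^ 2 = 0)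
    (k : Type) [Field k] [Algebra (ZMod p) k] {r : ℕ} (hr : r.Prime) (hrMp : ¬ r ∣ M * p) :
    ((rb p W hcard₁ hker).baseChange k).IsUnramifiedAt r :=
  isUnramifiedAt_baseChange hcard₁ hker
    (isUnramifiedAt hcard₁ hker D hM hΔ hirr
      (isAbsolutelyIrreducible_baseChange hcard₁ hker hirr htrans D.κ) hr hrMp) k

end Main

/-! ### `hsplit` -/

/-- the `hsplit` binder of the frozen S56 for a base change from `ZMod p`, from the splitting
property of `CoeffRing.exists_coeffRing`. -/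
theorem hsplit_baseChange {p : ℕ} [Fact p.Prime] (ρ₀ : ResidualGaloisRep (ZMod p))
    (k : Type) [Field k] [Algebra (ZMod p) k]
    (hk : ∀ f : (ZMod p)[X], f.Monic → f.natDegree = 2 →
      ∃ α β : k, f.map (algebraMap (ZMod p) k) = (X - C α) * (X - C β)) (σ : GQ) :
    ∃ α β : k, LinearMap.charpoly ((ρ₀.baseChange k).ρ σ) = (X - C α) * (X - C β) := by
  have h1 : (ρ₀.baseChange k).ρ σ = (ρ₀.ρ σ).baseChange k := rfl
  obtain ⟨α, β, h⟩ := hk (LinearMap.charpoly (ρ₀.ρ σ)) (LinearMap.charpoly_monic _)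
    (by rw [LinearMap.charpoly_natDegree, ρ₀.finrank_eq])
  exact ⟨α, β, by rw [h1, LinearMap.charpoly_baseChange, h]⟩

end Fermat.Agent.GB.Setup.RhoBar
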