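/-
GATE-B (Ribet level lowering, S38/S43) / node GB-SETUP (ii) (helper61):
**the residual Hecke eigensystem `θ̄ : 𝕋 → 𝔽_p` of `W`.**

For `D : ModData W p M` (the witnesses of the frozen `W.IsResiduallyModularOfLevel p M`) and a set
`S` of primes containing `p`, the primes of `M` and the bad primes of `W`, the eigencharacter
`lamInt` of the eigenform `D.f` reduced modulo `D.𝔪` takes values in the prime field:

* `theta D S … : heckeAlgebra M 2 S →+* ZMod p` with `theta (T_ℓ) = a_ℓ(W) mod p`;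
* `thetaK … k : heckeAlgebra M 2 S →+* k` for any `[Field k] [Algebra (ZMod p) k]`
  (`k = ResidueField 𝒪`), `thetaK (T_ℓ) = (a_ℓ(W) : k)`;
* `hfrob_thetaK` — the `hfrob` binder of helper36's `GB/Glue/DatumOfRhobar.exists_datum`
  for `ρbar = ρ̄_W ⊗ k`.
-/
import Mathlib
import Fermat.Agent.GB.Setup.RhoBar
import Fermat.Agent.GJ.J4.EigChar

set_option autoImplicit false

open WeierstrassCurve WeierstrassCurve.Affine.Point Polynomial IsLocalRing CuspForm
open scoped WeierstrassCurve.Affine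

namespace Fermat.Agent.GB.Setup.Theta

open Fermat.Agent.GB.Setup.RhoBar Fermat.Agent.GJ.EigChar

/-- `ℚ̄`. -/
local notation "Qb" => AlgebraicClosure ℚ
/-- `G_ℚ`. -/
local notation "GQ" => (AlgebraicClosure ℚ ≃ₐ[ℚ] AlgebraicClosure ℚ)
/-- `ℤ̄ ⊆ ℂ`. -/
local notation "Zbar" => integralClosure ℤ ℂ

section Theta

variable {p : ℕ} [Fact p.Prime] {W : WeierstrassCurve ℤ} {M : ℕ} [NeZero M]
  (D : ModData W p M) (S : Set ℕ)

/-- the eigencharacter of `D.f` reduced mod `D.𝔪` -/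
noncomputable def thetaκ : heckeAlgebra M 2 S →+* D.κ :=
  D.φ.comp (lamInt D.hf)

omit [Fact p.Prime] in
theorem thetaκ_T {ℓ : ℕ} (hℓ : ℓ.Prime) (hℓM : ¬ ℓ ∣ M) (hℓS : ℓ ∉ S)
    (hgood : W.IsGoodPrimeFor ℓ) (hℓp : ℓ ≠ p) :
    thetaκ D S (heckeAlgebra.T hℓ hℓM hℓS) = ((W.apOfModel ℓ : ℤ) : D.κ) := by
  obtain ⟨a, ha, hmem⟩ := D.hcong ℓ hℓ hgood hℓM hℓp
  have h1 : lamInt D.hf (heckeAlgebra.T hℓ hℓM hℓS) = a := by
    apply Subtype.ext
    rw [coe_lamInt, lam_T, ha]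
  rw [thetaκ, RingHom.comp_apply, h1]
  have h2 : D.φ (a - ((W.apOfModel ℓ : ℤ) : Zbar)) = 0 := Ideal.Quotient.eq_zero_iff_mem.mpr hmem
  rw [map_sub, map_intCast, sub_eq_zero] at h2
  exact h2

variable (hpS : p ∈ S) (hMS : ∀ q : ℕ, q.Prime → q ∣ M → q ∈ S)
  (hWS : ∀ q : ℕ, q.Prime → ¬ W.IsGoodPrimeFor q → q ∈ S)

include hpS hMS hWS in
/-- the eigensystem takes values in the prime field -/
theorem thetaκ_mem_range (t : heckeAlgebra M 2 S) :
    thetaκ D S t ∈ (algebraMap (ZMod p) D.κ).range := by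
  classical
  -- the `ℤ`-subalgebra of elements of `End` whose ... ; induct on the adjoin
  have key : ∀ x (hx : x ∈ heckeAlgebra M 2 S),
      thetaκ D S ⟨x, hx⟩ ∈ (algebraMap (ZMod p) D.κ).range := by
    intro x hx
    induction hx using Algebra.adjoin_induction with
    | mem x hx =>
      rcases hx with ⟨ℓ, hℓ, hℓM, hℓS, rfl⟩ | ⟨q, hqM, hq, hqS, rfl⟩
      · have hgood : W.IsGoodPrimeFor ℓ := by
          by_contra h
          exact hℓS (hWS ℓ hℓ h)
        have hℓp : ℓ ≠ p := fun h => hℓS (h ▸ hpS)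
        have := thetaκ_T D S hℓ hℓM hℓS hgood hℓp
        rw [heckeAlgebra.T] at this
        rw [this]
        exact ⟨((W.apOfModel ℓ : ℤ) : ZMod p), map_intCast _ _⟩
      · exact absurd (hMS q hq hqM) hqS
    | algebraMap r =>
      have : (⟨algebraMap ℤ _ r, Subalgebra.algebraMap_mem _ r⟩ : heckeAlgebra M 2 S) =
          ((r : ℤ) : heckeAlgebra M 2 S) := by
        apply Subtype.ext
        simp
      rw [this, map_intCast]
      exact ⟨((r : ℤ) : ZMod p), map_intCast _ _⟩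
    | add x y hx hy ihx ihy =>
      have : (⟨x + y, Subalgebra.add_mem _ hx hy⟩ : heckeAlgebra M 2 S) = ⟨x, hx⟩ + ⟨y, hy⟩ := rfl
      rw [this, map_add]
      exact Subring.add_mem _ ihx ihy
    | mul x y hx hy ihx ihy =>
      have : (⟨x * y, Subalgebra.mul_mem _ hx hy⟩ : heckeAlgebra M 2 S) = ⟨x, hx⟩ * ⟨y, hy⟩ := rfl
      rw [this, map_mul]
      exact Subring.mul_mem _ ihx ihy
  exact key t.1 t.2

/-- **the residual eigensystem** `θ̄ : 𝕋^S(M) → 𝔽_p`. -/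
noncomputable def theta : heckeAlgebra M 2 S →+* ZMod p :=
  ((RingEquiv.ofBijective (algebraMap (ZMod p) D.κ).rangeRestrict
      ⟨fun _ _ h => (algebraMap (ZMod p) D.κ).injective (congrArg Subtype.val h),
        (algebraMap (ZMod p) D.κ).rangeRestrict_surjective⟩).symm : _ →+* ZMod p).comp
    ((thetaκ D S).codRestrict (algebraMap (ZMod p) D.κ).range
      (thetaκ_mem_range D S hpS hMS hWS))

theorem algebraMap_theta (t : heckeAlgebra M 2 S) :
    algebraMap (ZMod p) D.κ (theta D S hpS hMS hWS t) = thetaκ D S t := by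
  rw [theta, RingHom.comp_apply]
  set e := RingEquiv.ofBijective (algebraMap (ZMod p) D.κ).rangeRestrict
      ⟨fun _ _ h => (algebraMap (ZMod p) D.κ).injective (congrArg Subtype.val h),
        (algebraMap (ZMod p) D.κ).rangeRestrict_surjective⟩ with he
  set y := (thetaκ D S).codRestrict (algebraMap (ZMod p) D.κ).range
      (thetaκ_mem_range D S hpS hMS hWS) t with hy
  have h1 : e (e.symm y) = y := e.apply_symm_apply y
  have h2 : ((e (e.symm y) : (algebraMap (ZMod p) D.κ).range) : D.κ) =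
      algebraMap (ZMod p) D.κ (e.symm y) := rfl
  rw [RingEquiv.coe_toRingHom, ← h2, h1]
  rfl

theorem theta_T {ℓ : ℕ} (hℓ : ℓ.Prime) (hℓM : ¬ ℓ ∣ M) (hℓS : ℓ ∉ S) :
    theta D S hpS hMS hWS (heckeAlgebra.T hℓ hℓM hℓS) = ((W.apOfModel ℓ : ℤ) : ZMod p) := by
  apply (algebraMap (ZMod p) D.κ).injective
  have hgood : W.IsGoodPrimeFor ℓ := by
    by_contra h
    exact hℓS (hWS ℓ hℓ h)
  have hℓp : ℓ ≠ p := fun h => hℓS (h ▸ hpS)
  rw [algebraMap_theta, thetaκ_T D S hℓ hℓM hℓS hgood hℓp, map_intCast]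

/-- `θ̄` with values in a coefficient field `k ⊇ 𝔽_p` (`k = ResidueField 𝒪`). -/
noncomputable def thetaK (k : Type) [Field k] [Algebra (ZMod p) k] : heckeAlgebra M 2 S →+* k :=
  (algebraMap (ZMod p) k).comp (theta D S hpS hMS hWS)

theorem thetaK_T (k : Type) [Field k] [Algebra (ZMod p) k] {ℓ : ℕ} (hℓ : ℓ.Prime)
    (hℓM : ¬ ℓ ∣ M) (hℓS : ℓ ∉ S) :
    thetaK D S hpS hMS hWS k (heckeAlgebra.T hℓ hℓM hℓS) = ((W.apOfModel ℓ : ℤ) : k) := by
  rw [thetaK, RingHom.comp_apply, theta_T, map_intCast]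

end Theta

/-! ### the `hfrob` binder of `GB/Glue/DatumOfRhobar.exists_datum` -/

section Frob

variable {p : ℕ} [Fact p.Prime] {W : WeierstrassCurve ℤ}
  (hcard₁ : Nat.card (Submodule.torsionBy ℤ
    ((W.map (Int.castRingHom ℚ))⁄(AlgebraicClosure ℚ)).Point p) = p ^ 2)
  (hker : GaloisFactorsThroughFiniteLevel
    (galoisRepModuleEnd (K := AlgebraicClosure ℚ) ℚ (W.map (Int.castRingHom ℚ)) p))
  {M : ℕ} [NeZero M] (D : ModData W p M) (S : Set ℕ)
  (hpS : p ∈ S) (hMS : ∀ q : ℕ, q.Prime → q ∣ M → q ∈ S)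
  (hWS : ∀ q : ℕ, q.Prime → ¬ W.IsGoodPrimeFor q → q ∈ S)

/-- the Eichler–Shimura characteristic polynomials of `ρ̄_W ⊗ k` in terms of `θ̄`. -/
theorem hfrob_thetaK (hΔ : W.Δ ≠ 0) (hirr : W.ModRepIsIrreducible p)
    (k : Type) [Field k] [Algebra (ZMod p) k]
    (ℓ : ℕ) (hℓ : ℓ.Prime) (hℓM : ¬ ℓ ∣ M) (hℓS : ℓ ∉ S)
    (P : ValuationSubring Qb) (hP : P.LiesOverPrime ℓ) (σ : GQ) (hσ : P.IsFrobeniusAt σ ℓ) :
    LinearMap.charpoly (((rb p W hcard₁ hker).baseChange k).ρ σ) =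
      X ^ 2 - C (thetaK D S hpS hMS hWS k (heckeAlgebra.T hℓ hℓM hℓS)) * X + C ((ℓ : ℕ) : k) := by
  have hgood : W.IsGoodPrimeFor ℓ := by
    by_contra h
    exact hℓS (hWS ℓ hℓ h)
  have hℓp : ℓ ≠ p := fun h => hℓS (h ▸ hpS)
  rw [thetaK_T]
  exact charpoly_baseChange_frob hcard₁ hker D (NeZero.ne M) hΔ hirr k hℓ hgood hℓM hℓp P hP σ hσ

end Frob

end Fermat.Agent.GB.Setup.Theta
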