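/-
GATE-B / GB-SETUP-DPOS (helper21): **the rank is positive** — `hres ⟹ M¹_∅ ≠ 0`.

This is the `d_pos` field of helper55's `B9.Engine`: for a level `M` at which `W` is residually
modular, the `𝔪_Q`-primary part (helper74's `Loc.locPart`) of `Hom(Γ₀(M), 𝒪)` for the polynomial
Hecke ring `𝕋 = 𝒪[X_i]` (B3-CONV, board 5415) is non-zero.

* `exists_int_decomp` : a polynomial over a `ℤ`-torsion-free ring is `∑ e_j · P_j` with integral
  polynomials `P_j` and `ℤ`-linearly independent `e_j` (the replacement for flatness of `𝒪/ℤ`);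
* `map_smul_iotaO` : `Λ_M → Hom(Γ₀(M), 𝒪)` intertwines the integral Hecke polynomials;
* `theta_eq_zero_of_annihilates` : **support** — a polynomial of `𝕋` killing `Hom(Γ₀(M), 𝒪)` is
  killed by every `Θ : 𝕋 →+* k'` with `p = 0` in `k'` and `Θ X_i = a_i` (`a_i ≡ a_{ℓ_i}(f)` modulo
  the maximal ideal `𝔪_f ∋ p` of `ℤ̄`), by the faithfulness theorem of helper35
  (`GM.End.thetaOf_eq_zero_of_actL`);
* `annihilator_le` : hence `Ann_𝕋 Hom(Γ₀(M), 𝒪) ≤ 𝔪` for every ideal `𝔪 ∋ p, X_i − a_i`;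
* `locPart_ne_bot_of_annihilator_le` : `Ann_A L ≤ 𝔪 ⟹ L_𝔪 ≠ 0` in helper74's vocabulary;
* `locPart_ne_bot`, `locPart_ne_bot_of_hres`, `nontrivial_locPart`, `finrank_locPart_pos`,
  `nonempty_of_basis` : the consumer forms.
-/
import Mathlib
import Fermat.Agent.GM.End.FormToLat
import Fermat.Agent.GB.B3.Loc
import Fermat.Agent.GB.B3.HomFree

set_option autoImplicit false
set_option linter.unusedSectionVars false

open scoped MatrixGroups
open CongruenceSubgroup ModularCurve ModularCurve.Period CuspForm ModularFormClass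

namespace Fermat.Agent.GB.Setup.DPos

open MvPolynomial
open Fermat.Agent.GJ.J2.Lat Fermat.Agent.GM.End Fermat.Agent.S16_helper49
open Fermat.Agent.GB.B3.Loc

/-! ### `ℤ`-coordinates for coefficients -/

/-- **`ℤ`-coordinates for the coefficients**: a polynomial over a `ℤ`-torsion-free ring is a
combination `∑ e_j · P_j` of integral polynomials with `ℤ`-linearly independent `e_j`. -/
theorem exists_int_decomp {σ : Type*} {O : Type*} [CommRing O] [Module.IsTorsionFree ℤ O]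
    (s : MvPolynomial σ O) :
    ∃ (r : ℕ) (e : Fin r → O) (P : Fin r → MvPolynomial σ ℤ),
      LinearIndependent ℤ e ∧
      s = ∑ j, C (e j) * MvPolynomial.map (Int.castRingHom O) (P j) := by
  classical
  set A : Set O := (fun v => coeff v s) '' (s.support : Set (σ →₀ ℕ)) with hA
  have hAfin : A.Finite := (Finset.finite_toSet _).image _
  set Cs : Submodule ℤ O := Submodule.span ℤ A with hCs
  have : Module.Finite ℤ Cs := Module.Finite.span_of_finite ℤ hAfin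
  have : Module.IsTorsionFree ℤ Cs :=
    Function.Injective.moduleIsTorsionFree Cs.subtype Cs.injective_subtype
      (fun r m => map_smul Cs.subtype r m)
  have : Module.Free ℤ Cs := Module.free_of_finite_type_torsion_free'
  let b := Module.finBasis ℤ Cs
  have hmem : ∀ v, coeff v s ∈ Cs := by
    intro v
    by_cases hv : v ∈ s.support
    · exact Submodule.subset_span ⟨v, hv, rfl⟩
    · rw [MvPolynomial.notMem_support_iff.mp hv]; exact Cs.zero_mem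
  refine ⟨_, fun j => (b j : O),
    fun j => ∑ v ∈ s.support, monomial v (b.repr ⟨coeff v s, hmem v⟩ j), ?_, ?_⟩
  · exact b.linearIndependent.map' Cs.subtype (Submodule.ker_subtype _)
  · ext v
    have hP : ∀ j, coeff v (∑ w ∈ s.support, monomial w (b.repr ⟨coeff w s, hmem w⟩ j))
        = b.repr ⟨coeff v s, hmem v⟩ j := by
      intro j
      rw [MvPolynomial.coeff_sum]
      simp_rw [MvPolynomial.coeff_monomial]
      rw [Finset.sum_ite_eq']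
      split_ifs with hv
      · rfl
      · have h0 : (⟨coeff v s, hmem v⟩ : Cs) = 0 := by
          apply Subtype.ext
          exact MvPolynomial.notMem_support_iff.mp hv
        rw [h0, map_zero, Finsupp.zero_apply]
    rw [MvPolynomial.coeff_sum]
    simp_rw [MvPolynomial.coeff_C_mul, MvPolynomial.coeff_map, hP]
    have h1 := b.sum_repr ⟨coeff v s, hmem v⟩
    have h2 := congrArg (Submodule.subtype Cs) h1
    rw [map_sum] at h2
    simp only [map_zsmul, Submodule.subtype_apply] at h2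
    refine h2.symm.trans ?_
    refine Finset.sum_congr rfl fun j _ => ?_
    rw [zsmul_eq_mul, mul_comm]
    rfl

/-- an integer lying in a proper ideal of `ℤ̄` which contains the prime `p` is divisible by `p` -/
theorem dvd_of_intCast_mem {R : Type*} [CommRing R] (I : Ideal R) (hI : I ≠ ⊤) {p : ℕ}
    (hp : p.Prime) (hpI : (p : R) ∈ I) {n : ℤ} (hn : (n : R) ∈ I) : (p : ℤ) ∣ n := by
  by_contra hdvd
  have hirr : Irreducible (p : ℤ) := (Nat.prime_iff_prime_int.mp hp).irreducible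
  obtain ⟨u, v, huv⟩ := (hirr.coprime_iff_not_dvd).mpr hdvd
  apply hI
  rw [Ideal.eq_top_iff_one]
  have h1 : ((u * (p : ℤ) + v * n : ℤ) : R) = 1 := by rw [huv]; exact Int.cast_one
  rw [← h1]
  push_cast
  exact I.add_mem (I.mul_mem_left _ hpI) (I.mul_mem_left _ hn)

/-! ### the lattice inside `Hom(Γ₀(M), 𝒪)` -/

section Lattice

variable (M : ℕ) [NeZero M] {O : Type*} [CommRing O]

/-- `Λ_M → Hom(Γ₀(M), 𝒪)` -/
noncomputable def iotaO (x : Lam M) : Additive (Gamma0 M) →+ O :=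
  (Int.castAddHom O).comp (x : Additive (Gamma0 M) →+ ℤ)

theorem iotaO_apply (x : Lam M) (γ : Additive (Gamma0 M)) :
    iotaO M (O := O) x γ = (((x : Additive (Gamma0 M) →+ ℤ) γ : ℤ) : O) := rfl

theorem iotaO_add (x y : Lam M) : iotaO M (O := O) (x + y) = iotaO M x + iotaO M y := by
  refine AddMonoidHom.ext fun γ => ?_
  rw [AddMonoidHom.add_apply, iotaO_apply, iotaO_apply, iotaO_apply, Submodule.coe_add,
    AddMonoidHom.add_apply, Int.cast_add]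

theorem iotaO_zsmul (n : ℤ) (x : Lam M) : iotaO M (O := O) (n • x) = (n : O) • iotaO M x := by
  refine AddMonoidHom.ext fun γ => ?_
  rw [AddMonoidHom.smul_apply, iotaO_apply, iotaO_apply, smul_eq_mul, Submodule.coe_smul,
    AddMonoidHom.smul_apply, smul_eq_mul, Int.cast_mul]

theorem iotaO_latT (l : Nat.Primes) (x : Lam M) :
    iotaO M (O := O) (latT M l x) = cohGen M O l (iotaO M x) :=
  (cohGen_comp M (Int.castAddHom O) l (x : Additive (Gamma0 M) →+ ℤ)).symm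

variable {σ : Type*} (ℓ : σ → Nat.Primes)
  [Module (MvPolynomial σ O) (Additive (Gamma0 M) →+ O)]
  [IsScalarTower O (MvPolynomial σ O) (Additive (Gamma0 M) →+ O)]

/-- **equivariance**: integral Hecke polynomials act compatibly on `Λ_M` and `Hom(Γ₀(M), 𝒪)` -/
theorem map_smul_iotaO
    (hX : ∀ (i : σ) (φ : Additive (Gamma0 M) →+ O),
      (X i : MvPolynomial σ O) • φ = cohGen M O (ℓ i) φ)
    (P : MvPolynomial σ ℤ) (x : Lam M) :
    MvPolynomial.map (Int.castRingHom O) P • iotaO M (O := O) x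
      = iotaO M (actL M (rename ℓ P) x) := by
  induction P using MvPolynomial.induction_on generalizing x with
  | C n =>
    rw [MvPolynomial.map_C, rename_C, actL_C, iotaO_zsmul, eq_intCast,
      ← algebraMap_eq, algebraMap_smul]
  | add P Q hP hQ =>
    rw [map_add, add_smul, hP, hQ, map_add, actL_add, iotaO_add]
  | mul_X P i hP =>
    rw [map_mul, MvPolynomial.map_X, mul_smul, hX, ← iotaO_latT, hP, map_mul, rename_X, actL_mul]
    congr 2
    exact (actL_heckeGen M (ℓ i) x).symm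

end Lattice

/-! ### the eigencharacter modulo `𝔪_f` -/

section Theta

variable {M : ℕ} [NeZero M] {σ : Type*} (ℓ : σ → Nat.Primes)

/-- `θ_f (P(X_{ℓ_i})) ≡ P(a_i)` modulo `𝔪_f` when `a_{ℓ_i}(f) ≡ a_i` -/
theorem thetaOf_rename_sub_eval_mem {f : CuspForm (Gamma0 M) 2} (hf : f.IsNormalizedEigenform)
    (𝔪f : Ideal (integralClosure ℤ ℂ)) (a : σ → ℤ)
    (hcong : ∀ i, ∃ c : integralClosure ℤ ℂ, (c : ℂ) = qCoeff f (ℓ i) ∧
      c - ((a i : ℤ) : integralClosure ℤ ℂ) ∈ 𝔪f)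
    (P : MvPolynomial σ ℤ) :
    thetaOf hf (rename ℓ P) - ((MvPolynomial.eval a P : ℤ) : integralClosure ℤ ℂ) ∈ 𝔪f := by
  let g1 : MvPolynomial σ ℤ →+* (integralClosure ℤ ℂ ⧸ 𝔪f) :=
    (Ideal.Quotient.mk 𝔪f).comp ((thetaOf hf).comp
      ((rename ℓ : MvPolynomial σ ℤ →ₐ[ℤ] HeckeAlg) : MvPolynomial σ ℤ →+* HeckeAlg))
  let g2 : MvPolynomial σ ℤ →+* (integralClosure ℤ ℂ ⧸ 𝔪f) :=
    (Ideal.Quotient.mk 𝔪f).comp ((Int.castRingHom (integralClosure ℤ ℂ)).comp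
      (MvPolynomial.eval a))
  have h12 : g1 = g2 := by
    refine MvPolynomial.ringHom_ext (fun n => ?_) (fun i => ?_)
    · show Ideal.Quotient.mk 𝔪f (thetaOf hf (rename ℓ (C n)))
        = Ideal.Quotient.mk 𝔪f ((MvPolynomial.eval a (C n) : ℤ) : integralClosure ℤ ℂ)
      rw [rename_C, thetaOf_C, eval_C]
    · show Ideal.Quotient.mk 𝔪f (thetaOf hf (rename ℓ (X i)))
        = Ideal.Quotient.mk 𝔪f ((MvPolynomial.eval a (X i) : ℤ) : integralClosure ℤ ℂ)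
      obtain ⟨c, hc, hcm⟩ := hcong i
      rw [rename_X, eval_X, Ideal.Quotient.eq]
      have : thetaOf hf (X (ℓ i)) = c := thetaOf_heckeGen_eq hf (ℓ i) hc
      rw [this]
      exact hcm
  have h := RingHom.congr_fun h12 P
  exact Ideal.Quotient.eq.mp h

end Theta

/-! ### Support -/

section Support

variable {M : ℕ} [NeZero M] {O : Type*} [CommRing O] [Module.IsTorsionFree ℤ O]
  {σ : Type*} (ℓ : σ → Nat.Primes)
  [Module (MvPolynomial σ O) (Additive (Gamma0 M) →+ O)]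
  [IsScalarTower O (MvPolynomial σ O) (Additive (Gamma0 M) →+ O)]

/-- **Support.**  A Hecke polynomial with coefficients in `𝒪` killing `Hom(Γ₀(M), 𝒪)` is killed by
every `Θ : 𝒪[X_i] →+* k'`, `p = 0` in `k'`, with `Θ X_i = a_i ≡ a_{ℓ_i}(f)`. -/
theorem theta_eq_zero_of_annihilates
    (hX : ∀ (i : σ) (φ : Additive (Gamma0 M) →+ O),
      (X i : MvPolynomial σ O) • φ = cohGen M O (ℓ i) φ)
    {f : CuspForm (Gamma0 M) 2} (hf : f.IsNormalizedEigenform)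
    (𝔪f : Ideal (integralClosure ℤ ℂ)) (h𝔪f : 𝔪f ≠ ⊤) {p : ℕ} (hp : p.Prime)
    (hpm : (p : integralClosure ℤ ℂ) ∈ 𝔪f) (a : σ → ℤ)
    (hcong : ∀ i, ∃ c : integralClosure ℤ ℂ, (c : ℂ) = qCoeff f (ℓ i) ∧
      c - ((a i : ℤ) : integralClosure ℤ ℂ) ∈ 𝔪f)
    {k' : Type*} [CommRing k'] (Θ : MvPolynomial σ O →+* k') (hΘp : (p : k') = 0)
    (hΘX : ∀ i, Θ (X i) = ((a i : ℤ) : k'))
    (s : MvPolynomial σ O) (hs : ∀ φ : Additive (Gamma0 M) →+ O, s • φ = 0) : Θ s = 0 := by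
  classical
  obtain ⟨r, e, P, hli, hdec⟩ := exists_int_decomp s
  -- each `P_j` kills the lattice
  have hkill : ∀ j (x : Lam M), actL M (rename ℓ (P j)) x = 0 := by
    intro j x
    have h0 : s • iotaO M (O := O) x = 0 := hs _
    rw [hdec, Finset.sum_smul] at h0
    have h1 : ∀ j, (C (e j) * MvPolynomial.map (Int.castRingHom O) (P j)) • iotaO M (O := O) x
        = e j • iotaO M (actL M (rename ℓ (P j)) x) := by
      intro j
      rw [mul_smul, map_smul_iotaO M ℓ hX, ← algebraMap_eq, algebraMap_smul]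
    simp_rw [h1] at h0
    apply Subtype.ext
    refine AddMonoidHom.ext fun γ => ?_
    have h2 := DFunLike.congr_fun h0 γ
    rw [AddMonoidHom.finsetSum_apply, AddMonoidHom.zero_apply] at h2
    have h3 : ∑ j, ((actL M (rename ℓ (P j)) x : Additive (Gamma0 M) →+ ℤ) γ) • e j = 0 := by
      rw [← h2]
      refine Finset.sum_congr rfl fun j _ => ?_
      rw [AddMonoidHom.smul_apply, iotaO_apply, zsmul_eq_mul, smul_eq_mul, mul_comm]
    exact Fintype.linearIndependent_iff.mp hli _ h3 j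
  -- hence `θ_f` kills them, hence `p ∣ P_j(a)`
  have hdvd : ∀ j, (p : ℤ) ∣ MvPolynomial.eval a (P j) := by
    intro j
    have h1 : thetaOf hf (rename ℓ (P j)) = 0 := thetaOf_eq_zero_of_actL hf _ (hkill j)
    have h2 := thetaOf_rename_sub_eval_mem ℓ hf 𝔪f a hcong (P j)
    rw [h1, zero_sub, neg_mem_iff] at h2
    exact dvd_of_intCast_mem 𝔪f h𝔪f hp hpm h2
  -- evaluate `Θ`
  have hΘmap : ∀ Q : MvPolynomial σ ℤ,
      Θ (MvPolynomial.map (Int.castRingHom O) Q) = ((MvPolynomial.eval a Q : ℤ) : k') := by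
    intro Q
    have : (Θ.comp (MvPolynomial.map (Int.castRingHom O)) : MvPolynomial σ ℤ →+* k')
        = (Int.castRingHom k').comp (MvPolynomial.eval a) := by
      refine MvPolynomial.ringHom_ext (fun n => ?_) (fun i => ?_)
      · have hC : (C ((n : ℤ) : O) : MvPolynomial σ O) = ((n : ℤ) : MvPolynomial σ O) :=
          map_intCast (C : O →+* MvPolynomial σ O) n
        rw [RingHom.comp_apply, RingHom.comp_apply, MvPolynomial.map_C, eval_C, eq_intCast,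
          eq_intCast, hC, map_intCast]
      · rw [RingHom.comp_apply, RingHom.comp_apply, MvPolynomial.map_X, eval_X, hΘX, eq_intCast]
    exact RingHom.congr_fun this Q
  rw [hdec, map_sum]
  refine Finset.sum_eq_zero fun j _ => ?_
  rw [map_mul, hΘmap]
  obtain ⟨m, hm⟩ := hdvd j
  rw [hm]
  push_cast
  rw [hΘp, zero_mul, mul_zero]

/-- **`Ann_𝕋 Hom(Γ₀(M), 𝒪) ≤ 𝔪`** for every ideal `𝔪` of `𝕋 = 𝒪[X_i]` containing `p` and the
`X_i − a_i`. -/
theorem annihilator_le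
    (hX : ∀ (i : σ) (φ : Additive (Gamma0 M) →+ O),
      (X i : MvPolynomial σ O) • φ = cohGen M O (ℓ i) φ)
    {f : CuspForm (Gamma0 M) 2} (hf : f.IsNormalizedEigenform)
    (𝔪f : Ideal (integralClosure ℤ ℂ)) (h𝔪f : 𝔪f ≠ ⊤) {p : ℕ} (hp : p.Prime)
    (hpm : (p : integralClosure ℤ ℂ) ∈ 𝔪f) (a : σ → ℤ)
    (hcong : ∀ i, ∃ c : integralClosure ℤ ℂ, (c : ℂ) = qCoeff f (ℓ i) ∧
      c - ((a i : ℤ) : integralClosure ℤ ℂ) ∈ 𝔪f)
    (𝔪 : Ideal (MvPolynomial σ O)) (h𝔪p : C ((p : ℕ) : O) ∈ 𝔪)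
    (h𝔪X : ∀ i, X i - C (((a i : ℤ) : O)) ∈ 𝔪) :
    Module.annihilator (MvPolynomial σ O) (Additive (Gamma0 M) →+ O) ≤ 𝔪 := by
  intro s hs
  have hs' : ∀ φ : Additive (Gamma0 M) →+ O, s • φ = 0 := Module.mem_annihilator.mp hs
  have h := theta_eq_zero_of_annihilates ℓ hX hf 𝔪f h𝔪f hp hpm a hcong
    (Ideal.Quotient.mk 𝔪) (by
      have : ((p : ℕ) : MvPolynomial σ O ⧸ 𝔪) = Ideal.Quotient.mk 𝔪 (C ((p : ℕ) : O)) := by
        rw [map_natCast, map_natCast]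
      rw [this]
      exact Ideal.Quotient.eq_zero_iff_mem.mpr h𝔪p)
    (fun i => by
      have : (((a i : ℤ)) : MvPolynomial σ O ⧸ 𝔪) = Ideal.Quotient.mk 𝔪 (C (((a i : ℤ)) : O)) := by
        rw [map_intCast, map_intCast]
      rw [this]
      exact Ideal.Quotient.eq.mpr (h𝔪X i)) s hs'
  exact Ideal.Quotient.eq_zero_iff_mem.mp h

end Support

/-! ### the `𝔪`-primary part is non-zero -/

section LocAbs

variable (𝒪 : Type) [CommRing 𝒪] [IsLocalRing 𝒪] [IsNoetherianRing 𝒪]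
  [IsAdicComplete (IsLocalRing.maximalIdeal 𝒪) 𝒪]
variable {A : Type} [CommRing A] [Algebra 𝒪 A]
variable {L : Type*} [AddCommGroup L] [Module 𝒪 L] [Module A L] [IsScalarTower 𝒪 A L]
  [Module.Finite 𝒪 L]

include 𝒪

/-- **support ⟹ non-zero localisation** (helper74's vocabulary) -/
theorem locPart_ne_bot_of_annihilator_le (𝔪 : Ideal A) [h𝔪 : 𝔪.IsMaximal]
    (hI : Module.annihilator A L ≤ 𝔪) : locPart 𝔪 L ≠ ⊥ := by
  obtain ⟨s₀, hs₀, -, hloc, -⟩ := parts_eq 𝒪 (L := L) 𝔪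
  intro hbot
  apply hs₀
  apply hI
  rw [Module.mem_annihilator]
  intro x
  have hx : s₀ • x ∈ locPart 𝔪 L := by
    rw [hloc]
    exact ⟨x, rfl⟩
  rw [hbot] at hx
  exact (Submodule.mem_bot A).mp hx

end LocAbs

/-! ### the consumer forms -/

section Main

variable {𝒪 : Type} [CommRing 𝒪] [IsLocalRing 𝒪] [IsNoetherianRing 𝒪]
  [IsAdicComplete (IsLocalRing.maximalIdeal 𝒪) 𝒪] [Module.IsTorsionFree ℤ 𝒪]
  {M : ℕ} [NeZero M] {σ : Type} (ℓ : σ → Nat.Primes)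
  [Module (MvPolynomial σ 𝒪) (Additive (Gamma0 M) →+ 𝒪)]
  [IsScalarTower 𝒪 (MvPolynomial σ 𝒪) (Additive (Gamma0 M) →+ 𝒪)]

/-- **`Hom(Γ₀(M), 𝒪)_𝔪 ≠ 0`** for an eigenform `f` of level `M` and a maximal ideal `𝔪 ∋ p` of the
polynomial Hecke ring containing the `X_i − a_i`, `a_i ≡ a_{ℓ_i}(f)` modulo `𝔪_f`. -/
theorem locPart_ne_bot
    (hX : ∀ (i : σ) (φ : Additive (Gamma0 M) →+ 𝒪),
      (X i : MvPolynomial σ 𝒪) • φ = cohGen M 𝒪 (ℓ i) φ)
    {f : CuspForm (Gamma0 M) 2} (hf : f.IsNormalizedEigenform)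
    (𝔪f : Ideal (integralClosure ℤ ℂ)) (h𝔪f : 𝔪f ≠ ⊤) {p : ℕ} (hp : p.Prime)
    (hpm : (p : integralClosure ℤ ℂ) ∈ 𝔪f) (a : σ → ℤ)
    (hcong : ∀ i, ∃ c : integralClosure ℤ ℂ, (c : ℂ) = qCoeff f (ℓ i) ∧
      c - ((a i : ℤ) : integralClosure ℤ ℂ) ∈ 𝔪f)
    (𝔪 : Ideal (MvPolynomial σ 𝒪)) [h𝔪 : 𝔪.IsMaximal] (h𝔪p : C ((p : ℕ) : 𝒪) ∈ 𝔪)
    (h𝔪X : ∀ i, X i - C (((a i : ℤ) : 𝒪)) ∈ 𝔪) :
    locPart 𝔪 (Additive (Gamma0 M) →+ 𝒪) ≠ ⊥ := by
  have : Module.Finite 𝒪 (Additive (Gamma0 M) →+ 𝒪) :=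
    Fermat.Agent.GB.B3.HomFree.homFinite_SL2Z (Gamma0 M) 𝒪
  exact locPart_ne_bot_of_annihilator_le 𝒪 𝔪
    (annihilator_le ℓ hX hf 𝔪f h𝔪f hp hpm a hcong 𝔪 h𝔪p h𝔪X)

/-- **`d_pos`, `hres` form**: if `W` is residually modular of level `M` and the Hecke symbols are
at primes `ℓ_i ∤ M p` good for `W`, the `𝔪`-primary part of `Hom(Γ₀(M), 𝒪)` is non-zero for every
maximal ideal `𝔪 ∋ p, X_i − a_{ℓ_i}(W)` of `𝒪[X_i]`. -/
theorem locPart_ne_bot_of_hres {p : ℕ} (hp : p.Prime) (W : WeierstrassCurve ℤ)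
    (hres : W.IsResiduallyModularOfLevel p M)
    (hgood : ∀ i, W.IsGoodPrimeFor (ℓ i) ∧ ¬ ((ℓ i : ℕ) ∣ M) ∧ (ℓ i : ℕ) ≠ p)
    (hX : ∀ (i : σ) (φ : Additive (Gamma0 M) →+ 𝒪),
      (X i : MvPolynomial σ 𝒪) • φ = cohGen M 𝒪 (ℓ i) φ)
    (𝔪 : Ideal (MvPolynomial σ 𝒪)) [h𝔪 : 𝔪.IsMaximal] (h𝔪p : C ((p : ℕ) : 𝒪) ∈ 𝔪)
    (h𝔪X : ∀ i, X i - C (((W.apOfModel (ℓ i) : ℤ) : 𝒪)) ∈ 𝔪) :
    locPart 𝔪 (Additive (Gamma0 M) →+ 𝒪) ≠ ⊥ := by
  obtain ⟨f, 𝔪f, hf, hmax, hpm, hcong⟩ := hres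
  exact locPart_ne_bot ℓ hX hf 𝔪f hmax.ne_top hp hpm (fun i => W.apOfModel (ℓ i))
    (fun i => hcong (ℓ i) (ℓ i).2 (hgood i).1 (hgood i).2.1 (hgood i).2.2) 𝔪 h𝔪p h𝔪X

/-- the `𝔪`-primary part is a non-trivial module -/
theorem nontrivial_of_ne_bot {A : Type*} [CommRing A] {L : Type*} [AddCommGroup L] [Module A L]
    {N : Submodule A L} (h : N ≠ ⊥) : Nontrivial N :=
  Submodule.nontrivial_iff_ne_bot.mpr h

/-- **`0 < d`** for every basis `Fin d` of (a copy of) the `𝔪`-primary part. -/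
theorem pos_of_basis {A : Type*} [CommRing A] {L : Type*} [AddCommGroup L] [Module A L]
    {N : Submodule A L} (h : N ≠ ⊥) {R : Type*} [Semiring R] {M0 : Type*} [AddCommMonoid M0]
    [Module R M0] (e : M0 ≃ N) {d : ℕ} (b : Module.Basis (Fin d) R M0) : 0 < d := by
  have : Nontrivial N := nontrivial_of_ne_bot h
  have : Nontrivial M0 := e.nontrivial
  obtain ⟨i⟩ := b.index_nonempty
  exact Nat.pos_of_ne_zero (fun h0 => by subst h0; exact i.elim0)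

/-- **`0 < rank`** of the `𝔪`-primary part, `𝒪` a discrete valuation ring (or any local PID). -/
theorem finrank_locPart_pos [IsDomain 𝒪] [IsPrincipalIdealRing 𝒪]
    (𝔪 : Ideal (MvPolynomial σ 𝒪)) [h𝔪 : 𝔪.IsMaximal]
    (h : locPart 𝔪 (Additive (Gamma0 M) →+ 𝒪) ≠ ⊥) :
    0 < Module.finrank 𝒪 (locPart 𝔪 (Additive (Gamma0 M) →+ 𝒪)) := by
  have h1 : Module.Finite 𝒪 (Additive (Gamma0 M) →+ 𝒪) :=
    Fermat.Agent.GB.B3.HomFree.homFinite_SL2Z (Gamma0 M) 𝒪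
  have h2 : Module.Free 𝒪 (Additive (Gamma0 M) →+ 𝒪) :=
    Fermat.Agent.GB.B3.HomFree.homFree_SL2Z (Gamma0 M) 𝒪
  have h3 : Module.Finite 𝒪 (locPart 𝔪 (Additive (Gamma0 M) →+ 𝒪)) := finite_locPart 𝒪 𝔪
  have h4 : Module.Free 𝒪 (locPart 𝔪 (Additive (Gamma0 M) →+ 𝒪)) := free_locPart 𝒪 𝔪
  have h5 : Nontrivial (locPart 𝔪 (Additive (Gamma0 M) →+ 𝒪)) := nontrivial_of_ne_bot h
  exact Module.finrank_pos (R := 𝒪) (M := locPart 𝔪 (Additive (Gamma0 M) →+ 𝒪))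

/-- **`d_pos`, kernel form** (B3-CONV (C3)): `𝔪_Q = ker (Θ : 𝒪[X_i] → k)` maximal, `p = 0` in `k`,
`Θ X_i = a_{ℓ_i}(W)`. -/
theorem locPart_ker_ne_bot_of_hres {p : ℕ} (hp : p.Prime) (W : WeierstrassCurve ℤ)
    (hres : W.IsResiduallyModularOfLevel p M)
    (hgood : ∀ i, W.IsGoodPrimeFor (ℓ i) ∧ ¬ ((ℓ i : ℕ) ∣ M) ∧ (ℓ i : ℕ) ≠ p)
    (hX : ∀ (i : σ) (φ : Additive (Gamma0 M) →+ 𝒪),
      (X i : MvPolynomial σ 𝒪) • φ = cohGen M 𝒪 (ℓ i) φ)
    {k : Type*} [CommRing k] (Θ : MvPolynomial σ 𝒪 →+* k)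
    (hΘp : ((p : ℕ) : k) = 0) (hΘX : ∀ i, Θ (X i) = ((W.apOfModel (ℓ i) : ℤ) : k))
    (𝔪 : Ideal (MvPolynomial σ 𝒪)) [h𝔪 : 𝔪.IsMaximal] (hker : 𝔪 = RingHom.ker Θ) :
    locPart 𝔪 (Additive (Gamma0 M) →+ 𝒪) ≠ ⊥ := by
  refine locPart_ne_bot_of_hres ℓ hp W hres hgood hX 𝔪 ?_ ?_
  · rw [hker, RingHom.mem_ker]
    have : (C ((p : ℕ) : 𝒪) : MvPolynomial σ 𝒪) = ((p : ℕ) : MvPolynomial σ 𝒪) :=
      map_natCast (C : 𝒪 →+* MvPolynomial σ 𝒪) p
    rw [this, map_natCast, hΘp]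
  · intro i
    rw [hker, RingHom.mem_ker, map_sub, hΘX]
    have : (C (((W.apOfModel (ℓ i) : ℤ)) : 𝒪) : MvPolynomial σ 𝒪)
        = (((W.apOfModel (ℓ i) : ℤ)) : MvPolynomial σ 𝒪) :=
      map_intCast (C : 𝒪 →+* MvPolynomial σ 𝒪) _
    rw [this, map_intCast, sub_self]

end Main

/-! ### the same with the action given as an algebra homomorphism -/

section Act

variable {𝒪 : Type} [CommRing 𝒪] [IsLocalRing 𝒪] [IsNoetherianRing 𝒪]
  [IsAdicComplete (IsLocalRing.maximalIdeal 𝒪) 𝒪] [Module.IsTorsionFree ℤ 𝒪]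
  {M : ℕ} [NeZero M] {σ : Type} (ℓ : σ → Nat.Primes)

/-- the `𝒪[X_i]`-module structure given by an algebra action (NOT an instance) -/
@[reducible] noncomputable def moduleOfAct {L : Type*} [AddCommGroup L] [Module 𝒪 L]
    (act : MvPolynomial σ 𝒪 →ₐ[𝒪] Module.End 𝒪 L) : Module (MvPolynomial σ 𝒪) L :=
  Module.compHom L (act : MvPolynomial σ 𝒪 →+* Module.End 𝒪 L)

theorem isScalarTower_moduleOfAct {L : Type*} [AddCommGroup L] [Module 𝒪 L]
    (act : MvPolynomial σ 𝒪 →ₐ[𝒪] Module.End 𝒪 L) :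
    letI := moduleOfAct act
    IsScalarTower 𝒪 (MvPolynomial σ 𝒪) L := by
  let _ := moduleOfAct act
  refine ⟨fun c s x => ?_⟩
  show act (c • s) x = c • act s x
  rw [map_smul, LinearMap.smul_apply]

/-- **`d_pos`, action form**: the Hecke symbols act through `act`, `act X_i = T_{ℓ_i}`. -/
theorem locPart_ker_ne_bot_of_hres_act {p : ℕ} (hp : p.Prime) (W : WeierstrassCurve ℤ)
    (hres : W.IsResiduallyModularOfLevel p M)
    (hgood : ∀ i, W.IsGoodPrimeFor (ℓ i) ∧ ¬ ((ℓ i : ℕ) ∣ M) ∧ (ℓ i : ℕ) ≠ p)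
    (act : MvPolynomial σ 𝒪 →ₐ[𝒪] Module.End 𝒪 (Additive (Gamma0 M) →+ 𝒪))
    (hact : ∀ (i : σ) (φ : Additive (Gamma0 M) →+ 𝒪), act (X i) φ = cohGen M 𝒪 (ℓ i) φ)
    {k : Type*} [CommRing k] (Θ : MvPolynomial σ 𝒪 →+* k)
    (hΘp : ((p : ℕ) : k) = 0) (hΘX : ∀ i, Θ (X i) = ((W.apOfModel (ℓ i) : ℤ) : k))
    (𝔪 : Ideal (MvPolynomial σ 𝒪)) [h𝔪 : 𝔪.IsMaximal] (hker : 𝔪 = RingHom.ker Θ) :
    letI := moduleOfAct act
    locPart 𝔪 (Additive (Gamma0 M) →+ 𝒪) ≠ ⊥ := by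
  let _ := moduleOfAct act
  have := isScalarTower_moduleOfAct act
  exact locPart_ker_ne_bot_of_hres ℓ hp W hres hgood hact Θ hΘp hΘX 𝔪 hker

end Act

end Fermat.Agent.GB.Setup.DPos
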