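/-
GATE-B / GB-SETUP-DPOS, plug file (helper21): `d_pos` in the INSTANCE-FREE vocabulary of the B3 tower
(`RealLevel.IsLoc`, `RealLevel.Realizes`, board 5500) and against helper80's concrete action
`HeckeActH.act0 Sy O` of the Hecke symbols on `Hom(Γ₀(M), O)`.

* `exists_isLoc_ne_zero` : `hres ⟹ ∃ x ≠ 0, IsLoc act 𝔪 x` for every algebra action `act` of
  `O[X_i]` on `Hom(Γ₀(M), O)` with `act X_i = T_{ℓ_i}` (`cohGen`), `𝔪 = ker Θ` maximal;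
* `d_pos_of_realizes` : a `FreeLevel` realised as the `𝔪`-primary part of `L` has `0 < d` as soon as
  the `𝔪`-primary part of `L` is non-zero;
* `act0_X_inl_eq_cohGen`, `exists_isLoc_ne_zero_act0` : the same for `act0 Sy O` restricted to the
  good symbols.
-/
import Mathlib
import Fermat.Agent.GB.Setup.DPos
import Fermat.Agent.GB.B3.Realizes
import Fermat.Agent.GB.B3.HeckeActH

set_option autoImplicit false
set_option linter.unusedSectionVars false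

open scoped MatrixGroups
open CongruenceSubgroup

namespace Fermat.Agent.GB.Setup.DPosPlug

open MvPolynomial
open Fermat.Agent.S16_helper49 Fermat.Agent.GB.B3.Loc Fermat.Agent.GB.B3.RealLevel
open Fermat.Agent.GB.B3.TWLevel Fermat.Agent.GB.Setup.DPos

section IsLoc

variable {𝒪 : Type} [CommRing 𝒪] [IsLocalRing 𝒪] [IsNoetherianRing 𝒪]
  [IsAdicComplete (IsLocalRing.maximalIdeal 𝒪) 𝒪] [Module.IsTorsionFree ℤ 𝒪]
  {M : ℕ} [NeZero M] {σ : Type} (ℓ : σ → Nat.Primes)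

/-- **`d_pos`, instance-free form**: the `𝔪`-primary part of `Hom(Γ₀(M), 𝒪)` contains a non-zero
element. -/
theorem exists_isLoc_ne_zero {p : ℕ} (hp : p.Prime) (W : WeierstrassCurve ℤ)
    (hres : W.IsResiduallyModularOfLevel p M)
    (hgood : ∀ i, W.IsGoodPrimeFor (ℓ i) ∧ ¬ ((ℓ i : ℕ) ∣ M) ∧ (ℓ i : ℕ) ≠ p)
    (act : MvPolynomial σ 𝒪 →ₐ[𝒪] Module.End 𝒪 (Additive (Gamma0 M) →+ 𝒪))
    (hact : ∀ (i : σ) (φ : Additive (Gamma0 M) →+ 𝒪), act (X i) φ = cohGen M 𝒪 (ℓ i) φ)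
    {k : Type*} [CommRing k] (Θ : MvPolynomial σ 𝒪 →+* k)
    (hΘp : ((p : ℕ) : k) = 0) (hΘX : ∀ i, Θ (X i) = ((W.apOfModel (ℓ i) : ℤ) : k))
    (𝔪 : Ideal (MvPolynomial σ 𝒪)) [h𝔪 : 𝔪.IsMaximal] (hker : 𝔪 = RingHom.ker Θ) :
    ∃ x : Additive (Gamma0 M) →+ 𝒪, x ≠ 0 ∧ IsLoc act 𝔪 x := by
  have h := locPart_ker_ne_bot_of_hres_act ℓ hp W hres hgood act hact Θ hΘp hΘX 𝔪 hker
  let _ := moduleOfAct act
  obtain ⟨x, hx, hx0⟩ := (Submodule.ne_bot_iff _).mp h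
  refine ⟨x, hx0, fun s hs => ?_⟩
  obtain ⟨y, hy⟩ := mem_locPart.mp hx s hs
  exact ⟨y, hy⟩

end IsLoc

/-- **`0 < d`** for a level realised as a non-zero `𝔪`-primary part. -/
theorem d_pos_of_realizes {O : Type} [CommRing O] {A : Type} [CommRing A] [Algebra O A]
    {M0 : Type} [AddCommGroup M0] [Module O M0] {act0 : A →ₐ[O] Module.End O M0}
    {k : ℕ} {N : Fin k → ℕ} (F : FreeLevel O A M0 act0 k N)
    {L : Type} [AddCommGroup L] [Module O L] {actL : A →ₐ[O] Module.End O L} {𝔪 : Ideal A}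
    {E : Fin k → Module.End O L} (R : Realizes F actL 𝔪 E)
    (h : ∃ x : L, x ≠ 0 ∧ IsLoc actL 𝔪 x) : 0 < F.d := by
  obtain ⟨x, hx0, hx⟩ := h
  obtain ⟨m, rfl⟩ := (R.range x).mpr hx
  have hm : m ≠ 0 := fun h0 => hx0 (by rw [h0, map_zero])
  have : Nontrivial F.M := ⟨⟨m, 0, hm⟩⟩
  obtain ⟨⟨-, j⟩⟩ := F.basis.index_nonempty
  exact Nat.pos_of_ne_zero (fun h0 => (Fin.cast h0 j).elim0)

/-! ### helper80's `act0` -/

section Act0

open Fermat.Agent.GB.B3.HeckeActH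

variable {M : ℕ} [NeZero M] (Sy : Symbols M) (O : Type*) [CommRing O]

/-- the good symbols of `act0` act by `cohGen` -/
theorem act0_X_inl_eq_cohGen (i : Sy.ι₁) (φ : Additive (Gamma0 M) →+ O) :
    act0 Sy O (X (Sum.inl i)) φ = cohGen M O ⟨Sy.ℓ i, Sy.hℓ i⟩ φ := by
  have := Sy.factℓ i
  rw [act0_X_inl, cohGen_of_not_dvd M O ⟨Sy.ℓ i, Sy.hℓ i⟩ (Sy.hℓN i)]

/-- the symbols at the primes dividing the level act by `cohGen` as well -/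
theorem act0_X_inr_eq_cohGen (j : Sy.ι₂) (φ : Additive (Gamma0 M) →+ O) :
    act0 Sy O (X (Sum.inr j)) φ = cohGen M O ⟨Sy.r j, Sy.hr j⟩ φ := by
  have := Sy.neZeroR j
  rw [act0_X_inr, cohGen_of_dvd M O ⟨Sy.r j, Sy.hr j⟩ (Sy.hrN j)]

end Act0

section Act0Main

open Fermat.Agent.GB.B3.HeckeActH

variable {𝒪 : Type} [CommRing 𝒪] [IsLocalRing 𝒪] [IsNoetherianRing 𝒪]
  [IsAdicComplete (IsLocalRing.maximalIdeal 𝒪) 𝒪] [Module.IsTorsionFree ℤ 𝒪]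
  {M : ℕ} [NeZero M] (Sy : Symbols M)

/-- the action of the good symbols only -/
noncomputable def actGood : MvPolynomial Sy.ι₁ 𝒪 →ₐ[𝒪] Module.End 𝒪 (Additive (Gamma0 M) →+ 𝒪) :=
  (act0 Sy 𝒪).comp (MvPolynomial.rename Sum.inl)

theorem actGood_apply (s : MvPolynomial Sy.ι₁ 𝒪) :
    actGood (𝒪 := 𝒪) Sy s = act0 Sy 𝒪 (MvPolynomial.rename Sum.inl s) := rfl

/-- **`d_pos` for `act0`**, good symbols: `W` residually modular of level `M`, all good symbols of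
`Sy` at primes good for `W` and `≠ p`. -/
theorem exists_isLoc_ne_zero_act0 {p : ℕ} (hp : p.Prime) (W : WeierstrassCurve ℤ)
    (hres : W.IsResiduallyModularOfLevel p M)
    (hgood : ∀ i, W.IsGoodPrimeFor (Sy.ℓ i) ∧ Sy.ℓ i ≠ p)
    {k : Type*} [CommRing k] (Θ : MvPolynomial Sy.ι₁ 𝒪 →+* k)
    (hΘp : ((p : ℕ) : k) = 0) (hΘX : ∀ i, Θ (X i) = ((W.apOfModel (Sy.ℓ i) : ℤ) : k))
    (𝔪 : Ideal (MvPolynomial Sy.ι₁ 𝒪)) [h𝔪 : 𝔪.IsMaximal] (hker : 𝔪 = RingHom.ker Θ) :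
    ∃ x : Additive (Gamma0 M) →+ 𝒪, x ≠ 0 ∧ IsLoc (actGood (𝒪 := 𝒪) Sy) 𝔪 x := by
  refine exists_isLoc_ne_zero (fun i => (⟨Sy.ℓ i, Sy.hℓ i⟩ : Nat.Primes)) hp W hres
    (fun i => ⟨(hgood i).1, Sy.hℓN i, (hgood i).2⟩) (actGood Sy) ?_ Θ hΘp hΘX 𝔪 hker
  intro i φ
  rw [actGood_apply, rename_X]
  exact act0_X_inl_eq_cohGen Sy 𝒪 i φ

end Act0Main

end Fermat.Agent.GB.Setup.DPosPlug
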