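/-
GATE-B (Ribet level lowering, S38/S43) / node GB-SETUP (i) (helper61): **the coefficient ring**.

`exists_coeffRing p hp2` : a complete discrete valuation ring `O` of characteristic zero, finite
over `ℤ_[p]` (local homomorphism), with finite residue field of characteristic `p`, containing a
primitive `p`-th root of unity, and such that every monic quadratic polynomial over `ZMod p`
splits in the residue field of `O` (the `hsplit` binder of the frozen S56 for a representation
defined over `ZMod p`).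

Construction: `O` = integral closure of `ℤ_[p]` in the splitting field over `ℚ_[p]` of
`(X ^ 2 - a) * cyclotomic p`, `a` a quadratic non-residue mod `p`
(`GJ/Ext/CompleteDVRExt.exists_completeDVR_ext`, on main).  The residue field then contains a square
root of `a`, hence a copy of `AdjoinRoot (X ^ 2 - a)`, so its degree over `ZMod p` is even, and every
`AdjoinRoot f`, `f` an irreducible quadratic, embeds in it
(`FiniteField.nonempty_algHom_of_finrank_dvd`).
-/
import Mathlib
import Fermat.Agent.GJ.Ext.CompleteDVRExt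

set_option autoImplicit false
set_option linter.style.haveILetI false

namespace Fermat.Agent.GB.Setup.CoeffRing

open Polynomial IsLocalRing

section Quadratic

variable {F : Type*} [Field F]

/-- A monic quadratic with a root is a product of two linear factors. -/
theorem monic_quadratic_eq_of_root {f : F[X]} (hf : f.Monic) (hdeg : f.natDegree = 2) {α : F}
    (hα : f.IsRoot α) : ∃ β : F, f = (X - C α) * (X - C β) := by
  obtain ⟨g, hg⟩ := dvd_iff_isRoot.mpr hα
  have hgm : g.Monic := by
    have h1 : ((X - C α) * g).Monic := hg ▸ hf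
    exact (monic_X_sub_C α).of_mul_monic_left h1
  have hgdeg : g.natDegree = 1 := by
    have h2 : f.natDegree = (X - C α).natDegree + g.natDegree := by
      rw [hg]
      exact (monic_X_sub_C α).natDegree_mul hgm
    rw [hdeg, natDegree_X_sub_C] at h2
    omega
  refine ⟨-g.coeff 0, ?_⟩
  have h3 : g = X + C (g.coeff 0) := by
    have := hgm.eq_X_add_C hgdeg
    exact this
  rw [hg, map_neg, sub_neg_eq_add]
  rw [← h3]

end Quadratic

section FiniteField

variable {p : ℕ} [Fact p.Prime] {k : Type*} [Field k] [Finite k] [Algebra (ZMod p) k]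

/-- If a finite field `k ⊇ ZMod p` contains a square root of a non-square of `ZMod p`, then its
degree over `ZMod p` is even. -/
theorem even_finrank_of_sqrt {a : ZMod p} (ha : ¬ IsSquare a) {θ : k}
    (hθ : θ ^ 2 = algebraMap (ZMod p) k a) : 2 ∣ Module.finrank (ZMod p) k := by
  set g : (ZMod p)[X] := X ^ 2 - C a with hg
  have hgm : g.Monic := monic_X_pow_sub_C a (by norm_num)
  have hgdeg : g.natDegree = 2 := natDegree_X_pow_sub_C
  have hgirr : Irreducible g := by
    apply irreducible_of_degree_le_three_of_not_isRoot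
    · rw [hgdeg]; decide
    · intro x hx
      apply ha
      refine ⟨x, ?_⟩
      rw [IsRoot.def, hg, eval_sub, eval_pow, eval_X, eval_C, sub_eq_zero] at hx
      rw [← hx, sq]
  haveI : Fact (Irreducible g) := ⟨hgirr⟩
  have hroot : aeval θ g = 0 := by
    rw [hg, map_sub, map_pow, aeval_X, aeval_C, hθ, sub_self]
  have φ : AdjoinRoot g →ₐ[ZMod p] k := AdjoinRoot.liftAlgHom g (Algebra.ofId _ _) θ (by
    rw [← hroot]
    rfl)
  have h1 := (FiniteField.nonempty_algHom_iff_finrank_dvd (F := ZMod p) (K := AdjoinRoot g)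
    (L := k)).mp ⟨φ⟩
  have h2 : Module.finrank (ZMod p) (AdjoinRoot g) = 2 := by
    rw [(AdjoinRoot.powerBasis hgirr.ne_zero).finrank, AdjoinRoot.powerBasis_dim, hgdeg]
  rwa [h2] at h1

/-- In a finite field of even degree over `ZMod p` every monic quadratic over `ZMod p` splits. -/
theorem splits_quadratic_of_even_finrank (h2 : 2 ∣ Module.finrank (ZMod p) k) (f : (ZMod p)[X])
    (hf : f.Monic) (hdeg : f.natDegree = 2) :
    ∃ α β : k, f.map (algebraMap (ZMod p) k) = (X - C α) * (X - C β) := by
  have hfm : (f.map (algebraMap (ZMod p) k)).Monic := hf.map _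
  have hfdeg : (f.map (algebraMap (ZMod p) k)).natDegree = 2 := by
    rw [hf.natDegree_map, hdeg]
  suffices h : ∃ α : k, (f.map (algebraMap (ZMod p) k)).IsRoot α by
    obtain ⟨α, hα⟩ := h
    obtain ⟨β, hβ⟩ := monic_quadratic_eq_of_root hfm hfdeg hα
    exact ⟨α, β, hβ⟩
  by_cases hr : ∃ x : ZMod p, f.IsRoot x
  · obtain ⟨x, hx⟩ := hr
    exact ⟨algebraMap (ZMod p) k x, hx.map⟩
  · have hfirr : Irreducible f := by
      apply irreducible_of_degree_le_three_of_not_isRoot
      · rw [hdeg]; decide
      · intro x hx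
        exact hr ⟨x, hx⟩
    haveI : Fact (Irreducible f) := ⟨hfirr⟩
    have hfin : Module.finrank (ZMod p) (AdjoinRoot f) = 2 := by
      rw [(AdjoinRoot.powerBasis hfirr.ne_zero).finrank, AdjoinRoot.powerBasis_dim, hdeg]
    obtain ⟨φ⟩ := FiniteField.nonempty_algHom_of_finrank_dvd (F := ZMod p) (K := AdjoinRoot f)
      (L := k) (hfin ▸ h2)
    refine ⟨φ (AdjoinRoot.root f), ?_⟩
    rw [IsRoot.def, eval_map_algebraMap, aeval_algHom_apply, AdjoinRoot.aeval_eq,
      AdjoinRoot.mk_self, map_zero]

end FiniteField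

section Padic

variable (p : ℕ) [Fact p.Prime]

/-- In a local ring `O` which is an algebra over `ℤ_[p]` along a local homomorphism, `p` is a
non-unit. -/
theorem natCast_mem_maximalIdeal (O : Type*) [CommRing O] [IsLocalRing O] [Algebra ℤ_[p] O]
    [IsLocalHom (algebraMap ℤ_[p] O)] : (p : O) ∈ maximalIdeal O := by
  rw [mem_maximalIdeal, mem_nonunits_iff]
  intro hu
  have h1 : (p : O) = algebraMap ℤ_[p] O (p : ℤ_[p]) := (map_natCast _ _).symm
  rw [h1] at hu
  have hu' : IsUnit (p : ℤ_[p]) := IsLocalHom.map_nonunit _ hu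
  have hn : (p : ℤ_[p]) ∈ nonunits ℤ_[p] := by
    rw [PadicInt.mem_nonunits, PadicInt.norm_p]
    have hp : (1 : ℝ) < p := by exact_mod_cast (Fact.out : p.Prime).one_lt
    exact inv_lt_one_of_one_lt₀ hp
  exact hn hu'

/-- **GB-SETUP (i): the coefficient ring.** -/
theorem exists_coeffRing (hp2 : p ≠ 2) :
    ∃ (O : Type) (_ : CommRing O) (_ : IsDomain O) (_ : IsDiscreteValuationRing O)
      (_ : IsAdicComplete (IsLocalRing.maximalIdeal O) O)
      (_ : Finite (IsLocalRing.ResidueField O)) (_ : CharZero O)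
      (_ : Algebra ℤ_[p] O) (_ : Module.Finite ℤ_[p] O) (_ : IsLocalHom (algebraMap ℤ_[p] O)),
      Function.Injective (algebraMap ℤ_[p] O) ∧ (p : O) ∈ IsLocalRing.maximalIdeal O ∧
      (∃ ζ : O, IsPrimitiveRoot ζ p) ∧
      ∀ (φ : ZMod p →+* IsLocalRing.ResidueField O) (f : (ZMod p)[X]), f.Monic →
        f.natDegree = 2 → ∃ α β : IsLocalRing.ResidueField O, f.map φ = (X - C α) * (X - C β) := by
  classical
  have hp : p.Prime := Fact.out
  -- a quadratic non-residue
  obtain ⟨a0, ha0⟩ := FiniteField.exists_nonsquare (F := ZMod p) (by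
    rw [ZMod.ringChar_zmod_n]; exact hp2)
  obtain ⟨a, rfl⟩ : ∃ a : ℕ, (a : ZMod p) = a0 := ⟨a0.val, ZMod.natCast_zmod_val a0⟩
  -- the splitting field
  set h : ℚ_[p][X] := (X ^ 2 - C (a : ℚ_[p])) * cyclotomic p ℚ_[p] with hh
  have hh0 : h ≠ 0 :=
    mul_ne_zero (monic_X_pow_sub_C _ (by norm_num)).ne_zero (cyclotomic_ne_zero p ℚ_[p])
  obtain ⟨O, iCR, iDom, iDVR, iComp, iRes, iChar, iAlg, iFin, iLoc, iAlgK, iTow, iFrac, hinj⟩ :=
    Fermat.Agent.GJ.Ext.exists_completeDVR_ext ℤ_[p] ℚ_[p] (SplittingField h)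
  have hpO : (p : O) ∈ maximalIdeal O := natCast_mem_maximalIdeal p O
  have hsplit : Splits (h.map (algebraMap ℚ_[p] (SplittingField h))) := SplittingField.splits h
  have hOinj : Function.Injective (algebraMap O (SplittingField h)) :=
    IsFractionRing.injective O _
  haveI : IsIntegrallyClosed O := inferInstance
  -- integral elements of the splitting field come from `O`
  have hint : ∀ x : SplittingField h, IsIntegral ℤ_[p] x →
      ∃ y : O, algebraMap O (SplittingField h) y = x := by
    intro x hx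
    have h4 : IsIntegral O x := hx.tower_top
    exact IsIntegrallyClosed.isIntegral_iff.mp h4
  -- the root of unity
  have hcyc : Splits ((cyclotomic p ℚ_[p]).map (algebraMap ℚ_[p] (SplittingField h))) := by
    refine hsplit.of_dvd ?_ ?_
    · exact (Polynomial.map_ne_zero_iff (algebraMap ℚ_[p] (SplittingField h)).injective).mpr hh0
    · rw [hh, Polynomial.map_mul]
      exact dvd_mul_left _ _
  have hsq : Splits ((X ^ 2 - C (a : ℚ_[p])).map (algebraMap ℚ_[p] (SplittingField h))) := by
    refine hsplit.of_dvd ?_ ?_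
    · exact (Polynomial.map_ne_zero_iff (algebraMap ℚ_[p] (SplittingField h)).injective).mpr hh0
    · rw [hh, Polynomial.map_mul]
      exact dvd_mul_right _ _
  haveI : NeZero ((p : ℕ) : SplittingField h) := ⟨by
    have : ((p : ℕ) : SplittingField h) ≠ 0 := by
      exact_mod_cast (Nat.cast_ne_zero (R := SplittingField h)).mpr hp.ne_zero
    exact this⟩
  obtain ⟨ζ, hζ⟩ : ∃ ζ : SplittingField h, IsPrimitiveRoot ζ p := by
    have hdeg : ((cyclotomic p ℚ_[p]).map (algebraMap ℚ_[p] (SplittingField h))).degree ≠ 0 := by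
      rw [degree_map, degree_cyclotomic]
      have := Nat.totient_pos.mpr hp.pos
      exact_mod_cast this.ne'
    obtain ⟨ζ, hζ⟩ := hcyc.exists_eval_eq_zero hdeg
    refine ⟨ζ, ?_⟩
    rw [map_cyclotomic] at hζ
    exact (isRoot_cyclotomic_iff (n := p)).mp hζ
  obtain ⟨ζ0, hζ0⟩ := hint ζ (hζ.isIntegral hp.pos).tower_top
  have hζ0' : IsPrimitiveRoot ζ0 p :=
    IsPrimitiveRoot.of_map_of_injective (f := algebraMap O (SplittingField h))
      (by rw [hζ0]; exact hζ) hOinj
  -- the square root
  obtain ⟨θ, hθ⟩ : ∃ θ : SplittingField h, θ ^ 2 = (a : SplittingField h) := by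
    have hdeg : ((X ^ 2 - C (a : ℚ_[p])).map (algebraMap ℚ_[p] (SplittingField h))).degree ≠ 0 := by
      rw [degree_map, degree_X_pow_sub_C (by norm_num)]
      norm_num
    obtain ⟨θ, hθ⟩ := hsq.exists_eval_eq_zero hdeg
    refine ⟨θ, ?_⟩
    rw [eval_map, eval₂_sub, eval₂_pow, eval₂_X, eval₂_C, sub_eq_zero, map_natCast] at hθ
    exact hθ
  have hθint : IsIntegral ℤ_[p] θ := by
    refine ⟨X ^ 2 - C (a : ℤ_[p]), monic_X_pow_sub_C _ (by norm_num), ?_⟩
    rw [eval₂_sub, eval₂_pow, eval₂_X, eval₂_C, map_natCast, hθ, sub_self]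
  obtain ⟨θ0, hθ0⟩ := hint θ hθint
  have hθ0' : θ0 ^ 2 = (a : O) := by
    apply hOinj
    rw [map_pow, hθ0, hθ, map_natCast]
  refine ⟨O, iCR, iDom, iDVR, iComp, iRes, iChar, iAlg, iFin, iLoc, hinj, hpO, ⟨ζ0, hζ0'⟩, ?_⟩
  intro φ f hf hdeg
  letI : Algebra (ZMod p) (ResidueField O) := φ.toAlgebra
  have hθk : (residue O θ0) ^ 2 = algebraMap (ZMod p) (ResidueField O) ((a : ℕ) : ZMod p) := by
    rw [← map_pow, hθ0', map_natCast, map_natCast]
  have heven := even_finrank_of_sqrt (p := p) (k := ResidueField O) ha0 hθk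
  exact splits_quadratic_of_even_finrank heven f hf hdeg

end Padic

end Fermat.Agent.GB.Setup.CoeffRing
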