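/-
GATE-B (Ribet level lowering, S38/S43) / node GB-SETUP (i'), helper61: **the coefficient ring with
`p^A`-th roots of unity** (RULING R4 of helper53, board 5608 §2: `O` must contain `ζ` of order
`p ^ A`, `A = max_v v_p(v - 1)` over the framed primes `v`).

`exists_coeffRing_roots p hp2 n hn` : same package as `CoeffRing.exists_coeffRing`, with a primitive
`d`-th root of unity in `O` for EVERY `d ∣ n` (`n ≠ 0` arbitrary; use `n = p ^ A` with `1 ≤ A`).
Construction: integral closure of `ℤ_[p]` in the splitting field of `(X ^ 2 - a) * cyclotomic n`.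
-/
import Mathlib
import Fermat.Agent.GB.Setup.CoeffRing

set_option autoImplicit false
set_option linter.style.haveILetI false

namespace Fermat.Agent.GB.Setup.CoeffRingN

open Polynomial IsLocalRing Fermat.Agent.GB.Setup.CoeffRing

section Padic

variable (p : ℕ) [Fact p.Prime]

/-- **GB-SETUP (i), general roots of unity**: the coefficient ring with a primitive `d`-th root of
unity for every `d ∣ n` (take `n = p ^ A`, `A = max_v v_p(v - 1)`, for RULING R4). -/
theorem exists_coeffRing_roots (hp2 : p ≠ 2) (n : ℕ) (hn : n ≠ 0) :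
    ∃ (O : Type) (_ : CommRing O) (_ : IsDomain O) (_ : IsDiscreteValuationRing O)
      (_ : IsAdicComplete (IsLocalRing.maximalIdeal O) O)
      (_ : Finite (IsLocalRing.ResidueField O)) (_ : CharZero O)
      (_ : Algebra ℤ_[p] O) (_ : Module.Finite ℤ_[p] O) (_ : IsLocalHom (algebraMap ℤ_[p] O)),
      Function.Injective (algebraMap ℤ_[p] O) ∧ (p : O) ∈ IsLocalRing.maximalIdeal O ∧
      (∀ d : ℕ, d ∣ n → ∃ ζ : O, IsPrimitiveRoot ζ d) ∧
      ∀ (φ : ZMod p →+* IsLocalRing.ResidueField O) (f : (ZMod p)[X]), f.Monic →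
        f.natDegree = 2 → ∃ α β : IsLocalRing.ResidueField O, f.map φ = (X - C α) * (X - C β) := by
  classical
  have hp : p.Prime := Fact.out
  -- a quadratic non-residue
  obtain ⟨a0, ha0⟩ := FiniteField.exists_nonsquare (F := ZMod p) (by
    rw [ZMod.ringChar_zmod_n]; exact hp2)
  obtain ⟨a, rfl⟩ : ∃ a : ℕ, (a : ZMod p) = a0 := ⟨a0.val, ZMod.natCast_zmod_val a0⟩
  -- the splitting field
  set h : ℚ_[p][X] := (X ^ 2 - C (a : ℚ_[p])) * cyclotomic n ℚ_[p] with hh
  have hh0 : h ≠ 0 :=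
    mul_ne_zero (monic_X_pow_sub_C _ (by norm_num)).ne_zero (cyclotomic_ne_zero n ℚ_[p])
  obtain ⟨O, iCR, iDom, iDVR, iComp, iRes, iChar, iAlg, iFin, iLoc, iAlgK, iTow, iFrac, hinj⟩ :=
    Fermat.Agent.GJ.Ext.exists_completeDVR_ext ℤ_[p] ℚ_[p] (SplittingField h)
  have hpO : (p : O) ∈ maximalIdeal O := natCast_mem_maximalIdeal p O
  have hsplit : Splits (h.map (algebraMap ℚ_[p] (SplittingField h))) := SplittingField.splits h
  have hOinj : Function.Injective (algebraMap O (SplittingField h)) :=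
    IsFractionRing.injective O _
  haveI : IsIntegrallyClosed O := inferInstance
  -- integral elements of the splitting field come from `O`
  have hint : ∀ x : SplittingField h, IsIntegral ℤ_[p] x →
      ∃ y : O, algebraMap O (SplittingField h) y = x := by
    intro x hx
    have h4 : IsIntegral O x := hx.tower_top
    exact IsIntegrallyClosed.isIntegral_iff.mp h4
  -- the root of unity
  have hcyc : Splits ((cyclotomic n ℚ_[p]).map (algebraMap ℚ_[p] (SplittingField h))) := by
    refine hsplit.of_dvd ?_ ?_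
    · exact (Polynomial.map_ne_zero_iff (algebraMap ℚ_[p] (SplittingField h)).injective).mpr hh0
    · rw [hh, Polynomial.map_mul]
      exact dvd_mul_left _ _
  have hsq : Splits ((X ^ 2 - C (a : ℚ_[p])).map (algebraMap ℚ_[p] (SplittingField h))) := by
    refine hsplit.of_dvd ?_ ?_
    · exact (Polynomial.map_ne_zero_iff (algebraMap ℚ_[p] (SplittingField h)).injective).mpr hh0
    · rw [hh, Polynomial.map_mul]
      exact dvd_mul_right _ _
  haveI : NeZero ((n : ℕ) : SplittingField h) := ⟨by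
    have : ((n : ℕ) : SplittingField h) ≠ 0 := by
      exact_mod_cast (Nat.cast_ne_zero (R := SplittingField h)).mpr hn
    exact this⟩
  obtain ⟨ζ, hζ⟩ : ∃ ζ : SplittingField h, IsPrimitiveRoot ζ n := by
    have hdeg : ((cyclotomic n ℚ_[p]).map (algebraMap ℚ_[p] (SplittingField h))).degree ≠ 0 := by
      rw [degree_map, degree_cyclotomic]
      have := Nat.totient_pos.mpr (Nat.pos_of_ne_zero hn)
      exact_mod_cast this.ne'
    obtain ⟨ζ, hζ⟩ := hcyc.exists_eval_eq_zero hdeg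
    refine ⟨ζ, ?_⟩
    rw [map_cyclotomic] at hζ
    exact (isRoot_cyclotomic_iff (n := n)).mp hζ
  obtain ⟨ζ0, hζ0⟩ := hint ζ (hζ.isIntegral (Nat.pos_of_ne_zero hn)).tower_top
  have hζ0' : IsPrimitiveRoot ζ0 n :=
    IsPrimitiveRoot.of_map_of_injective (f := algebraMap O (SplittingField h))
      (by rw [hζ0]; exact hζ) hOinj
  -- the square root
  obtain ⟨θ, hθ⟩ : ∃ θ : SplittingField h, θ ^ 2 = (a : SplittingField h) := by
    have hdeg : ((X ^ 2 - C (a : ℚ_[p])).map (algebraMap ℚ_[p] (SplittingField h))).degree ≠ 0 := by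
      rw [degree_map, degree_X_pow_sub_C (by norm_num)]
      norm_num
    obtain ⟨θ, hθ⟩ := hsq.exists_eval_eq_zero hdeg
    refine ⟨θ, ?_⟩
    rw [eval_map, eval₂_sub, eval₂_pow, eval₂_X, eval₂_C, sub_eq_zero, map_natCast] at hθ
    exact hθ
  have hθint : IsIntegral ℤ_[p] θ := by
    refine ⟨X ^ 2 - C (a : ℤ_[p]), monic_X_pow_sub_C _ (by norm_num), ?_⟩
    rw [eval₂_sub, eval₂_pow, eval₂_X, eval₂_C, map_natCast, hθ, sub_self]
  obtain ⟨θ0, hθ0⟩ := hint θ hθint
  have hθ0' : θ0 ^ 2 = (a : O) := by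
    apply hOinj
    rw [map_pow, hθ0, hθ, map_natCast]
  refine ⟨O, iCR, iDom, iDVR, iComp, iRes, iChar, iAlg, iFin, iLoc, hinj, hpO, ?_, ?_⟩
  · intro d hd
    obtain ⟨e, rfl⟩ := hd
    have he : e ≠ 0 := fun h0 => hn (by rw [h0, mul_zero])
    have hd0 : d ≠ 0 := fun h0 => hn (by rw [h0, zero_mul])
    have := hζ0'.pow_of_dvd he (dvd_mul_left e d)
    rw [Nat.mul_div_cancel _ (Nat.pos_of_ne_zero he)] at this
    exact ⟨ζ0 ^ e, this⟩
  intro φ f hf hdeg
  letI : Algebra (ZMod p) (ResidueField O) := φ.toAlgebra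
  have hθk : (residue O θ0) ^ 2 = algebraMap (ZMod p) (ResidueField O) ((a : ℕ) : ZMod p) := by
    rw [← map_pow, hθ0', map_natCast, map_natCast]
  have heven := even_finrank_of_sqrt (p := p) (k := ResidueField O) ha0 hθk
  exact splits_quadratic_of_even_finrank heven f hf hdeg


/-- the `p ^ A` form: `ζ_p` and `ζ_{p^A}` in `O`. -/
theorem exists_coeffRing_ppow (hp2 : p ≠ 2) (A : ℕ) (hA : 1 ≤ A) :
    ∃ (O : Type) (_ : CommRing O) (_ : IsDomain O) (_ : IsDiscreteValuationRing O)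
      (_ : IsAdicComplete (IsLocalRing.maximalIdeal O) O)
      (_ : Finite (IsLocalRing.ResidueField O)) (_ : CharZero O)
      (_ : Algebra ℤ_[p] O) (_ : Module.Finite ℤ_[p] O) (_ : IsLocalHom (algebraMap ℤ_[p] O)),
      Function.Injective (algebraMap ℤ_[p] O) ∧ (p : O) ∈ IsLocalRing.maximalIdeal O ∧
      (∃ ζ : O, IsPrimitiveRoot ζ p) ∧ (∀ B : ℕ, B ≤ A → ∃ ζ : O, IsPrimitiveRoot ζ (p ^ B)) ∧
      ∀ (φ : ZMod p →+* IsLocalRing.ResidueField O) (f : (ZMod p)[X]), f.Monic →
        f.natDegree = 2 → ∃ α β : IsLocalRing.ResidueField O, f.map φ = (X - C α) * (X - C β) := by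
  have hp : p.Prime := Fact.out
  obtain ⟨O, i1, i2, i3, i4, i5, i6, i7, i8, i9, h1, h2, h3, h4⟩ :=
    exists_coeffRing_roots p hp2 (p ^ A) (pow_ne_zero A hp.ne_zero)
  refine ⟨O, i1, i2, i3, i4, i5, i6, i7, i8, i9, h1, h2, h3 p (dvd_pow_self p (by omega)),
    fun B hB => h3 (p ^ B) (pow_dvd_pow p hB), h4⟩

end Padic

end Fermat.Agent.GB.Setup.CoeffRingN
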