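/-
GATE-B (Ribet level lowering, S38/S43) / node GB-SETUP (iii), leaf NON-EIS (helper61):
**the residual eigensystem `θ̄(T_ℓ) = a_ℓ(W) mod p` is not Eisenstein.**

`exists_prime_ne_succ` : if `ρ̄ = W[p]` is absolutely irreducible and `W` is residually modular
(`D : ModData W p M`), then for every finite set `B` of primes there is a prime `ℓ ∉ B`, good for
`W`, `ℓ ∤ M p`, with `a_ℓ(W) ≢ ℓ + 1 (mod p)` — the non-Eisenstein element `τ = X_ℓ − (ℓ+1) ∉ 𝔪` of
helper95's pin B3-CONV (C3) (the `ht` binder of `LocSummand`).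

Proof: otherwise `ρ̄` and the mod-`p` Eisenstein representation `1 ⊕ χ̄_cyc` (`GL/Tate/NonEis.eisRep`
over the field `ZMod p`) have the same Frobenius characteristic polynomials
(`RhoBar.charpoly_frob`), hence are isomorphic (BN2, `Carayol2.isEquiv_of_frob`), and the fixed line
of `1 ⊕ χ̄_cyc` would be a stable line of `ρ̄`.

Also: `tw_roots` — sum and product of the Frobenius eigenvalues at a Taylor–Wiles prime (S56 output
shape) in terms of `θ̄`.
-/
import Mathlib
import Fermat.Agent.GB.Setup.RhoBar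
import Fermat.Agent.GL.Tate.NonEis

set_option autoImplicit false

open WeierstrassCurve WeierstrassCurve.Affine.Point Polynomial IsLocalRing
open scoped WeierstrassCurve.Affine

namespace Fermat.Agent.GB.Setup.NonEis

open Fermat.Agent.GB.Setup.RhoBar Fermat.Agent.GL.NonEis

/-- `ℚ̄`. -/
local notation "Qb" => AlgebraicClosure ℚ
/-- `G_ℚ`. -/
local notation "GQ" => (AlgebraicClosure ℚ ≃ₐ[ℚ] AlgebraicClosure ℚ)

/-! ### the Eisenstein representation mod `p` -/

section Eis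

variable (p : ℕ) [Fact p.Prime]

/-- a field is adically complete for its maximal ideal `⊥` -/
theorem isAdicComplete_zmod : IsAdicComplete (maximalIdeal (ZMod p)) (ZMod p) := by
  rw [IsLocalRing.maximalIdeal_eq_bot]
  infer_instance

theorem natCast_mem_maximalIdeal_zmod : ((p : ℕ) : ZMod p) ∈ maximalIdeal (ZMod p) := by
  rw [ZMod.natCast_self]
  exact Submodule.zero_mem _

/-- `1 ⊕ χ̄_cyc` as an adic representation over the field `ZMod p`. -/
noncomputable def eisAdic : GaloisRepAdic (ZMod p) :=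
  haveI := isAdicComplete_zmod p
  eisRep p (ZMod p) (natCast_mem_maximalIdeal_zmod p)

/-- **the Eisenstein residual representation** `1 ⊕ χ̄_cyc` over `ZMod p`. -/
noncomputable def eisRes : ResidualGaloisRep (ZMod p) where
  V := (eisAdic p).V
  finrank_eq := (eisAdic p).finrank_eq
  ρ := (eisAdic p).ρ
  factorsThroughFiniteLevel := by
    obtain ⟨L, hL, h1⟩ := (eisAdic p).isAdicContinuous 1
    refine ⟨L, hL, fun σ hσ => LinearMap.ext fun v => ?_⟩
    have h2 := h1 σ hσ v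
    rw [pow_one, IsLocalRing.maximalIdeal_eq_bot, Submodule.bot_smul, Submodule.mem_bot,
      sub_eq_zero] at h2
    exact h2

theorem eisRes_charpoly_frob (A : ValuationSubring Qb) (l : ℕ) (hl : l.Prime)
    (hA : A.LiesOverPrime l) (hlp : l ≠ p) (σ : GQ) (hσ : A.IsFrobeniusAt σ l) :
    LinearMap.charpoly ((eisRes p).ρ σ) =
      X ^ 2 - C (((l : ℕ) : ZMod p) + 1) * X + C ((l : ℕ) : ZMod p) := by
  haveI := isAdicComplete_zmod p
  exact eisRep_charpoly_frob p (ZMod p) (natCast_mem_maximalIdeal_zmod p) A l hl hA hlp σ hσ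

/-- the first coordinate vector is fixed by `1 ⊕ χ̄_cyc` -/
theorem eisRes_fixed (σ : GQ) :
    (eisRes p).ρ σ (Pi.single 0 1 : Fin 2 → ZMod p) = Pi.single 0 1 := by
  haveI := isAdicComplete_zmod p
  have h := LinearMap.congr_fun (diagEnd_comp_single
    ((Fermat.Agent.GJ.Cyc.adicCyc p (ZMod p) (natCast_mem_maximalIdeal_zmod p) σ : (ZMod p)ˣ) :
      ZMod p)) (1 : ZMod p)
  exact h

/-- A residual representation isomorphic to `1 ⊕ χ̄_cyc` is not irreducible. -/
theorem not_isIrreducible_of_isEquiv_eisRes (ρ : ResidualGaloisRep (ZMod p))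
    (h : ρ.IsEquiv (eisRes p)) : ¬ ρ.IsIrreducible := by
  obtain ⟨e⟩ := h
  intro hirr
  set v₀ : Fin 2 → ZMod p := Pi.single 0 1 with hv₀
  set w : ρ.V := e.toLinearEquiv.symm v₀ with hw
  have hw0 : w ≠ 0 := by
    intro h0
    have h1 : e.toLinearEquiv w = 0 := by rw [h0, _root_.map_zero]
    rw [hw, LinearEquiv.apply_symm_apply] at h1
    have h2 := congrFun h1 0
    rw [hv₀, Pi.single_eq_same] at h2
    exact one_ne_zero h2
  have hfix : ∀ σ : GQ, ρ.ρ σ w = w := by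
    intro σ
    apply e.toLinearEquiv.injective
    rw [e.map_apply, hw, LinearEquiv.apply_symm_apply]
    exact eisRes_fixed p σ
  rcases hirr (Submodule.span (ZMod p) {w}) (by
    intro σ x hx
    obtain ⟨c, rfl⟩ := Submodule.mem_span_singleton.mp hx
    rw [map_smul, hfix]
    exact Submodule.smul_mem _ _ (Submodule.mem_span_singleton_self w)) with h0 | h1
  · apply hw0
    have : w ∈ Submodule.span (ZMod p) {w} := Submodule.mem_span_singleton_self w
    rw [h0, Submodule.mem_bot] at this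
    exact this
  · have h2 := finrank_span_singleton (K := ZMod p) hw0
    rw [h1, finrank_top, ρ.finrank_eq] at h2
    exact absurd h2 (by norm_num)

end Eis

/-! ### non-Eisenstein -/

section Main

variable {p : ℕ} [Fact p.Prime] {W : WeierstrassCurve ℤ}
  (hcard₁ : Nat.card (Submodule.torsionBy ℤ
    ((W.map (Int.castRingHom ℚ))⁄(AlgebraicClosure ℚ)).Point p) = p ^ 2)
  (hker : GaloisFactorsThroughFiniteLevel
    (galoisRepModuleEnd (K := AlgebraicClosure ℚ) ℚ (W.map (Int.castRingHom ℚ)) p))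

/-- **NON-EIS**: outside any finite set of primes there is a good prime `ℓ ∤ M p` with
`a_ℓ(W) ≢ ℓ + 1 (mod p)`. -/
theorem exists_prime_ne_succ {M : ℕ} (D : ModData W p M) (hM : M ≠ 0) (hΔ : W.Δ ≠ 0)
    (hirr : W.ModRepIsIrreducible p)
    (habs : (rb p W hcard₁ hker).IsAbsolutelyIrreducible) (B : Finset ℕ) :
    ∃ ℓ : ℕ, ℓ.Prime ∧ ℓ ∉ B ∧ W.IsGoodPrimeFor ℓ ∧ ¬ ℓ ∣ M ∧ ℓ ≠ p ∧
      ((W.apOfModel ℓ : ℤ) : ZMod p) ≠ ((ℓ : ℕ) : ZMod p) + 1 := by
  classical
  by_contra hcon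
  push Not at hcon
  apply not_isIrreducible_of_isEquiv_eisRes p (rb p W hcard₁ hker) ?_
    (isIrreducible_rb hcard₁ hker hirr)
  apply Fermat.Agent.GB.Setup.Carayol2.isEquiv_of_frob _ _ habs
    (B ∪ M.primeFactors ∪ {p} ∪ W.Δ.natAbs.primeFactors)
  intro ℓ hℓ hℓB A hA τ hτ
  have hℓB0 : ℓ ∉ B := fun h => hℓB (by
    simp only [Finset.mem_union]
    exact Or.inl (Or.inl (Or.inl h)))
  have hℓM : ¬ ℓ ∣ M := fun h => hℓB (by
    simp only [Finset.mem_union]
    exact Or.inl (Or.inl (Or.inr (Nat.mem_primeFactors.mpr ⟨hℓ, h, hM⟩))))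
  have hℓp : ℓ ≠ p := fun h => hℓB (by
    simp only [Finset.mem_union, Finset.mem_singleton]
    exact Or.inl (Or.inr h))
  have hgood : W.IsGoodPrimeFor ℓ := fun h => hℓB (by
    simp only [Finset.mem_union]
    exact Or.inr (Nat.mem_primeFactors.mpr
      ⟨hℓ, Int.natCast_dvd.mp h, Int.natAbs_ne_zero.mpr hΔ⟩))
  have h1 := charpoly_frob hcard₁ hker D hM hΔ hirr hℓ hgood hℓM hℓp A hA τ hτ
  have h2 := eisRes_charpoly_frob p A ℓ hℓ hA hℓp τ hτ
  rw [Fermat.Agent.GB.Setup.Carayol2.trace_eq_of_charpoly_eq _ τ _ _ h1,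
    Fermat.Agent.GB.Setup.Carayol2.trace_eq_of_charpoly_eq _ τ _ _ h2]
  exact hcon ℓ hℓ hℓB0 hgood hℓM hℓp

include hcard₁ hker in
/-- **NON-EIS**, coefficient-field form and with the transvection binder of the top interface. -/
theorem exists_prime_ne_succ_of_transvection {M : ℕ} (D : ModData W p M) (hM : M ≠ 0)
    (hΔ : W.Δ ≠ 0) (hirr : W.ModRepIsIrreducible p)
    (htrans : ∃ σ : GQ,
      galoisRepModuleEnd (K := Qb) ℚ (W.map (Int.castRingHom ℚ)) p σ ≠ 1 ∧
        (galoisRepModuleEnd (K := Qb) ℚ (W.map (Int.castRingHom ℚ)) p σ - 1) ^ 2 = 0)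
    (k : Type) [Field k] [Algebra (ZMod p) k] (B : Finset ℕ) :
    ∃ ℓ : ℕ, ℓ.Prime ∧ ℓ ∉ B ∧ W.IsGoodPrimeFor ℓ ∧ ¬ ℓ ∣ M ∧ ℓ ≠ p ∧
      ((W.apOfModel ℓ : ℤ) : k) ≠ ((ℓ : ℕ) : k) + 1 := by
  obtain ⟨ℓ, hℓ, hℓB, hgood, hℓM, hℓp, hne⟩ := exists_prime_ne_succ hcard₁ hker D hM hΔ hirr
    (Fermat.Agent.GB.Setup.Irr.isAbsolutelyIrreducible_of_transvection (rb p W hcard₁ hker)
      (isIrreducible_rb hcard₁ hker hirr) htrans) B
  refine ⟨ℓ, hℓ, hℓB, hgood, hℓM, hℓp, fun h => hne ?_⟩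
  apply (algebraMap (ZMod p) k).injective
  rw [map_intCast, map_add, map_natCast, map_one]
  exact h

/-- **TW roots**: at a prime `r` good for `W`, `r ∤ M p`, if the characteristic polynomial of a
Frobenius lift on `ρ̄ ⊗ k` is `(X - α)(X - β)` (the S56 output shape), then
`α + β = a_r(W)` and `α β = r` in `k`. -/
theorem tw_roots {M : ℕ} (D : ModData W p M) (hM : M ≠ 0) (hΔ : W.Δ ≠ 0)
    (hirr : W.ModRepIsIrreducible p) (k : Type) [Field k] [Algebra (ZMod p) k]
    {r : ℕ} (hr : r.Prime) (hgood : W.IsGoodPrimeFor r) (hrM : ¬ r ∣ M) (hrp : r ≠ p)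
    (A : ValuationSubring Qb) (hA : A.LiesOverPrime r) (φ : GQ) (hφ : A.IsFrobeniusAt φ r)
    (α β : k)
    (h : LinearMap.charpoly (((rb p W hcard₁ hker).baseChange k).ρ φ) = (X - C α) * (X - C β)) :
    α + β = ((W.apOfModel r : ℤ) : k) ∧ α * β = ((r : ℕ) : k) := by
  rw [charpoly_baseChange_frob hcard₁ hker D hM hΔ hirr k hr hgood hrM hrp A hA φ hφ] at h
  have h' : (X ^ 2 - C ((W.apOfModel r : ℤ) : k) * X + C ((r : ℕ) : k) : k[X]) =
      X ^ 2 - C (α + β) * X + C (α * β) := by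
    rw [h, map_add, map_mul]
    ring
  obtain ⟨h1, h2⟩ := Fermat.Agent.GB.Top.ModelChangeProof.coeffs_of_quad_eq h'
  exact ⟨h1.symm, h2.symm⟩

end Main

end Fermat.Agent.GB.Setup.NonEis
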