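/-
GATE-B (Ribet level lowering, S38/S43) / node GB-SETUP, PLUG 2 (helper61):
**every `ρ̄`-side binder of the frozen S56** (= the binders of helper11's
`GB/Def/FramedInstKummer.framedSurjKummer_frozen_SO / _FL`) for `ρ̄ := ρ̄_W ⊗ ResidueField 𝒪`,
discharged from `ModData` (= witnesses of `W.IsResiduallyModularOfLevel p M`), `hirr`, `htrans` and
the quadratic-splitting clause of `CoeffRing.exists_coeffRing`:

* `s56_binders`  : `habs ∧ hdet ∧ hsplit ∧ hTW ∧ (unramified outside M p)`;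
* `exists_Smin`  : a `Smin ⊆ {p} ∪ primes of M` with `p ∈ Smin` and the frozen `hmin` clause;
* `framedSurjKummer_rb_SO / _FL` : helper11's framed Taylor–Wiles surjections for `ρ̄_W ⊗ k`
  (plug test of the seam SETUP → B2).
-/
import Mathlib
import Fermat.Agent.GB.Setup.RhoBar
import Fermat.Agent.GB.Def.FramedInstKummer

set_option autoImplicit false

open WeierstrassCurve WeierstrassCurve.Affine.Point Polynomial IsLocalRing
open scoped WeierstrassCurve.Affine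

namespace Fermat.Agent.GB.Setup.S56Plug

open Fermat.Agent.GB.Setup.RhoBar

/-- `ℚ̄`. -/
local notation "Qb" => AlgebraicClosure ℚ
/-- `G_ℚ`. -/
local notation "GQ" => (AlgebraicClosure ℚ ≃ₐ[ℚ] AlgebraicClosure ℚ)

variable {p : ℕ} [Fact p.Prime] {W : WeierstrassCurve ℤ}
  (hcard₁ : Nat.card (Submodule.torsionBy ℤ
    ((W.map (Int.castRingHom ℚ))⁄(AlgebraicClosure ℚ)).Point p) = p ^ 2)
  (hker : GaloisFactorsThroughFiniteLevel
    (galoisRepModuleEnd (K := AlgebraicClosure ℚ) ℚ (W.map (Int.castRingHom ℚ)) p))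
  {M : ℕ} (D : ModData W p M)

include D

/-- **All `ρ̄`-side binders of the frozen S56** for `ρ̄_W ⊗ ResidueField 𝒪`. -/
theorem s56_binders (hp2 : p ≠ 2) (hM : M ≠ 0) (hΔ : W.Δ ≠ 0) (hirr : W.ModRepIsIrreducible p)
    (htrans : ∃ σ : GQ,
      galoisRepModuleEnd (K := Qb) ℚ (W.map (Int.castRingHom ℚ)) p σ ≠ 1 ∧
        (galoisRepModuleEnd (K := Qb) ℚ (W.map (Int.castRingHom ℚ)) p σ - 1) ^ 2 = 0)
    (𝒪 : Type) [CommRing 𝒪] [IsLocalRing 𝒪] [Algebra (ZMod p) (ResidueField 𝒪)]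
    (hp𝒪 : (p : 𝒪) ∈ maximalIdeal 𝒪)
    (hk : ∀ f : (ZMod p)[X], f.Monic → f.natDegree = 2 →
      ∃ α β : ResidueField 𝒪,
        f.map (algebraMap (ZMod p) (ResidueField 𝒪)) = (X - C α) * (X - C β)) :
    ((rb p W hcard₁ hker).baseChange (ResidueField 𝒪)).IsAbsolutelyIrreducible ∧
    (GaloisRepAdic.ofResidualGaloisRep
      ((rb p W hcard₁ hker).baseChange (ResidueField 𝒪))).DetIsCyclotomic p ∧
    (∀ σ : GQ, ∃ α β : ResidueField 𝒪,
      LinearMap.charpoly (((rb p W hcard₁ hker).baseChange (ResidueField 𝒪)).ρ σ) =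
        (X - C α) * (X - C β)) ∧
    (∀ (K : Type) [Field K] [Algebra (ResidueField 𝒪) K] (G : Subgroup GQ), G.index = 2 →
      ∀ V : Submodule K (((rb p W hcard₁ hker).baseChange (ResidueField 𝒪)).baseChange K).V,
        (∀ σ ∈ G, ∀ x ∈ V,
          (((rb p W hcard₁ hker).baseChange (ResidueField 𝒪)).baseChange K).ρ σ x ∈ V) →
        V = ⊥ ∨ V = ⊤) ∧
    (∀ r : ℕ, r.Prime → ¬ r ∣ M * p →
      ((rb p W hcard₁ hker).baseChange (ResidueField 𝒪)).IsUnramifiedAt r) := by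
  have habs := isAbsolutelyIrreducible_baseChange hcard₁ hker hirr htrans (ResidueField 𝒪)
  refine ⟨habs, detIsCyclotomic hcard₁ hker D hM hΔ hirr (ResidueField 𝒪),
    hsplit_baseChange (rb p W hcard₁ hker) (ResidueField 𝒪) hk, ?_, ?_⟩
  · exact Fermat.Agent.GB.Def.TWHyp.hTW_S56 p hp2 hp𝒪 _ habs
      (hasTransvection_baseChange hcard₁ hker htrans (ResidueField 𝒪))
  · intro r hr hrMp
    exact isUnramifiedAt_of_transvection hcard₁ hker D hM hΔ hirr htrans (ResidueField 𝒪) hr hrMp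

/-- **`Smin`**: the set `{p} ∪ {q ∣ M : ρ̄ ramified at q}` with the frozen `hmin` clause. -/
theorem exists_Smin (hM : M ≠ 0) (hΔ : W.Δ ≠ 0) (hirr : W.ModRepIsIrreducible p)
    (htrans : ∃ σ : GQ,
      galoisRepModuleEnd (K := Qb) ℚ (W.map (Int.castRingHom ℚ)) p σ ≠ 1 ∧
        (galoisRepModuleEnd (K := Qb) ℚ (W.map (Int.castRingHom ℚ)) p σ - 1) ^ 2 = 0)
    (k : Type) [Field k] [Algebra (ZMod p) k] :
    ∃ Smin : Finset ℕ, p ∈ Smin ∧ (∀ q ∈ Smin, q.Prime) ∧ (∀ q ∈ Smin, q = p ∨ q ∣ M) ∧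
      ∀ q : ℕ, q.Prime → q ≠ p →
        (q ∈ Smin ↔ ¬ ((rb p W hcard₁ hker).baseChange k).IsUnramifiedAt q) := by
  classical
  refine ⟨insert p (M.primeFactors.filter
    (fun q => ¬ ((rb p W hcard₁ hker).baseChange k).IsUnramifiedAt q)),
    Finset.mem_insert_self _ _, ?_, ?_, ?_⟩
  · intro q hq
    rcases Finset.mem_insert.mp hq with rfl | hq
    · exact Fact.out
    · exact Nat.prime_of_mem_primeFactors (Finset.mem_filter.mp hq).1
  · intro q hq
    rcases Finset.mem_insert.mp hq with rfl | hq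
    · exact Or.inl rfl
    · exact Or.inr (Nat.dvd_of_mem_primeFactors (Finset.mem_filter.mp hq).1)
  · intro q hq hqp
    constructor
    · intro h
      rcases Finset.mem_insert.mp h with rfl | h
      · exact absurd rfl hqp
      · exact (Finset.mem_filter.mp h).2
    · intro h
      refine Finset.mem_insert_of_mem (Finset.mem_filter.mpr ⟨?_, h⟩)
      refine Nat.mem_primeFactors.mpr ⟨hq, ?_, hM⟩
      by_contra hqM
      apply h
      refine isUnramifiedAt_of_transvection hcard₁ hker D hM hΔ hirr htrans k hq ?_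
      intro hdvd
      rcases (Nat.Prime.dvd_mul hq).mp hdvd with h1 | h1
      · exact hqM h1
      · exact hqp ((Nat.prime_dvd_prime_iff_eq hq (Fact.out : p.Prime)).mp h1)

section Framed

open Fermat.Agent.GB.Def.FramedInstKummer

variable {𝒪 : Type} [CommRing 𝒪] [IsDomain 𝒪] [IsDiscreteValuationRing 𝒪]
  [IsAdicComplete (maximalIdeal 𝒪) 𝒪] [Finite (ResidueField 𝒪)]
  [Algebra (ZMod p) (ResidueField 𝒪)]

/-- **plug test SETUP → B2 (strict-ordinary)**: helper11's framed Taylor–Wiles surjections for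
`ρ̄_W ⊗ ResidueField 𝒪`, every `ρ̄`-side binder discharged. -/
theorem framedSurjKummer_rb_SO (hp2 : p ≠ 2) (hM : M ≠ 0) (hΔ : W.Δ ≠ 0)
    (hirr : W.ModRepIsIrreducible p)
    (htrans : ∃ σ : GQ,
      galoisRepModuleEnd (K := Qb) ℚ (W.map (Int.castRingHom ℚ)) p σ ≠ 1 ∧
        (galoisRepModuleEnd (K := Qb) ℚ (W.map (Int.castRingHom ℚ)) p σ - 1) ^ 2 = 0)
    (hp𝒪 : (p : 𝒪) ∈ maximalIdeal 𝒪)
    (hk : ∀ f : (ZMod p)[X], f.Monic → f.natDegree = 2 →
      ∃ α β : ResidueField 𝒪,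
        f.map (algebraMap (ZMod p) (ResidueField 𝒪)) = (X - C α) * (X - C β))
    (S Smin Su : Finset ℕ) (hpSmin : p ∈ Smin) (hpS : p ∈ S)
    (hmin : ∀ q : ℕ, q.Prime → q ≠ p →
      (q ∈ Smin ↔ ¬ ((rb p W hcard₁ hker).baseChange (ResidueField 𝒪)).IsUnramifiedAt q))
    (hSu : ∀ q ∈ Su, q ∉ Smin) :
    FramedSurjKummerConcl p ((rb p W hcard₁ hker).baseChange (ResidueField 𝒪))
      (GaloisRep.strictOrdinaryCondition 𝒪 p) S Smin Su := by
  obtain ⟨habs, hdet, hsplit, hTW, -⟩ :=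
    s56_binders hcard₁ hker D hp2 hM hΔ hirr htrans 𝒪 hp𝒪 hk
  exact framedSurjKummer_frozen_SO p _ hp2 hp𝒪 habs hdet hsplit hTW S Smin Su hpSmin hpS hmin hSu

/-- **plug test SETUP → B2 (flat)**. -/
theorem framedSurjKummer_rb_FL (hp2 : p ≠ 2) (hM : M ≠ 0) (hΔ : W.Δ ≠ 0)
    (hirr : W.ModRepIsIrreducible p)
    (htrans : ∃ σ : GQ,
      galoisRepModuleEnd (K := Qb) ℚ (W.map (Int.castRingHom ℚ)) p σ ≠ 1 ∧
        (galoisRepModuleEnd (K := Qb) ℚ (W.map (Int.castRingHom ℚ)) p σ - 1) ^ 2 = 0)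
    (hp𝒪 : (p : 𝒪) ∈ maximalIdeal 𝒪)
    (hk : ∀ f : (ZMod p)[X], f.Monic → f.natDegree = 2 →
      ∃ α β : ResidueField 𝒪,
        f.map (algebraMap (ZMod p) (ResidueField 𝒪)) = (X - C α) * (X - C β))
    (S Smin Su : Finset ℕ) (hpSmin : p ∈ Smin) (hpS : p ∈ S)
    (hmin : ∀ q : ℕ, q.Prime → q ≠ p →
      (q ∈ Smin ↔ ¬ ((rb p W hcard₁ hker).baseChange (ResidueField 𝒪)).IsUnramifiedAt q))
    (hSu : ∀ q ∈ Su, q ∉ Smin) :
    FramedSurjKummerConcl p ((rb p W hcard₁ hker).baseChange (ResidueField 𝒪))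
      (GaloisRep.flatCondition 𝒪 p) S Smin Su := by
  obtain ⟨habs, hdet, hsplit, hTW, -⟩ :=
    s56_binders hcard₁ hker D hp2 hM hΔ hirr htrans 𝒪 hp𝒪 hk
  exact framedSurjKummer_frozen_FL p _ hp2 habs hdet hsplit hTW S Smin Su hpSmin hpS hmin hSu

end Framed

end Fermat.Agent.GB.Setup.S56Plug
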