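/-
GATE-B (Ribet level lowering, S38/S43) / node GB-SETUP, **the bundle `SetupPkg`** (helper61;
DISPATCH-5 of helper53, board 5708 §4; consumer: helper55 `GB/B9/Provider.lean`).

ONE structure `Pkg p W hcard₁ hker M A` carrying

* the coefficient ring `O` (complete DVR, char. 0, finite over `ℤ_[p]`, finite residue field `k`,
  `Algebra (ZMod p) k`), a uniformiser `ϖ`, a primitive `p ^ A`-th root of unity `ζ`, the
  quadratic-splitting clause;
* the modularity datum `D : ModData W p M` (= the witnesses of the frozen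
  `W.IsResiduallyModularOfLevel p M`) and the standing hypotheses `hp2 hΔ hirr htrans`;

and, as THEOREMS/DEFINITIONS of the bundle (namespace `Pkg`):

* `rhobar = ρ̄_W ⊗ k`, its frozen-S56 binders `habs hdet hsplit hTW`, `unram` (outside `M p`);
* `Smin` (`p ∈ Smin`, frozen `hmin` clause), `Su = {ℓ ∣ M prime, ℓ ≠ p, ρ̄ unramified at ℓ}`,
  `Su ∩ Smin = ∅`;
* `S0 = primes of M ∪ {p} ∪ bad(W)`, `theta : heckeAlgebra M 2 S0 →+* k`, `theta_T`, `hfrob`;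
* `exists_datum` (helper36's Hecke–Galois datum at level `M` over `Tloc O θ̄`);
* `framedSurj_FL / _SO` (helper11's framed Taylor–Wiles surjections at `(S, Smin, Su)`);
* `exists_nonEis`, `tw_roots`; the B3 coefficient facts `hmax hϖ0 hpϖ hp0 exists_root`.

`nonempty_pkg` : the bundle exists under the CASE-B binders.
-/
import Mathlib
import Fermat.Agent.GB.Setup.CoeffRingN
import Fermat.Agent.GB.Setup.S56Plug
import Fermat.Agent.GB.Setup.DatumPlug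
import Fermat.Agent.GB.Setup.NonEis

set_option autoImplicit false
set_option linter.unusedSectionVars false

open WeierstrassCurve WeierstrassCurve.Affine.Point Polynomial IsLocalRing CuspForm
open scoped WeierstrassCurve.Affine

namespace Fermat.Agent.GB.Setup.SetupPkg

open Fermat.Agent.GB.Setup.RhoBar Fermat.Agent.GB.Setup.Theta
  Fermat.Agent.GB.B4.Datum.Carrier Fermat.Agent.GB.B4.Datum.HeckeCarrier
  Fermat.Agent.GB.Def.FramedInstKummer

/-- `ℚ̄`. -/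
local notation "Qb" => AlgebraicClosure ℚ
/-- `G_ℚ`. -/
local notation "GQ" => (AlgebraicClosure ℚ ≃ₐ[ℚ] AlgebraicClosure ℚ)

/-- **The SETUP bundle of CASE B.** -/
structure Pkg (p : ℕ) [Fact p.Prime] (W : WeierstrassCurve ℤ)
    (hcard₁ : Nat.card (Submodule.torsionBy ℤ
      ((W.map (Int.castRingHom ℚ))⁄(AlgebraicClosure ℚ)).Point p) = p ^ 2)
    (hker : GaloisFactorsThroughFiniteLevel
      (galoisRepModuleEnd (K := AlgebraicClosure ℚ) ℚ (W.map (Int.castRingHom ℚ)) p))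
    (M : ℕ) (A : ℕ) : Type 1 where
  /-- the coefficient ring -/
  O : Type
  [crO : CommRing O]
  [domO : IsDomain O]
  [dvrO : IsDiscreteValuationRing O]
  [complO : IsAdicComplete (maximalIdeal O) O]
  [finO : Finite (ResidueField O)]
  [char0 : CharZero O]
  [algZp : Algebra ℤ_[p] O]
  [finZp : Module.Finite ℤ_[p] O]
  [locZp : IsLocalHom (algebraMap ℤ_[p] O)]
  [algk : Algebra (ZMod p) (ResidueField O)]
  injZp : Function.Injective (algebraMap ℤ_[p] O)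
  /-- a uniformiser -/
  ϖ : O
  hϖ : Irreducible ϖ
  hpO : (p : O) ∈ maximalIdeal O
  /-- a primitive `p ^ A`-th root of unity -/
  ζ : O
  hζ : IsPrimitiveRoot ζ (p ^ A)
  hk : ∀ f : (ZMod p)[X], f.Monic → f.natDegree = 2 →
    ∃ α β : ResidueField O,
      f.map (algebraMap (ZMod p) (ResidueField O)) = (X - C α) * (X - C β)
  /-- the witnesses of residual modularity at level `M` -/
  D : ModData W p M
  hM : M ≠ 0
  hp2 : p ≠ 2
  hΔ : W.Δ ≠ 0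
  hirr : W.ModRepIsIrreducible p
  htrans : ∃ σ : GQ,
    galoisRepModuleEnd (K := Qb) ℚ (W.map (Int.castRingHom ℚ)) p σ ≠ 1 ∧
      (galoisRepModuleEnd (K := Qb) ℚ (W.map (Int.castRingHom ℚ)) p σ - 1) ^ 2 = 0

attribute [instance] Pkg.crO Pkg.domO Pkg.dvrO Pkg.complO Pkg.finO Pkg.char0 Pkg.algZp Pkg.finZp
  Pkg.locZp Pkg.algk

namespace Pkg

variable {p : ℕ} [Fact p.Prime] {W : WeierstrassCurve ℤ}
  {hcard₁ : Nat.card (Submodule.torsionBy ℤ
    ((W.map (Int.castRingHom ℚ))⁄(AlgebraicClosure ℚ)).Point p) = p ^ 2}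
  {hker : GaloisFactorsThroughFiniteLevel
    (galoisRepModuleEnd (K := AlgebraicClosure ℚ) ℚ (W.map (Int.castRingHom ℚ)) p)}
  {M A : ℕ} (P : Pkg p W hcard₁ hker M A)

/-! ### the coefficient ring -/

/-- the residue field -/
abbrev k : Type := ResidueField P.O

include P in
theorem neZeroM : NeZero M := ⟨P.hM⟩

theorem hmax : maximalIdeal P.O = Ideal.span {P.ϖ} := P.hϖ.maximalIdeal_eq

theorem hϖ0 : P.ϖ ≠ 0 := P.hϖ.ne_zero

theorem hpϖ : (p : P.O) ∈ Ideal.span {P.ϖ} := by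
  rw [← P.hmax]
  exact P.hpO

theorem hp0 : (p : P.O) ≠ 0 := Nat.cast_ne_zero.mpr (Fact.out : p.Prime).ne_zero

instance charPk : CharP P.k p :=
  charP_of_injective_algebraMap (algebraMap (ZMod p) P.k).injective p

/-- a `p`-power root of unity is `≡ 1` modulo the maximal ideal -/
theorem one_sub_mem_of_pow_eq_one {c : P.O} {n : ℕ} (hc : c ^ p ^ n = 1) :
    (1 : P.O) - c ∈ Ideal.span {P.ϖ} := by
  rw [← P.hmax, ← residue_eq_zero_iff, map_sub, map_one, sub_eq_zero]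
  have h1 : (residue P.O c) ^ p ^ n = 1 := by rw [← map_pow, hc, map_one]
  have h2 : (residue P.O c - 1) ^ p ^ n = 0 := by
    rw [sub_pow_char_pow, h1, one_pow, sub_self]
  exact (sub_eq_zero.mp (pow_eq_zero_iff (pow_ne_zero n (Fact.out : p.Prime).ne_zero) |>.mp h2)).symm

/-- **roots of unity of every order `p ^ B`, `B ≤ A`**, congruent to `1` (the `c` of B3 `Final`). -/
theorem exists_root (B : ℕ) (hB : B ≤ A) :
    ∃ c : P.O, IsPrimitiveRoot c (p ^ B) ∧ c ^ p ^ B = 1 ∧ (1 : P.O) - c ∈ Ideal.span {P.ϖ} := by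
  have hpp : p ^ (A - B) ≠ 0 := pow_ne_zero _ (Fact.out : p.Prime).ne_zero
  have hdvd : p ^ (A - B) ∣ p ^ A := pow_dvd_pow p (Nat.sub_le A B)
  have h := P.hζ.pow_of_dvd hpp hdvd
  have hdiv : p ^ A / p ^ (A - B) = p ^ B := by
    rw [Nat.pow_div (Nat.sub_le A B) (Fact.out : p.Prime).pos, Nat.sub_sub_self hB]
  rw [hdiv] at h
  exact ⟨P.ζ ^ p ^ (A - B), h, h.pow_eq_one, P.one_sub_mem_of_pow_eq_one h.pow_eq_one⟩

/-! ### `ρ̄` and its frozen-S56 binders -/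

/-- `ρ̄ = ρ̄_W ⊗ k`. -/
noncomputable def rhobar : ResidualGaloisRep P.k :=
  (rb p W hcard₁ hker).baseChange P.k

theorem habs : P.rhobar.IsAbsolutelyIrreducible :=
  (Fermat.Agent.GB.Setup.S56Plug.s56_binders hcard₁ hker P.D P.hp2 P.hM P.hΔ P.hirr P.htrans
    P.O P.hpO P.hk).1

theorem hdet : (GaloisRepAdic.ofResidualGaloisRep P.rhobar).DetIsCyclotomic p :=
  (Fermat.Agent.GB.Setup.S56Plug.s56_binders hcard₁ hker P.D P.hp2 P.hM P.hΔ P.hirr P.htrans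
    P.O P.hpO P.hk).2.1

theorem hsplit (σ : GQ) : ∃ α β : P.k,
    LinearMap.charpoly (P.rhobar.ρ σ) = (X - C α) * (X - C β) :=
  (Fermat.Agent.GB.Setup.S56Plug.s56_binders hcard₁ hker P.D P.hp2 P.hM P.hΔ P.hirr P.htrans
    P.O P.hpO P.hk).2.2.1 σ

theorem hTW (K : Type) [Field K] [Algebra P.k K] (G : Subgroup GQ) (hG : G.index = 2)
    (V : Submodule K (P.rhobar.baseChange K).V)
    (hV : ∀ σ ∈ G, ∀ x ∈ V, (P.rhobar.baseChange K).ρ σ x ∈ V) : V = ⊥ ∨ V = ⊤ :=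
  (Fermat.Agent.GB.Setup.S56Plug.s56_binders hcard₁ hker P.D P.hp2 P.hM P.hΔ P.hirr P.htrans
    P.O P.hpO P.hk).2.2.2.1 K G hG V hV

theorem unram {r : ℕ} (hr : r.Prime) (hrMp : ¬ r ∣ M * p) : P.rhobar.IsUnramifiedAt r :=
  (Fermat.Agent.GB.Setup.S56Plug.s56_binders hcard₁ hker P.D P.hp2 P.hM P.hΔ P.hirr P.htrans
    P.O P.hpO P.hk).2.2.2.2 r hr hrMp

theorem htransK : ∃ σ : GQ, P.rhobar.ρ σ ≠ 1 ∧ (P.rhobar.ρ σ - 1) ^ 2 = 0 :=
  hasTransvection_baseChange hcard₁ hker P.htrans P.k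

/-! ### `Smin` and `Su` -/

open Classical in
/-- `Smin = {p} ∪ {q ∣ M : ρ̄ ramified at q}`. -/
noncomputable def Smin : Finset ℕ :=
  insert p (M.primeFactors.filter (fun q => ¬ P.rhobar.IsUnramifiedAt q))

open Classical in
/-- `Su = {ℓ ∣ M prime, ℓ ≠ p, ρ̄ unramified at ℓ}` — the framed primes. -/
noncomputable def Su : Finset ℕ :=
  M.primeFactors.filter (fun q => q ≠ p ∧ P.rhobar.IsUnramifiedAt q)

theorem p_mem_Smin : p ∈ P.Smin := Finset.mem_insert_self _ _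

theorem prime_of_mem_Smin {q : ℕ} (hq : q ∈ P.Smin) : q.Prime := by
  classical
  rcases Finset.mem_insert.mp hq with rfl | hq
  · exact Fact.out
  · exact Nat.prime_of_mem_primeFactors (Finset.mem_filter.mp hq).1

theorem dvd_of_mem_Smin {q : ℕ} (hq : q ∈ P.Smin) : q = p ∨ q ∣ M := by
  classical
  rcases Finset.mem_insert.mp hq with rfl | hq
  · exact Or.inl rfl
  · exact Or.inr (Nat.dvd_of_mem_primeFactors (Finset.mem_filter.mp hq).1)

/-- the frozen `hmin` clause -/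
theorem hmin (q : ℕ) (hq : q.Prime) (hqp : q ≠ p) :
    q ∈ P.Smin ↔ ¬ P.rhobar.IsUnramifiedAt q := by
  classical
  constructor
  · intro h
    rcases Finset.mem_insert.mp h with rfl | h
    · exact absurd rfl hqp
    · exact (Finset.mem_filter.mp h).2
  · intro h
    refine Finset.mem_insert_of_mem (Finset.mem_filter.mpr ⟨?_, h⟩)
    refine Nat.mem_primeFactors.mpr ⟨hq, ?_, P.hM⟩
    by_contra hqM
    apply h
    refine P.unram hq ?_
    intro hdvd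
    rcases (Nat.Prime.dvd_mul hq).mp hdvd with h1 | h1
    · exact hqM h1
    · exact hqp ((Nat.prime_dvd_prime_iff_eq hq (Fact.out : p.Prime)).mp h1)

theorem mem_Su_iff {q : ℕ} :
    q ∈ P.Su ↔ q.Prime ∧ q ∣ M ∧ q ≠ p ∧ P.rhobar.IsUnramifiedAt q := by
  classical
  rw [Su, Finset.mem_filter, Nat.mem_primeFactors]
  constructor
  · rintro ⟨⟨h1, h2, -⟩, h3, h4⟩
    exact ⟨h1, h2, h3, h4⟩
  · rintro ⟨h1, h2, h3, h4⟩
    exact ⟨⟨h1, h2, P.hM⟩, h3, h4⟩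

theorem notMem_Smin_of_mem_Su {q : ℕ} (hq : q ∈ P.Su) : q ∉ P.Smin := by
  obtain ⟨h1, -, h3, h4⟩ := P.mem_Su_iff.mp hq
  intro h
  exact (P.hmin q h1 h3).mp h h4

/-- a prime of `M` different from `p` is in exactly one of `Smin`, `Su` -/
theorem mem_Smin_or_mem_Su {q : ℕ} (hq : q.Prime) (hqM : q ∣ M) (hqp : q ≠ p) :
    q ∈ P.Smin ∨ q ∈ P.Su := by
  by_cases h : P.rhobar.IsUnramifiedAt q
  · exact Or.inr (P.mem_Su_iff.mpr ⟨hq, hqM, hqp, h⟩)
  · exact Or.inl ((P.hmin q hq hqp).mpr h)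

/-! ### the residual eigensystem and the datum at level `M` -/

/-- `S0 = primes of M ∪ {p} ∪ bad primes of W`. -/
noncomputable def S0 (_P : Pkg p W hcard₁ hker M A) : Finset ℕ :=
  M.primeFactors ∪ {p} ∪ W.Δ.natAbs.primeFactors

theorem hpS0 : p ∈ (↑P.S0 : Set ℕ) := by
  simp only [S0, Finset.coe_union, Set.mem_union, Finset.mem_coe]
  exact Or.inl (Or.inr (Finset.mem_singleton_self p))

theorem hMS0 : ∀ q : ℕ, q.Prime → q ∣ M → q ∈ (↑P.S0 : Set ℕ) := by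
  intro q hq hqM
  simp only [S0, Finset.coe_union, Set.mem_union, Finset.mem_coe]
  exact Or.inl (Or.inl (Nat.mem_primeFactors.mpr ⟨hq, hqM, P.hM⟩))

theorem hWS0 : ∀ q : ℕ, q.Prime → ¬ W.IsGoodPrimeFor q → q ∈ (↑P.S0 : Set ℕ) := by
  intro q hq hbad
  simp only [S0, Finset.coe_union, Set.mem_union, Finset.mem_coe]
  refine Or.inr (Nat.mem_primeFactors.mpr ⟨hq, ?_, Int.natAbs_ne_zero.mpr P.hΔ⟩)
  have h : (q : ℤ) ∣ W.Δ := not_not.mp hbad
  exact Int.natCast_dvd.mp h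

theorem good_of_notMem_S0 {ℓ : ℕ} (hℓ : ℓ.Prime) (hℓS : ℓ ∉ (↑P.S0 : Set ℕ)) :
    W.IsGoodPrimeFor ℓ ∧ ¬ ℓ ∣ M ∧ ℓ ≠ p := by
  refine ⟨?_, fun h => hℓS (P.hMS0 ℓ hℓ h), fun h => hℓS (h ▸ P.hpS0)⟩
  by_contra h
  exact hℓS (P.hWS0 ℓ hℓ h)

section Level

variable [NeZero M]

/-- **`θ̄ : 𝕋^{S0}(M) → k`**, `θ̄(T_ℓ) = a_ℓ(W)`. -/
noncomputable def theta : heckeAlgebra M 2 (↑P.S0 : Set ℕ) →+* P.k :=
  thetaK P.D (↑P.S0 : Set ℕ) P.hpS0 P.hMS0 P.hWS0 P.k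

theorem theta_T {ℓ : ℕ} (hℓ : ℓ.Prime) (hℓM : ¬ ℓ ∣ M) (hℓS : ℓ ∉ (↑P.S0 : Set ℕ)) :
    P.theta (heckeAlgebra.T hℓ hℓM hℓS) = ((W.apOfModel ℓ : ℤ) : P.k) :=
  thetaK_T P.D (↑P.S0 : Set ℕ) P.hpS0 P.hMS0 P.hWS0 P.k hℓ hℓM hℓS

/-- the Eichler–Shimura characteristic polynomials of `ρ̄` in terms of `θ̄` -/
theorem hfrob (ℓ : ℕ) (hℓ : ℓ.Prime) (hℓM : ¬ ℓ ∣ M) (hℓS : ℓ ∉ (↑P.S0 : Set ℕ))
    (Q : ValuationSubring Qb) (hQ : Q.LiesOverPrime ℓ) (σ : GQ) (hσ : Q.IsFrobeniusAt σ ℓ) :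
    LinearMap.charpoly (P.rhobar.ρ σ) =
      X ^ 2 - C (P.theta (heckeAlgebra.T hℓ hℓM hℓS)) * X + C ((ℓ : ℕ) : P.k) :=
  hfrob_thetaK hcard₁ hker P.D (↑P.S0 : Set ℕ) P.hpS0 P.hMS0 P.hWS0 P.hΔ P.hirr P.k
    ℓ hℓ hℓM hℓS Q hQ σ hσ

/-- **the Hecke–Galois datum at level `M`** (helper36's `exists_datum` for `ρ̄`). -/
theorem exists_datum :
    ∃ H : HeckeGaloisRepDatum M (↑P.S0 : Set ℕ) P.O P.theta (Tloc P.O P.theta),
      H.π = piT P.O P.theta ∧ H.ρ.DetIsCyclotomic p ∧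
      (∀ q : ℕ, q.Prime → ¬ q ∣ M → q ≠ p → H.ρ.IsUnramifiedAt q) ∧
      H.ρ.residual.IsEquiv
        (P.rhobar.baseChangeAlong (ResidueField.map (algebraMap P.O (Tloc P.O P.theta)))) :=
  Fermat.Agent.GB.Setup.DatumPlug.exists_datum_rb hcard₁ hker P.D P.S0 P.hpS0 P.hMS0 P.hWS0
    P.hp2 P.hΔ P.hirr P.htrans P.O P.hpO

end Level

/-! ### the framed Taylor–Wiles surjections (B2) -/

/-- flat at `p` -/
theorem framedSurj_FL (S : Finset ℕ) (hpS : p ∈ S) :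
    FramedSurjKummerConcl p P.rhobar (GaloisRep.flatCondition P.O p) S P.Smin P.Su :=
  Fermat.Agent.GB.Setup.S56Plug.framedSurjKummer_rb_FL hcard₁ hker P.D P.hp2 P.hM P.hΔ P.hirr
    P.htrans P.hpO P.hk S P.Smin P.Su P.p_mem_Smin hpS P.hmin
    (fun _ hq => P.notMem_Smin_of_mem_Su hq)

/-- strictly ordinary at `p` -/
theorem framedSurj_SO (S : Finset ℕ) (hpS : p ∈ S) :
    FramedSurjKummerConcl p P.rhobar (GaloisRep.strictOrdinaryCondition P.O p) S P.Smin P.Su :=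
  Fermat.Agent.GB.Setup.S56Plug.framedSurjKummer_rb_SO hcard₁ hker P.D P.hp2 P.hM P.hΔ P.hirr
    P.htrans P.hpO P.hk S P.Smin P.Su P.p_mem_Smin hpS P.hmin
    (fun _ hq => P.notMem_Smin_of_mem_Su hq)

/-! ### non-Eisenstein, Taylor–Wiles roots -/

/-- **NON-EIS** in `k`: outside any finite set there is a good prime `ℓ ∤ M p` with
`a_ℓ(W) ≠ ℓ + 1` in `k`. -/
theorem exists_nonEis (B : Finset ℕ) :
    ∃ ℓ : ℕ, ℓ.Prime ∧ ℓ ∉ B ∧ W.IsGoodPrimeFor ℓ ∧ ¬ ℓ ∣ M ∧ ℓ ≠ p ∧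
      ((W.apOfModel ℓ : ℤ) : P.k) ≠ ((ℓ : ℕ) : P.k) + 1 :=
  Fermat.Agent.GB.Setup.NonEis.exists_prime_ne_succ_of_transvection hcard₁ hker P.D P.hM P.hΔ
    P.hirr P.htrans P.k B

/-- **TW roots**: `α + β = a_r(W)`, `α β = r` for the roots of the Frobenius charpoly at `r`. -/
theorem tw_roots {r : ℕ} (hr : r.Prime) (hgood : W.IsGoodPrimeFor r) (hrM : ¬ r ∣ M)
    (hrp : r ≠ p) (Q : ValuationSubring Qb) (hQ : Q.LiesOverPrime r) (φ : GQ)
    (hφ : Q.IsFrobeniusAt φ r) (α β : P.k)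
    (h : LinearMap.charpoly (P.rhobar.ρ φ) = (X - C α) * (X - C β)) :
    α + β = ((W.apOfModel r : ℤ) : P.k) ∧ α * β = ((r : ℕ) : P.k) :=
  Fermat.Agent.GB.Setup.NonEis.tw_roots hcard₁ hker P.D P.hM P.hΔ P.hirr P.k hr hgood hrM hrp
    Q hQ φ hφ α β h

end Pkg

/-! ### existence -/

/-- **The SETUP bundle exists** under the CASE-B binders (`hres` = residual modularity at level
`M`), with `p ^ A`-th roots of unity for any `1 ≤ A`. -/
theorem nonempty_pkg {p : ℕ} [Fact p.Prime] {W : WeierstrassCurve ℤ}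
    (hcard₁ : Nat.card (Submodule.torsionBy ℤ
      ((W.map (Int.castRingHom ℚ))⁄(AlgebraicClosure ℚ)).Point p) = p ^ 2)
    (hker : GaloisFactorsThroughFiniteLevel
      (galoisRepModuleEnd (K := AlgebraicClosure ℚ) ℚ (W.map (Int.castRingHom ℚ)) p))
    {M : ℕ} (hM : M ≠ 0) (hp2 : p ≠ 2) (hΔ : W.Δ ≠ 0) (hirr : W.ModRepIsIrreducible p)
    (htrans : ∃ σ : GQ,
      galoisRepModuleEnd (K := Qb) ℚ (W.map (Int.castRingHom ℚ)) p σ ≠ 1 ∧
        (galoisRepModuleEnd (K := Qb) ℚ (W.map (Int.castRingHom ℚ)) p σ - 1) ^ 2 = 0)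
    (hres : W.IsResiduallyModularOfLevel p M) (A : ℕ) (hA : 1 ≤ A) :
    Nonempty (Pkg p W hcard₁ hker M A) := by
  obtain ⟨D⟩ := (nonempty_modData_iff W p M).mp hres
  obtain ⟨O, i1, i2, i3, i4, i5, i6, i7, i8, i9, hinj, hpO, -, hroots, hsplit⟩ :=
    Fermat.Agent.GB.Setup.CoeffRingN.exists_coeffRing_ppow p hp2 A hA
  obtain ⟨ϖ, hϖ⟩ := IsDiscreteValuationRing.exists_irreducible O
  obtain ⟨ζ, hζ⟩ := hroots A le_rfl
  have hp : p.Prime := Fact.out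
  have : CharP (ResidueField O) p := by
    refine (CharP.charP_iff_prime_eq_zero hp).mpr ?_
    have : residue O (p : O) = 0 := (residue_eq_zero_iff _).mpr hpO
    rwa [map_natCast] at this
  let _ : Algebra (ZMod p) (ResidueField O) := ZMod.algebra (ResidueField O) p
  exact ⟨{
    O := O
    injZp := hinj
    ϖ := ϖ
    hϖ := hϖ
    hpO := hpO
    ζ := ζ
    hζ := hζ
    hk := fun f hf hdeg => hsplit (algebraMap (ZMod p) (ResidueField O)) f hf hdeg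
    D := D
    hM := hM
    hp2 := hp2
    hΔ := hΔ
    hirr := hirr
    htrans := htrans }⟩

end Fermat.Agent.GB.Setup.SetupPkg
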