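/-
GATE-B (Ribet level lowering, S38/S43) / node GB-SETUP, PLUG SETUP → B3 (helper61):
helper95's `GB/B3/Final.exists_bigLevel / exists_twLevelData` instantiated at the SETUP bundle
`P : SetupPkg.Pkg p W hcard₁ hker M A`: coefficient ring `P.O`, uniformiser `P.ϖ`, canonical symbols
`MQ.stdSymbols W p N r`, maximal ideal `MQ.mQW P Sy u`, the non-Eisenstein symbol `s0` from
`MQ.exists_s0_std`, the root of unity `c` from `P.exists_root`.  Every coefficient-side binder of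
B3 `Final` is discharged; what remains are the tower characters `Δs ψ n dd` (helper46 `TWChars`).
-/
import Mathlib
import Fermat.Agent.GB.Setup.MQ
import Fermat.Agent.GB.B3.Final

set_option autoImplicit false
set_option linter.unusedSectionVars false

open IsLocalRing MvPolynomial
open scoped MatrixGroups
open CongruenceSubgroup

namespace Fermat.Agent.GB.Setup.B3Plug

open Fermat.Agent.GB.B3.HeckeActH Fermat.Agent.GB.B3.StepInst Fermat.Agent.GB.Setup.SetupPkg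
  Fermat.Agent.GB.Setup.MQ Fermat.Agent.GB.B3.TWLevel Fermat.Agent.GB.B3.RealLevel
  Fermat.Agent.GB.B3.Tower Fermat.Agent.GB.B3.Final Fermat.Agent.GB.B3.ChiLevel
  Fermat.Agent.GB.B3.EisGamma0

variable {p : ℕ} [Fact p.Prime] {W : WeierstrassCurve ℤ}
  {hcard₁ : Nat.card (Submodule.torsionBy ℤ
    ((W.map (Int.castRingHom ℚ)).toAffine.baseChange (AlgebraicClosure ℚ)).Point p) = p ^ 2}
  {hker : GaloisFactorsThroughFiniteLevel
    (WeierstrassCurve.Affine.Point.galoisRepModuleEnd (K := AlgebraicClosure ℚ) ℚ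
      (W.map (Int.castRingHom ℚ)) p)}
  {M A : ℕ} (P : Pkg p W hcard₁ hker M A)
  {N : ℕ} [NeZero N] {ι₂ : Type} (r : ι₂ → ℕ) (hr : ∀ j, (r j).Prime) (hrN : ∀ j, r j ∣ N)
  (u : ι₂ → P.k)
  (Δs : ℕ → Type) [∀ i, CommGroup (Δs i)] [∀ i, Fintype (Δs i)]
  (ψ : ∀ i, (ZMod N)ˣ →* Δs i)

/-- **B3 `exists_bigLevel` for `W`**: all coefficient-side binders discharged by SETUP. -/
theorem exists_bigLevel_W (hp3 : p ≠ 3) (n : ℕ → ℕ) (dd : ℕ → Gamma0 N)
    (hcard : ∀ i, Fintype.card (Δs i) = p ^ n i)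
    (hord : ∀ i, orderOf (ψ i (dUnits N (dd i))) = p ^ n i)
    (hoff : ∀ i j, i ≠ j → ψ i (dUnits N (dd j)) = 1)
    (hneg : ∀ i, ψ i (-1) = 1) (j : ℕ) :
    ∃ B : FreeLevel P.O ((stdSymbols W p N r hr hrN).𝕋 P.O)
        (M0 (stdSymbols W p N r hr hrN) (mQW P (stdSymbols W p N r hr hrN) u) Δs ψ)
        (act0 (stdSymbols W p N r hr hrN) (mQW P (stdSymbols W p N r hr hrN) u) Δs ψ) j
        (Nfun p n j),
      Nonempty (Realizes B (actH (stdSymbols W p N r hr hrN) P.O (Theta Δs ψ j))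
        (mQW P (stdSymbols W p N r hr hrN) u)
        (fun i => diaLin P.O (Theta Δs ψ j) (dfun dd j i))) := by
  obtain ⟨s0, hs0⟩ := exists_s0_std P r hr hrN u
  exact exists_bigLevel (stdSymbols W p N r hr hrN) (mQW P (stdSymbols W p N r hr hrN) u) Δs ψ
    P.ϖ P.hϖ0 P.hmax p Fact.out P.hpϖ P.hp0 P.hp2 hp3 n dd hcard hord hoff hneg s0 hs0 j

/-- **B3 `exists_twLevelData` for `W`**, with the root of unity `c` of exact order `p ^ n k`
(`n k ≤ A`) supplied by the bundle. -/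
theorem exists_twLevelData_W (hp3 : p ≠ 3) (n : ℕ → ℕ) (dd : ℕ → Gamma0 N)
    (hcard : ∀ i, Fintype.card (Δs i) = p ^ n i)
    (hord : ∀ i, orderOf (ψ i (dUnits N (dd i))) = p ^ n i)
    (hoff : ∀ i j, i ≠ j → ψ i (dUnits N (dd j)) = 1)
    (hneg : ∀ i, ψ i (-1) = 1) (k : ℕ) (hnk : n k ≤ A) :
    ∃ (c : P.O) (_ : IsPrimitiveRoot c (p ^ n k)) (hc : c ^ p ^ n k = 1)
      (hc1 : (1 : P.O) - c ∈ Ideal.span {P.ϖ})
      (B : FreeLevel P.O ((stdSymbols W p N r hr hrN).𝕋 P.O)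
        (M0 (stdSymbols W p N r hr hrN) (mQW P (stdSymbols W p N r hr hrN) u) Δs ψ)
        (act0 (stdSymbols W p N r hr hrN) (mQW P (stdSymbols W p N r hr hrN) u) Δs ψ) (k + 1)
        (Nfun p n (k + 1)))
      (_ : Realizes B (actH (stdSymbols W p N r hr hrN) P.O (Theta Δs ψ (k + 1)))
        (mQW P (stdSymbols W p N r hr hrN) u)
        (fun i => diaLin P.O (Theta Δs ψ (k + 1)) (dfun dd (k + 1) i)))
      (tw : TWLevelData P.O P.ϖ ((stdSymbols W p N r hr hrN).𝕋 P.O)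
        (M0 (stdSymbols W p N r hr hrN) (mQW P (stdSymbols W p N r hr hrN) u) Δs ψ)
        (act0 (stdSymbols W p N r hr hrN) (mQW P (stdSymbols W p N r hr hrN) u) Δs ψ)
        (ChiBase B c) (chiBaseAct B c) k (fun i => Nfun p n (k + 1) i.succ)),
      tw = twLevelDataSelf B (Nfun_pos Fact.out n (k + 1)) P.ϖ c hc hc1 := by
  obtain ⟨s0, hs0⟩ := exists_s0_std P r hr hrN u
  obtain ⟨c, hcprim, hc, hc1⟩ := P.exists_root (n k) hnk
  obtain ⟨B, R, tw, htw⟩ := exists_twLevelData (stdSymbols W p N r hr hrN)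
    (mQW P (stdSymbols W p N r hr hrN) u) Δs ψ
    P.ϖ P.hϖ0 P.hmax p Fact.out P.hpϖ P.hp0 P.hp2 hp3 n dd hcard hord hoff hneg s0 hs0 k c hc hc1
  exact ⟨c, hcprim, hc, hc1, B, R, tw, htw⟩

end Fermat.Agent.GB.Setup.B3Plug
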