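/-
GATE-B / PROVIDER GAPS v1 (helper28, board 6415), gap **(N1) = `θ_Q`** (helper39): the residual
eigensystem `θ_Q : heckeAlgebra N 2 S_Q →+* k` at the TWISTED Taylor–Wiles level `N = M ∏ r_i`,
`θ_Q (T_ℓ) = a_ℓ(W)`, by the OLDFORM route:

  `SplitT.isResiduallyModularOfLevel_of_dvd` (raising the level of the eigenform, `GE/Stab`)
  ⟹ `ModData W p N` for every nonzero multiple `N` of `M`
  ⟹ a SETUP bundle at level `N` with the SAME coefficient data (`O`, `ϖ`, `ζ`, hence the same `k`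
  and `rhobar`) — `SetupPkg.nonempty_pkg` builds `O` from `(p, A)` only —
  ⟹ `θ_Q := (P.raise hMN hN).theta`, and `Pkg.theta_T`, `Pkg.hfrob`, `Pkg.exists_datum`,
  `hpS0 / hMS0 / hWS0` of the raised bundle are the whole (N1) list at level `N`.

* `Pkg.isResiduallyModularOfLevel`, `nonempty_modData_of_dvd`;
* `Pkg.atLevel`, `Pkg.raise` and the `rfl`-lemmas `raise_O`, `raise_rhobar`, `raise_S0`, …;
* `exists_thetaQ` : the `∃`-form (no bundle in the statement).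

`Smin` / `Su` depend on the level: consumers keep those of the BASE bundle `P`.
-/
import Fermat.Agent.GB.Setup.SetupPkg
import Fermat.Agent.GB.Top.SplitT

set_option autoImplicit false
set_option linter.unusedSectionVars false

open WeierstrassCurve WeierstrassCurve.Affine.Point Polynomial IsLocalRing CuspForm
open scoped WeierstrassCurve.Affine

namespace Fermat.Agent.GB.Setup.PkgLevel

open Fermat.Agent.GB.Setup.RhoBar Fermat.Agent.GB.Setup.SetupPkg
  Fermat.Agent.GB.B4.Datum.Carrier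

/-- `ℚ̄`. -/
local notation "Qb" => AlgebraicClosure ℚ
/-- `G_ℚ`. -/
local notation "GQ" => (AlgebraicClosure ℚ ≃ₐ[ℚ] AlgebraicClosure ℚ)

variable {p : ℕ} [Fact p.Prime] {W : WeierstrassCurve ℤ}
  {hcard₁ : Nat.card (Submodule.torsionBy ℤ
    ((W.map (Int.castRingHom ℚ))⁄(AlgebraicClosure ℚ)).Point p) = p ^ 2}
  {hker : GaloisFactorsThroughFiniteLevel
    (galoisRepModuleEnd (K := AlgebraicClosure ℚ) ℚ (W.map (Int.castRingHom ℚ)) p)}
  {M A : ℕ}

/-- the bundle remembers residual modularity at its level. -/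
theorem isResiduallyModularOfLevel_of_pkg (P : Pkg p W hcard₁ hker M A) :
    W.IsResiduallyModularOfLevel p M :=
  (nonempty_modData_iff W p M).mpr ⟨P.D⟩

/-- **old forms**: modularity data at every nonzero multiple of the level. -/
theorem nonempty_modData_of_dvd (P : Pkg p W hcard₁ hker M A) {N : ℕ} (hMN : M ∣ N)
    (hN : N ≠ 0) : Nonempty (ModData W p N) :=
  (nonempty_modData_iff W p N).mp
    (Fermat.Agent.GB.Top.SplitT.isResiduallyModularOfLevel_of_dvd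
      (isResiduallyModularOfLevel_of_pkg P) hMN hN)

/-- the bundle with the SAME coefficient data and another modularity datum. -/
noncomputable def atLevel (P : Pkg p W hcard₁ hker M A) {N : ℕ} (D' : ModData W p N)
    (hN : N ≠ 0) : Pkg p W hcard₁ hker N A where
  O := P.O
  injZp := P.injZp
  ϖ := P.ϖ
  hϖ := P.hϖ
  hpO := P.hpO
  ζ := P.ζ
  hζ := P.hζ
  hk := P.hk
  D := D'
  hM := hN
  hp2 := P.hp2
  hΔ := P.hΔ
  hirr := P.hirr
  htrans := P.htrans

/-- **the bundle at a nonzero multiple of the level** (old forms; same `O`, `ϖ`, `ζ`, `rhobar`). -/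
noncomputable def raise (P : Pkg p W hcard₁ hker M A) {N : ℕ} (hMN : M ∣ N) (hN : N ≠ 0) :
    Pkg p W hcard₁ hker N A :=
  atLevel P (Classical.choice (nonempty_modData_of_dvd P hMN hN)) hN

section Rfl

variable (P : Pkg p W hcard₁ hker M A) {N : ℕ} (hMN : M ∣ N) (hN : N ≠ 0)

theorem raise_O : (raise P hMN hN).O = P.O := rfl

theorem raise_k : (raise P hMN hN).k = P.k := rfl

theorem raise_ϖ : (raise P hMN hN).ϖ = P.ϖ := rfl

theorem raise_ζ : (raise P hMN hN).ζ = P.ζ := rfl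

theorem raise_rhobar : (raise P hMN hN).rhobar = P.rhobar := rfl

theorem raise_S0 :
    (raise P hMN hN).S0 = N.primeFactors ∪ {p} ∪ W.Δ.natAbs.primeFactors := rfl

end Rfl

/-- **(N1), `∃`-form**: the residual eigensystem at a nonzero multiple `N` of the level `M`, on
`S_Q = primes(N) ∪ {p} ∪ bad(W)`, with `θ_Q (T_ℓ) = a_ℓ(W)`, the Frobenius characteristic
polynomials of `P.rhobar`, and the Hecke–Galois datum over `Tloc O θ_Q` at level `N`. -/
theorem exists_thetaQ (P : Pkg p W hcard₁ hker M A) {N : ℕ} [NeZero N] (hMN : M ∣ N) :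
    ∃ (SQ : Finset ℕ) (θQ : heckeAlgebra N 2 (↑SQ : Set ℕ) →+* P.k),
      SQ = N.primeFactors ∪ {p} ∪ W.Δ.natAbs.primeFactors ∧
      p ∈ SQ ∧ (∀ q : ℕ, q.Prime → q ∣ N → q ∈ SQ) ∧
      (∀ q : ℕ, q.Prime → ¬ W.IsGoodPrimeFor q → q ∈ SQ) ∧
      (∀ (ℓ : ℕ) (hℓ : ℓ.Prime) (hℓN : ¬ ℓ ∣ N) (hℓS : ℓ ∉ (↑SQ : Set ℕ)),
        θQ (heckeAlgebra.T hℓ hℓN hℓS) = ((W.apOfModel ℓ : ℤ) : P.k)) ∧
      (∀ (ℓ : ℕ) (hℓ : ℓ.Prime) (hℓN : ¬ ℓ ∣ N) (hℓS : ℓ ∉ (↑SQ : Set ℕ))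
        (Q : ValuationSubring Qb), Q.LiesOverPrime ℓ → ∀ σ : GQ, Q.IsFrobeniusAt σ ℓ →
          LinearMap.charpoly (P.rhobar.ρ σ) =
            X ^ 2 - C (θQ (heckeAlgebra.T hℓ hℓN hℓS)) * X + C ((ℓ : ℕ) : P.k)) ∧
      ∃ H : HeckeGaloisRepDatum N (↑SQ : Set ℕ) P.O θQ (Tloc P.O θQ),
        H.π = piT P.O θQ ∧ H.ρ.DetIsCyclotomic p ∧
        (∀ q : ℕ, q.Prime → ¬ q ∣ N → q ≠ p → H.ρ.IsUnramifiedAt q) ∧
        H.ρ.residual.IsEquiv
          (P.rhobar.baseChangeAlong (ResidueField.map (algebraMap P.O (Tloc P.O θQ)))) := by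
  have hN : N ≠ 0 := NeZero.ne N
  refine ⟨(raise P hMN hN).S0, (raise P hMN hN).theta, rfl,
    Finset.mem_coe.mp (raise P hMN hN).hpS0,
    fun q hq hqN => Finset.mem_coe.mp ((raise P hMN hN).hMS0 q hq hqN),
    fun q hq hbad => Finset.mem_coe.mp ((raise P hMN hN).hWS0 q hq hbad),
    fun ℓ hℓ hℓN hℓS => (raise P hMN hN).theta_T hℓ hℓN hℓS,
    fun ℓ hℓ hℓN hℓS Q hQ σ hσ => (raise P hMN hN).hfrob ℓ hℓ hℓN hℓS Q hQ σ hσ,
    (raise P hMN hN).exists_datum⟩

end Fermat.Agent.GB.Setup.PkgLevel
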