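/-
GATE-B / GB-SETUP item (i) (helper21): the coefficient ring.

`exists_coeffRing p` : for an odd prime `p` there is a complete discrete valuation ring `𝒪 : Type`
of characteristic zero with finite residue field `k`, `(p : 𝒪) ∈ 𝔪`, containing a primitive `p`-th
root of unity and a primitive `(p² - 1)`-th root of unity whose reduction is still primitive, so
that `k ⊇ 𝔽_{p²}`: every monic quadratic polynomial with coefficients in the prime field splits
in `k`.  In particular the `hsplit` binder of the frozen S56 holds for the base change to `k` of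
every `ResidualGaloisRep (ZMod p)`.

Construction: `GE/DvrPlace.exists_completeDVR_place` applied to the ring of integers of
`ℚ(ζ_{p (p² - 1)})`.
-/
import Mathlib
import Fermat.Agent.GE.DvrPlace
import Fermat.Prelude.Def_GaloisRep_Residual

set_option autoImplicit false

namespace Fermat.Agent.GB.Setup.Coeff

open IsLocalRing Polynomial

/-! ### primitive roots in the residue field -/

section Residue

variable {O : Type*} [CommRing O] [IsDomain O] [IsLocalRing O]

omit [IsLocalRing O] in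
/-- If `m` is a unit of the local domain `O` and `μ` is a primitive `m`-th root of unity, then
`1 - μ ^ l` is a unit for `0 < l < m`. -/
theorem isUnit_one_sub_pow {μ : O} {m : ℕ} (hm : IsUnit (m : O)) (hμ : IsPrimitiveRoot μ m)
    {l : ℕ} (hl0 : 0 < l) (hlm : l < m) : IsUnit (1 - μ ^ l) := by
  obtain ⟨n, rfl⟩ : ∃ n, m = n + 1 := ⟨m - 1, by omega⟩
  have hprod := hμ.prod_one_sub_pow_eq_order
  have hu : IsUnit (∏ k ∈ Finset.range n, (1 - μ ^ (k + 1))) := by
    rw [hprod]; exact_mod_cast hm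
  have hk : l - 1 ∈ Finset.range n := Finset.mem_range.mpr (by omega)
  have h := (IsUnit.prod_iff.mp hu) (l - 1) hk
  rwa [Nat.sub_add_cancel hl0] at h

/-- A primitive `m`-th root of unity of a local domain stays primitive in the residue field when
`m` is a unit. -/
theorem isPrimitiveRoot_residue {μ : O} {m : ℕ} (hm : IsUnit (m : O))
    (hμ : IsPrimitiveRoot μ m) : IsPrimitiveRoot (residue O μ) m := by
  have hm0 : 0 < m := by
    rcases Nat.eq_zero_or_pos m with rfl | h
    · simp at hm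
    · exact h
  refine IsPrimitiveRoot.mk_of_lt _ hm0 (by rw [← map_pow, hμ.pow_eq_one, map_one]) ?_
  intro l hl0 hlm h
  have hu := isUnit_one_sub_pow hm hμ hl0 hlm
  have h0 : residue O (1 - μ ^ l) = 0 := by rw [map_sub, map_one, map_pow, h, sub_self]
  exact (residue_ne_zero_iff_isUnit _).mpr hu h0

end Residue

/-! ### quadratics over the prime field split in a field containing `𝔽_{p²}` -/

section Split

variable {k : Type*} [Field k] (p : ℕ) [hp : Fact p.Prime] [CharP k p]

include hp in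
/-- A Frobenius-fixed element of a field of characteristic `p ≠ 2` containing a primitive
`(p² - 1)`-th root of unity is a square. -/
theorem exists_sq_eq_of_pow_eq_self (hp2 : p ≠ 2) {μ : k} (hμ : IsPrimitiveRoot μ (p ^ 2 - 1))
    {d : k} (hd : d ^ p = d) : ∃ s : k, s ^ 2 = d := by
  have hpp : p.Prime := hp.out
  have hp3 : 3 ≤ p := by
    have := hpp.two_le
    omega
  by_cases hd0 : d = 0
  · exact ⟨0, by rw [hd0]; ring⟩
  -- `d ^ (p - 1) = 1`
  have h1 : d ^ (p - 1) = 1 := by
    have h2 : d ^ (p - 1) * d = d := by rw [← pow_succ, Nat.sub_add_cancel (by omega), hd]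
    have h3 : (d ^ (p - 1) - 1) * d = 0 := by rw [sub_mul, h2, one_mul, sub_self]
    rcases mul_eq_zero.mp h3 with h | h
    · exact sub_eq_zero.mp h
    · exact absurd h hd0
  -- `p ^ 2 - 1 = (p - 1) * (p + 1)` and `p + 1` is even
  obtain ⟨c, hc⟩ : ∃ c, p + 1 = 2 * c := by
    rcases hpp.eq_two_or_odd with h | h
    · exact absurd h hp2
    · exact ⟨(p + 1) / 2, by omega⟩
  have hM : p ^ 2 - 1 = 2 * ((p - 1) * c) := by
    have h4 : p ^ 2 - 1 = (p - 1) * (p + 1) := by
      obtain ⟨t, rfl⟩ : ∃ t, p = t + 1 := ⟨p - 1, by omega⟩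
      simp only [Nat.add_sub_cancel]
      have : (t + 1) ^ 2 = t * (t + 1 + 1) + 1 := by ring
      rw [this, Nat.add_sub_cancel]
    rw [h4, hc]; ring
  have hMpos : 0 < (p - 1) * c := by
    have : 0 < p - 1 := by omega
    have : 0 < c := by omega
    positivity
  have : NeZero (p ^ 2 - 1) := ⟨by rw [hM]; omega⟩
  -- `d` is a power of `μ`
  have hdM : d ^ (p ^ 2 - 1) = 1 := by
    rw [hM, mul_comm 2, mul_assoc, pow_mul, h1, one_pow]
  obtain ⟨i, -, hi⟩ := hμ.eq_pow_of_pow_eq_one hdM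
  -- `d ^ ((p - 1) * c) = 1` forces `i` even
  have hhalf : d ^ ((p - 1) * c) = 1 := by rw [pow_mul, h1, one_pow]
  have hdiv : p ^ 2 - 1 ∣ i * ((p - 1) * c) := by
    rw [← hμ.pow_eq_one_iff_dvd, pow_mul, hi, hhalf]
  obtain ⟨e, he⟩ := hdiv
  have hie : i = 2 * e := by
    rw [hM] at he
    have : i * ((p - 1) * c) = (2 * e) * ((p - 1) * c) := by rw [he]; ring
    exact Nat.eq_of_mul_eq_mul_right hMpos this
  exact ⟨μ ^ e, by rw [← pow_mul, mul_comm, ← hie, hi]⟩

include hp in
/-- Every monic quadratic polynomial with Frobenius-fixed coefficients splits. -/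
theorem exists_roots_of_pow_eq_self (hp2 : p ≠ 2) {μ : k} (hμ : IsPrimitiveRoot μ (p ^ 2 - 1))
    {a b : k} (ha : a ^ p = a) (hb : b ^ p = b) :
    ∃ α β : k, (X ^ 2 - C a * X + C b : k[X]) = (X - C α) * (X - C β) := by
  have hpp : p.Prime := hp.out
  have h2 : (2 : k) ≠ 0 := by
    intro h
    have h' : ((2 : ℕ) : k) = 0 := by exact_mod_cast h
    have hdvd : p ∣ 2 := (CharP.cast_eq_zero_iff k p 2).mp h'
    have : p ≤ 2 := Nat.le_of_dvd (by norm_num) hdvd
    have := hpp.two_le
    omega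
  have hd : (a ^ 2 - 4 * b) ^ p = a ^ 2 - 4 * b := by
    have h4 : (4 : k) ^ p = 4 := by
      have h := map_natCast (frobenius k p) 4
      rw [frobenius_def] at h
      exact_mod_cast h
    have hsub : (a ^ 2 - 4 * b) ^ p = (a ^ 2) ^ p - (4 * b) ^ p := sub_pow_char _ _
    rw [hsub, mul_pow, ← pow_mul, mul_comm 2 p, pow_mul, ha, hb, h4]
  obtain ⟨s, hs⟩ := exists_sq_eq_of_pow_eq_self p hp2 hμ hd
  refine ⟨(a + s) / 2, (a - s) / 2, ?_⟩
  have e1 : (a + s) / 2 + (a - s) / 2 = a := by field_simp; ring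
  have e2 : (a + s) / 2 * ((a - s) / 2) = b := by
    have : (a + s) * (a - s) = 4 * b := by
      have : (a + s) * (a - s) = a ^ 2 - s ^ 2 := by ring
      rw [this, hs]; ring
    field_simp
    linear_combination this
  have : (X - C ((a + s) / 2)) * (X - C ((a - s) / 2))
      = X ^ 2 - C ((a + s) / 2 + (a - s) / 2) * X + C ((a + s) / 2 * ((a - s) / 2)) := by
    rw [C_add, C_mul]; ring
  rw [this, e1, e2]

end Split

/-! ### the `hsplit` binder of S56 for base changes from `ZMod p` -/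

section HSplit

variable (p : ℕ) [hp : Fact p.Prime] {k : Type} [Field k] [Algebra (ZMod p) k]

/-- The characteristic polynomial of every element of the base change to `k` of a residual
representation over `ZMod p` splits, as soon as `k` contains a primitive `(p² - 1)`-th root of
unity (`p` odd): the `hsplit` binder of the frozen S56. -/
theorem hsplit_baseChange (hp2 : p ≠ 2) {μ : k} (hμ : IsPrimitiveRoot μ (p ^ 2 - 1))
    (ρ0 : ResidualGaloisRep (ZMod p)) (σ : AlgebraicClosure ℚ ≃ₐ[ℚ] AlgebraicClosure ℚ) :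
    ∃ α β : k, LinearMap.charpoly ((ρ0.baseChange k).ρ σ) = (X - C α) * (X - C β) := by
  have : CharP k p := by
    have := (algebraMap (ZMod p) k).injective
    exact charP_of_injective_algebraMap this p
  have : Module.Free (ZMod p) ρ0.V := Module.Free.of_divisionRing _ _
  have hch : LinearMap.charpoly ((ρ0.baseChange k).ρ σ)
      = (LinearMap.charpoly (ρ0.ρ σ)).map (algebraMap (ZMod p) k) :=
    LinearMap.charpoly_baseChange (ρ0.ρ σ) k
  set P := LinearMap.charpoly (ρ0.ρ σ) with hP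
  have hmonic : P.Monic := LinearMap.charpoly_monic _
  have hdeg : P.natDegree = 2 := by rw [hP, LinearMap.charpoly_natDegree, ρ0.finrank_eq]
  -- `P = X ^ 2 - C a * X + C b` with `a = - P.coeff 1`, `b = P.coeff 0`
  have hPform : P = X ^ 2 - C (-P.coeff 1) * X + C (P.coeff 0) := by
    ext n
    rcases Nat.lt_or_ge n 3 with hn | hn
    · interval_cases n
      · simp [coeff_X_pow]
      · simp [coeff_X_pow]
      · have : P.coeff 2 = 1 := by
          have := hmonic.coeff_natDegree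
          rwa [hdeg] at this
        simp [coeff_X_pow, this]
    · have h1 : P.coeff n = 0 := coeff_eq_zero_of_natDegree_lt (by omega)
      rw [h1]
      have hn2 : n ≠ 2 := by omega
      have hn1 : n ≠ 1 := by omega
      have hn0 : n ≠ 0 := by omega
      simp [coeff_X_pow, coeff_X, coeff_C, hn2, hn0, Ne.symm hn1]
  have hfix : ∀ x : ZMod p, (algebraMap (ZMod p) k x) ^ p = algebraMap (ZMod p) k x := by
    intro x
    rw [← map_pow, ZMod.pow_card]
  obtain ⟨α, β, hαβ⟩ := exists_roots_of_pow_eq_self p hp2 hμ (hfix (-P.coeff 1)) (hfix (P.coeff 0))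
  refine ⟨α, β, ?_⟩
  rw [hch, hPform, ← hαβ]
  simp [Polynomial.map_add, Polynomial.map_mul, Polynomial.map_pow]

end HSplit

/-! ### the coefficient ring -/

section CoeffRing

open NumberField

/-- `p ^ 2 - 1` is prime to `p`, hence a unit in every local ring of residue characteristic `p`. -/
theorem isUnit_natCast_sq_sub_one {O : Type*} [CommRing O] [IsLocalRing O] (p : ℕ)
    [hp : Fact p.Prime] (hpm : (p : O) ∈ maximalIdeal O) : IsUnit ((p ^ 2 - 1 : ℕ) : O) := by
  have hpp : p.Prime := hp.out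
  have hndvd : ¬ p ∣ p ^ 2 - 1 := by
    intro h
    have h2 : p ∣ p ^ 2 := dvd_pow_self p (by norm_num)
    have h1 : 1 ≤ p ^ 2 := Nat.one_le_pow _ _ hpp.pos
    have h3 : p ∣ p ^ 2 - (p ^ 2 - 1) := Nat.dvd_sub h2 h
    have h4 : p ^ 2 - (p ^ 2 - 1) = 1 := by omega
    rw [h4] at h3
    exact hpp.one_lt.ne' (Nat.dvd_one.mp h3)
  have hcop : Nat.Coprime p (p ^ 2 - 1) := (Nat.Prime.coprime_iff_not_dvd hpp).mpr hndvd
  have hcopZ : IsCoprime ((p : ℕ) : ℤ) ((p ^ 2 - 1 : ℕ) : ℤ) := Nat.isCoprime_iff_coprime.mpr hcop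
  obtain ⟨u, v, huv⟩ := hcopZ
  by_contra hnu
  have hm : ((p ^ 2 - 1 : ℕ) : O) ∈ maximalIdeal O := (mem_maximalIdeal _).mpr hnu
  have h1 : (1 : O) ∈ maximalIdeal O := by
    have hcast : ((u : O) * (p : O) + (v : O) * ((p ^ 2 - 1 : ℕ) : O)) = 1 := by
      have := congrArg (Int.cast : ℤ → O) huv
      push_cast at this
      exact this
    rw [← hcast]
    exact Ideal.add_mem _ (Ideal.mul_mem_left _ _ hpm) (Ideal.mul_mem_left _ _ hm)
  exact (Ideal.ne_top_iff_one _).mp (IsLocalRing.maximalIdeal.isMaximal O).ne_top h1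

/-- Auxiliary form of `exists_coeffRing`: from a number field containing a primitive root of unity
of order `p (p² - 1)`. -/
theorem exists_coeffRing_of_numberField (p : ℕ) [hp : Fact p.Prime] (hp2 : p ≠ 2)
    (K : Type) [Field K] [NumberField K] (z : 𝓞 K)
    (hzK : IsPrimitiveRoot z (p * (p ^ 2 - 1))) :
    ∃ (𝒪 : Type) (_ : CommRing 𝒪) (_ : IsDomain 𝒪) (_ : IsDiscreteValuationRing 𝒪)
      (_ : IsAdicComplete (maximalIdeal 𝒪) 𝒪) (_ : Finite (ResidueField 𝒪)) (_ : CharZero 𝒪)
      (_ : Algebra (ZMod p) (ResidueField 𝒪)),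
      (p : 𝒪) ∈ maximalIdeal 𝒪 ∧ (∃ ζ : 𝒪, IsPrimitiveRoot ζ p) ∧
      (∃ μ : 𝒪, IsPrimitiveRoot μ (p ^ 2 - 1) ∧ IsPrimitiveRoot (residue 𝒪 μ) (p ^ 2 - 1)) ∧
      ∀ (ρ0 : ResidualGaloisRep (ZMod p)) (σ : AlgebraicClosure ℚ ≃ₐ[ℚ] AlgebraicClosure ℚ),
        ∃ α β : ResidueField 𝒪,
          LinearMap.charpoly ((ρ0.baseChange (ResidueField 𝒪)).ρ σ) = (X - C α) * (X - C β) := by
  have hpp : p.Prime := hp.out
  have hM0 : 0 < p ^ 2 - 1 := by
    have : 2 ≤ p := hpp.two_le
    have : 4 ≤ p ^ 2 := by nlinarith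
    omega
  have hn0 : 0 < p * (p ^ 2 - 1) := Nat.mul_pos hpp.pos hM0
  obtain ⟨O, iCR, iDom, iDVR, iComp, iRes, iChar, hpm, iota, hinj⟩ :=
    Fermat.Agent.GE.DvrPlace.exists_completeDVR_place (𝓞 K) p
  -- a primitive root of unity of order `p (p² - 1)` in `O`
  have hz : IsPrimitiveRoot (iota z) (p * (p ^ 2 - 1)) := hzK.map_of_injective hinj
  have hζ : IsPrimitiveRoot (iota z ^ (p ^ 2 - 1)) p := hz.pow hn0 (mul_comm _ _)
  have hμ : IsPrimitiveRoot (iota z ^ p) (p ^ 2 - 1) := hz.pow hn0 rfl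
  have hunit : IsUnit ((p ^ 2 - 1 : ℕ) : O) := isUnit_natCast_sq_sub_one p hpm
  have hμres := isPrimitiveRoot_residue hunit hμ
  -- the residue field has characteristic `p`
  have hchar : CharP (ResidueField O) p := by
    refine (CharP.charP_iff_prime_eq_zero hpp).mpr ?_
    have : (p : ResidueField O) = residue O (p : O) := (map_natCast _ _).symm
    rw [this]
    exact (residue_eq_zero_iff _).mpr hpm
  exact ⟨O, iCR, iDom, iDVR, iComp, iRes, iChar, ZMod.algebra _ p, hpm, ⟨_, hζ⟩,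
    ⟨_, hμ, hμres⟩,
    fun ρ0 σ => @hsplit_baseChange p hp (ResidueField O) _ (ZMod.algebra _ p) hp2 _ hμres ρ0 σ⟩

/-- **The coefficient ring of GATE-B.**  For an odd prime `p`: a complete discrete valuation ring
`𝒪 : Type` of characteristic zero with finite residue field `k` of characteristic `p`, containing
a primitive `p`-th root of unity and a primitive `(p² - 1)`-th root of unity with primitive
reduction; the characteristic polynomials of the base change to `k` of every residual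
representation over `ZMod p` split (`hsplit` of the frozen S56). -/
theorem exists_coeffRing (p : ℕ) [hp : Fact p.Prime] (hp2 : p ≠ 2) :
    ∃ (𝒪 : Type) (_ : CommRing 𝒪) (_ : IsDomain 𝒪) (_ : IsDiscreteValuationRing 𝒪)
      (_ : IsAdicComplete (maximalIdeal 𝒪) 𝒪) (_ : Finite (ResidueField 𝒪)) (_ : CharZero 𝒪)
      (_ : Algebra (ZMod p) (ResidueField 𝒪)),
      (p : 𝒪) ∈ maximalIdeal 𝒪 ∧ (∃ ζ : 𝒪, IsPrimitiveRoot ζ p) ∧
      (∃ μ : 𝒪, IsPrimitiveRoot μ (p ^ 2 - 1) ∧ IsPrimitiveRoot (residue 𝒪 μ) (p ^ 2 - 1)) ∧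
      ∀ (ρ0 : ResidualGaloisRep (ZMod p)) (σ : AlgebraicClosure ℚ ≃ₐ[ℚ] AlgebraicClosure ℚ),
        ∃ α β : ResidueField 𝒪,
          LinearMap.charpoly ((ρ0.baseChange (ResidueField 𝒪)).ρ σ) = (X - C α) * (X - C β) := by
  have hpp : p.Prime := hp.out
  have hM0 : 0 < p ^ 2 - 1 := by
    have : 2 ≤ p := hpp.two_le
    have : 4 ≤ p ^ 2 := by nlinarith
    omega
  have hn0 : 0 < p * (p ^ 2 - 1) := Nat.mul_pos hpp.pos hM0
  have : NeZero (p * (p ^ 2 - 1)) := ⟨hn0.ne'⟩
  have hcyc : IsCyclotomicExtension {p * (p ^ 2 - 1)} ℚ (CyclotomicField (p * (p ^ 2 - 1)) ℚ) :=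
    CyclotomicField.isCyclotomicExtension _ ℚ
  obtain ⟨r, hr⟩ := hcyc.exists_isPrimitiveRoot (Set.mem_singleton _) hn0.ne'
  exact exists_coeffRing_of_numberField p hp2 (CyclotomicField (p * (p ^ 2 - 1)) ℚ)
    hr.toInteger hr.toInteger_isPrimitiveRoot

end CoeffRing

end Fermat.Agent.GB.Setup.Coeff
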