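/-
GATE-B / GB-SETUP item (i'), ruling R4 (board 5608 §2) (helper21): the coefficient ring with
`p`-power roots of unity.

`exists_coeffRingPow p hp2 A` : the coefficient ring of `GB/Setup/Coeff.exists_coeffRing` can be
chosen to contain primitive `p^a`-th roots of unity for all `a ≤ A` (so that all the constants
`c_ξ` of the framed primes `v ∈ Σ_u`, `A = max_v v_p(v - 1)`, lie in `𝒪`).

Construction: `GE/DvrPlace.exists_completeDVR_place` applied to the ring of integers of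
`ℚ(ζ_{p^(A+1) (p² - 1)})`.
-/
import Mathlib
import Fermat.Agent.GB.Setup.Coeff

set_option autoImplicit false

namespace Fermat.Agent.GB.Setup.CoeffPow

open IsLocalRing Polynomial NumberField Fermat.Agent.GB.Setup.Coeff

/-- Auxiliary form: from a number field containing a primitive root of unity of order
`p^(A+1) (p² - 1)`. -/
theorem exists_coeffRingPow_of_numberField (p : ℕ) [hp : Fact p.Prime] (hp2 : p ≠ 2) (A : ℕ)
    (K : Type) [Field K] [NumberField K] (z : 𝓞 K)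
    (hzK : IsPrimitiveRoot z (p ^ (A + 1) * (p ^ 2 - 1))) :
    ∃ (𝒪 : Type) (_ : CommRing 𝒪) (_ : IsDomain 𝒪) (_ : IsDiscreteValuationRing 𝒪)
      (_ : IsAdicComplete (maximalIdeal 𝒪) 𝒪) (_ : Finite (ResidueField 𝒪)) (_ : CharZero 𝒪)
      (_ : Algebra (ZMod p) (ResidueField 𝒪)),
      (p : 𝒪) ∈ maximalIdeal 𝒪 ∧ (∃ ζ : 𝒪, IsPrimitiveRoot ζ p) ∧
      (∀ a ≤ A + 1, ∃ ζ : 𝒪, IsPrimitiveRoot ζ (p ^ a)) ∧
      (∃ μ : 𝒪, IsPrimitiveRoot μ (p ^ 2 - 1) ∧ IsPrimitiveRoot (residue 𝒪 μ) (p ^ 2 - 1)) ∧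
      ∀ (ρ0 : ResidualGaloisRep (ZMod p)) (σ : AlgebraicClosure ℚ ≃ₐ[ℚ] AlgebraicClosure ℚ),
        ∃ α β : ResidueField 𝒪,
          LinearMap.charpoly ((ρ0.baseChange (ResidueField 𝒪)).ρ σ) = (X - C α) * (X - C β) := by
  have hpp : p.Prime := hp.out
  have hM0 : 0 < p ^ 2 - 1 := by
    have : 2 ≤ p := hpp.two_le
    have : 4 ≤ p ^ 2 := by nlinarith
    omega
  have hn0 : 0 < p ^ (A + 1) * (p ^ 2 - 1) := Nat.mul_pos (pow_pos hpp.pos _) hM0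
  obtain ⟨O, iCR, iDom, iDVR, iComp, iRes, iChar, hpm, iota, hinj⟩ :=
    Fermat.Agent.GE.DvrPlace.exists_completeDVR_place (𝓞 K) p
  have hz : IsPrimitiveRoot (iota z) (p ^ (A + 1) * (p ^ 2 - 1)) := hzK.map_of_injective hinj
  have hpow : ∀ a ≤ A + 1, ∃ ζ : O, IsPrimitiveRoot ζ (p ^ a) := by
    intro a ha
    refine ⟨iota z ^ (p ^ (A + 1 - a) * (p ^ 2 - 1)), hz.pow hn0 ?_⟩
    have : p ^ (A + 1) = p ^ (A + 1 - a) * p ^ a := by
      rw [← pow_add, Nat.sub_add_cancel ha]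
    rw [this]
    ring
  have hμ : IsPrimitiveRoot (iota z ^ p ^ (A + 1)) (p ^ 2 - 1) := hz.pow hn0 rfl
  have hunit : IsUnit ((p ^ 2 - 1 : ℕ) : O) := isUnit_natCast_sq_sub_one p hpm
  have hμres := isPrimitiveRoot_residue hunit hμ
  have hchar : CharP (ResidueField O) p := by
    refine (CharP.charP_iff_prime_eq_zero hpp).mpr ?_
    have : (p : ResidueField O) = residue O (p : O) := (map_natCast _ _).symm
    rw [this]
    exact (residue_eq_zero_iff _).mpr hpm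
  obtain ⟨ζ, hζ⟩ := hpow 1 (by omega)
  rw [pow_one] at hζ
  exact ⟨O, iCR, iDom, iDVR, iComp, iRes, iChar, ZMod.algebra _ p, hpm, ⟨ζ, hζ⟩, hpow,
    ⟨_, hμ, hμres⟩,
    fun ρ0 σ => @hsplit_baseChange p hp (ResidueField O) _ (ZMod.algebra _ p) hp2 _ hμres ρ0 σ⟩

/-- **The coefficient ring of GATE-B with `p`-power roots of unity** (ruling R4): as
`Coeff.exists_coeffRing`, and moreover `𝒪` contains primitive `p^a`-th roots of unity for every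
`a ≤ A + 1`. -/
theorem exists_coeffRingPow (p : ℕ) [hp : Fact p.Prime] (hp2 : p ≠ 2) (A : ℕ) :
    ∃ (𝒪 : Type) (_ : CommRing 𝒪) (_ : IsDomain 𝒪) (_ : IsDiscreteValuationRing 𝒪)
      (_ : IsAdicComplete (maximalIdeal 𝒪) 𝒪) (_ : Finite (ResidueField 𝒪)) (_ : CharZero 𝒪)
      (_ : Algebra (ZMod p) (ResidueField 𝒪)),
      (p : 𝒪) ∈ maximalIdeal 𝒪 ∧ (∃ ζ : 𝒪, IsPrimitiveRoot ζ p) ∧
      (∀ a ≤ A + 1, ∃ ζ : 𝒪, IsPrimitiveRoot ζ (p ^ a)) ∧
      (∃ μ : 𝒪, IsPrimitiveRoot μ (p ^ 2 - 1) ∧ IsPrimitiveRoot (residue 𝒪 μ) (p ^ 2 - 1)) ∧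
      ∀ (ρ0 : ResidualGaloisRep (ZMod p)) (σ : AlgebraicClosure ℚ ≃ₐ[ℚ] AlgebraicClosure ℚ),
        ∃ α β : ResidueField 𝒪,
          LinearMap.charpoly ((ρ0.baseChange (ResidueField 𝒪)).ρ σ) = (X - C α) * (X - C β) := by
  have hpp : p.Prime := hp.out
  have hM0 : 0 < p ^ 2 - 1 := by
    have : 2 ≤ p := hpp.two_le
    have : 4 ≤ p ^ 2 := by nlinarith
    omega
  have hn0 : 0 < p ^ (A + 1) * (p ^ 2 - 1) := Nat.mul_pos (pow_pos hpp.pos _) hM0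
  have : NeZero (p ^ (A + 1) * (p ^ 2 - 1)) := ⟨hn0.ne'⟩
  have hcyc : IsCyclotomicExtension {p ^ (A + 1) * (p ^ 2 - 1)} ℚ
      (CyclotomicField (p ^ (A + 1) * (p ^ 2 - 1)) ℚ) :=
    CyclotomicField.isCyclotomicExtension _ ℚ
  obtain ⟨r, hr⟩ := hcyc.exists_isPrimitiveRoot (Set.mem_singleton _) hn0.ne'
  exact exists_coeffRingPow_of_numberField p hp2 A (CyclotomicField (p ^ (A + 1) * (p ^ 2 - 1)) ℚ)
    hr.toInteger hr.toInteger_isPrimitiveRoot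

end Fermat.Agent.GB.Setup.CoeffPow
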