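/-
GATE-B (Ribet level lowering, S38/S43) / node GB-SETUP, PLUG (helper61):
**the Hecke–Galois datum at level `M` for `ρ̄_W`**, i.e. helper36's
`GB/Glue/DatumOfRhobar.exists_datum` fed with `ρbar := ρ̄_W ⊗ k`, `k = ResidueField 𝒪`,
`θ := Theta.thetaK` — every hypothesis of `exists_datum` is discharged from
`ModData` (= the witnesses of the frozen `W.IsResiduallyModularOfLevel p M`), `hirr`, `htrans`.
-/
import Mathlib
import Fermat.Agent.GB.Setup.Theta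
import Fermat.Agent.GB.Glue.DatumOfRhobar

set_option autoImplicit false

open WeierstrassCurve WeierstrassCurve.Affine.Point Polynomial IsLocalRing CuspForm
open scoped WeierstrassCurve.Affine

namespace Fermat.Agent.GB.Setup.DatumPlug

open Fermat.Agent.GB.Setup.RhoBar Fermat.Agent.GB.Setup.Theta
  Fermat.Agent.GB.B4.Datum.Carrier Fermat.Agent.GB.B4.Datum.HeckeCarrier

/-- `ℚ̄`. -/
local notation "Qb" => AlgebraicClosure ℚ
/-- `G_ℚ`. -/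
local notation "GQ" => (AlgebraicClosure ℚ ≃ₐ[ℚ] AlgebraicClosure ℚ)

variable {p : ℕ} [Fact p.Prime] {W : WeierstrassCurve ℤ}
  (hcard₁ : Nat.card (Submodule.torsionBy ℤ
    ((W.map (Int.castRingHom ℚ))⁄(AlgebraicClosure ℚ)).Point p) = p ^ 2)
  (hker : GaloisFactorsThroughFiniteLevel
    (galoisRepModuleEnd (K := AlgebraicClosure ℚ) ℚ (W.map (Int.castRingHom ℚ)) p))
  {M : ℕ} [NeZero M] (D : ModData W p M) (S : Finset ℕ)
  (hpS : p ∈ (↑S : Set ℕ)) (hMS : ∀ q : ℕ, q.Prime → q ∣ M → q ∈ (↑S : Set ℕ))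
  (hWS : ∀ q : ℕ, q.Prime → ¬ W.IsGoodPrimeFor q → q ∈ (↑S : Set ℕ))

/-- **The Hecke–Galois datum of `ρ̄_W` at level `M`** on helper12's carrier `Tloc 𝒪 θ̄`. -/
theorem exists_datum_rb (hp2 : p ≠ 2) (hΔ : W.Δ ≠ 0) (hirr : W.ModRepIsIrreducible p)
    (htrans : ∃ σ : GQ,
      galoisRepModuleEnd (K := Qb) ℚ (W.map (Int.castRingHom ℚ)) p σ ≠ 1 ∧
        (galoisRepModuleEnd (K := Qb) ℚ (W.map (Int.castRingHom ℚ)) p σ - 1) ^ 2 = 0)
    (𝒪 : Type) [CommRing 𝒪] [IsDomain 𝒪] [IsDiscreteValuationRing 𝒪]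
    [IsAdicComplete (maximalIdeal 𝒪) 𝒪] [Finite (ResidueField 𝒪)] [CharZero 𝒪]
    [Algebra (ZMod p) (ResidueField 𝒪)] (hp𝒪 : (p : 𝒪) ∈ maximalIdeal 𝒪) :
    ∃ H : HeckeGaloisRepDatum M (↑S : Set ℕ) 𝒪
        (thetaK D (↑S : Set ℕ) hpS hMS hWS (ResidueField 𝒪))
        (Tloc 𝒪 (thetaK D (↑S : Set ℕ) hpS hMS hWS (ResidueField 𝒪))),
      H.π = piT 𝒪 (thetaK D (↑S : Set ℕ) hpS hMS hWS (ResidueField 𝒪)) ∧
      H.ρ.DetIsCyclotomic p ∧
      (∀ q : ℕ, q.Prime → ¬ q ∣ M → q ≠ p → H.ρ.IsUnramifiedAt q) ∧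
      H.ρ.residual.IsEquiv
        (((rb p W hcard₁ hker).baseChange (ResidueField 𝒪)).baseChangeAlong
          (ResidueField.map (algebraMap 𝒪
            (Tloc 𝒪 (thetaK D (↑S : Set ℕ) hpS hMS hWS (ResidueField 𝒪)))))) := by
  refine Fermat.Agent.GB.Glue.DatumOfRhobar.exists_datum p M S 𝒪
    (thetaK D (↑S : Set ℕ) hpS hMS hWS (ResidueField 𝒪)) hp2 (Finset.mem_coe.mp hpS)
    (fun q hq hqM => Finset.mem_coe.mp (hMS q hq hqM)) hp𝒪
    ((rb p W hcard₁ hker).baseChange (ResidueField 𝒪))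
    (isAbsolutelyIrreducible_baseChange hcard₁ hker hirr htrans (ResidueField 𝒪)) ?_
  intro ℓ hℓ hℓM hℓS P hP σ hσ
  exact ⟨_, hfrob_thetaK hcard₁ hker D (↑S : Set ℕ) hpS hMS hWS hΔ hirr (ResidueField 𝒪)
    ℓ hℓ hℓM hℓS P hP σ hσ⟩

end Fermat.Agent.GB.Setup.DatumPlug
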