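/-
GATE-B / GB-SETUP (G1) (helper21, split of helper61's GB-SETUP).  Mathlib-only.

`charpoly_eq_of_quadRel` : let `ρ : G → End V`, `ρ'' : G → End V''` be two representations of a
group on planes over a field, `ρ` irreducible.  If every `ρ g` is killed by the characteristic
polynomial of `ρ'' g` (the quadratic relation `τ² - a(g) τ + d(g) = 0`), then
`charpoly (ρ g) = charpoly (ρ'' g)` for ALL `g`.

Proof (helper61): if `ρ g` is not scalar its minimal polynomial has degree `2` and divides both
characteristic polynomials; if `ρ g = c` is scalar, pick a nonscalar `ρ h` (irreducibility):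
`ρ (g h)` is nonscalar, so `det ρ''(g h) = c² det ρ''(h)`, hence `det ρ''(g) = c²`, and the
relation gives `tr ρ''(g) = 2 c`.
-/
import Mathlib
import Fermat.Prelude.Def_GaloisRep_Residual

set_option autoImplicit false

namespace Fermat.Agent.GB.Setup.QuadRel21

open Polynomial

section Scalar

variable {k : Type*} [Field k] {V : Type*} [AddCommGroup V] [Module k V]

/-- the characteristic polynomial of a scalar matrix -/
theorem matrix_charpoly_smul_one {n : Type*} [Fintype n] [DecidableEq n] (c : k) :
    (c • (1 : Matrix n n k)).charpoly = (X - C c) ^ Fintype.card n := by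
  have h : Matrix.charmatrix (c • (1 : Matrix n n k)) = (X - C c) • (1 : Matrix n n k[X]) := by
    ext i j
    by_cases hij : i = j
    · subst hij
      simp
    · simp [hij]
  rw [Matrix.charpoly, h, Matrix.det_smul, Matrix.det_one, mul_one]

/-- the characteristic polynomial of a scalar endomorphism -/
theorem charpoly_smul_one [Module.Finite k V] (c : k) :
    LinearMap.charpoly (c • (1 : Module.End k V)) = (X - C c) ^ Module.finrank k V := by
  have hb := Module.Free.chooseBasis k V
  rw [← LinearMap.charpoly_toMatrix (c • (1 : Module.End k V)) (Module.Free.chooseBasis k V)]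
  have : LinearMap.toMatrix (Module.Free.chooseBasis k V) (Module.Free.chooseBasis k V)
      (c • (1 : Module.End k V)) = c • (1 : Matrix _ _ k) := by
    rw [map_smul]
    congr 1
    exact LinearMap.toMatrix_one _
  rw [this, matrix_charpoly_smul_one, Module.finrank_eq_card_chooseBasisIndex]

/-- An endomorphism of a nonzero finite-dimensional space whose minimal polynomial has degree
`≤ 1` is scalar. -/
theorem exists_eq_smul_one_of_natDegree_minpoly_le_one [Module.Finite k V] [Nontrivial V]
    (f : Module.End k V) (h : (minpoly k f).natDegree ≤ 1) : ∃ c : k, f = c • 1 := by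
  have hint : IsIntegral k f := Algebra.IsIntegral.isIntegral f
  have hmonic := minpoly.monic hint
  rcases Nat.lt_or_ge (minpoly k f).natDegree 1 with h0 | h1
  · -- degree `0`: impossible
    have h00 : (minpoly k f).natDegree = 0 := by omega
    have h1 : minpoly k f = 1 := hmonic.natDegree_eq_zero.mp h00
    exact absurd h1 (minpoly.ne_one k f)
  · have hdeg : (minpoly k f).natDegree = 1 := le_antisymm h h1
    have hform := hmonic.eq_X_add_C hdeg
    have haeval := minpoly.aeval k f
    rw [hform, map_add, aeval_X, aeval_C] at haeval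
    refine ⟨-(minpoly k f).coeff 0, ?_⟩
    rw [neg_smul, ← Algebra.algebraMap_eq_smul_one]
    exact eq_neg_of_add_eq_zero_left haeval

/-- A nonscalar endomorphism of a plane killed by a monic quadratic polynomial `P` has
characteristic polynomial `P`. -/
theorem charpoly_eq_of_aeval_eq_zero_of_not_scalar [Module.Finite k V]
    (hV : Module.finrank k V = 2)
    (f : Module.End k V) {P : k[X]} (hP : P.Monic) (hdeg : P.natDegree = 2)
    (hf : aeval f P = 0) (hns : ¬ ∃ c : k, f = c • 1) : LinearMap.charpoly f = P := by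
  have : Nontrivial V := Module.nontrivial_of_finrank_pos (R := k) (by rw [hV]; norm_num)
  have hint : IsIntegral k f := Algebra.IsIntegral.isIntegral f
  have hm := minpoly.monic hint
  have hmdeg : 2 ≤ (minpoly k f).natDegree := by
    by_contra hlt
    exact hns (exists_eq_smul_one_of_natDegree_minpoly_le_one f (by omega))
  have h1 : minpoly k f ∣ P := minpoly.dvd k f hf
  have h2 : minpoly k f ∣ LinearMap.charpoly f := LinearMap.minpoly_dvd_charpoly f
  have hc : (LinearMap.charpoly f).natDegree = 2 := by rw [LinearMap.charpoly_natDegree, hV]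
  have e1 : P = minpoly k f :=
    Polynomial.eq_of_monic_of_dvd_of_natDegree_le hm hP h1 (by omega)
  have e2 : LinearMap.charpoly f = minpoly k f :=
    Polynomial.eq_of_monic_of_dvd_of_natDegree_le hm (LinearMap.charpoly_monic f) h2 (by omega)
  rw [e2, e1]

/-- on a plane the determinant is the constant coefficient of the characteristic polynomial -/
theorem det_eq_coeff_zero [Module.Finite k V] (f : Module.End k V)
    (hV : Module.finrank k V = 2) : LinearMap.det f = (LinearMap.charpoly f).coeff 0 := by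
  rw [LinearMap.det_eq_sign_charpoly_coeff, hV]
  norm_num

end Scalar

section Main

variable {G : Type*} [Group G] {k : Type*} [Field k]
variable {V V'' : Type*} [AddCommGroup V] [Module k V] [AddCommGroup V''] [Module k V'']

/-- In an irreducible plane some `ρ h` is not scalar. -/
theorem exists_not_scalar (hV : Module.finrank k V = 2) (ρ : G →* Module.End k V)
    (hirr : ∀ W : Submodule k V, (∀ g x, x ∈ W → ρ g x ∈ W) → W = ⊥ ∨ W = ⊤) :
    ∃ h : G, ¬ ∃ c : k, ρ h = c • 1 := by
  by_contra hall
  push Not at hall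
  have : Module.Finite k V := Module.finite_of_finrank_eq_succ hV
  have : Nontrivial V := Module.nontrivial_of_finrank_pos (R := k) (by rw [hV]; norm_num)
  obtain ⟨v, hv⟩ := exists_ne (0 : V)
  have hstab : ∀ g x, x ∈ Submodule.span k {v} → ρ g x ∈ Submodule.span k {v} := by
    intro g x hx
    obtain ⟨c, hc⟩ := hall g
    rw [hc]
    exact Submodule.smul_mem _ c hx
  rcases hirr _ hstab with h | h
  · exact hv ((Submodule.span_singleton_eq_bot).mp h)
  · have h1 : Module.finrank k (Submodule.span k {v}) = 1 := finrank_span_singleton hv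
    rw [h, finrank_top, hV] at h1
    omega

/-- **The quadratic relation determines the characteristic polynomial** (all `g`, scalar ones
included). -/
theorem charpoly_eq_of_quadRel [Module.Finite k V] [Module.Finite k V'']
    (hV : Module.finrank k V = 2) (hV'' : Module.finrank k V'' = 2)
    (ρ : G →* Module.End k V) (ρ'' : G →* Module.End k V'')
    (hirr : ∀ W : Submodule k V, (∀ g x, x ∈ W → ρ g x ∈ W) → W = ⊥ ∨ W = ⊤)
    (hrel : ∀ g, aeval (ρ g) (LinearMap.charpoly (ρ'' g)) = 0) :
    ∀ g, LinearMap.charpoly (ρ g) = LinearMap.charpoly (ρ'' g) := by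
  have : Nontrivial V := Module.nontrivial_of_finrank_pos (R := k) (by rw [hV]; norm_num)
  have hdeg'' : ∀ g, (LinearMap.charpoly (ρ'' g)).natDegree = 2 := fun g => by
    rw [LinearMap.charpoly_natDegree, hV'']
  -- nonscalar case
  have hns : ∀ g, (¬ ∃ c : k, ρ g = c • 1) →
      LinearMap.charpoly (ρ g) = LinearMap.charpoly (ρ'' g) := fun g hg =>
    charpoly_eq_of_aeval_eq_zero_of_not_scalar hV (ρ g) (LinearMap.charpoly_monic _) (hdeg'' g)
      (hrel g) hg
  obtain ⟨h, hh⟩ := exists_not_scalar hV ρ hirr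
  intro g
  by_cases hg : ∃ c : k, ρ g = c • 1
  swap
  · exact hns g hg
  obtain ⟨c, hc⟩ := hg
  -- `c ≠ 0`
  have hc0 : c ≠ 0 := by
    rintro rfl
    have h1 : ρ g * ρ g⁻¹ = 1 := by rw [← map_mul, mul_inv_cancel, map_one]
    rw [hc, zero_smul, zero_mul] at h1
    exact zero_ne_one h1
  -- `ρ (g * h)` is not scalar
  have hgh : ¬ ∃ c' : k, ρ (g * h) = c' • 1 := by
    rintro ⟨c', hc'⟩
    apply hh
    refine ⟨c⁻¹ * c', ?_⟩
    rw [map_mul, hc, smul_mul_assoc, one_mul] at hc'
    rw [mul_smul, ← hc', smul_smul, inv_mul_cancel₀ hc0, one_smul]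
  -- determinants
  have hd1 : LinearMap.det (ρ (g * h)) = LinearMap.det (ρ'' (g * h)) := by
    rw [det_eq_coeff_zero _ hV, det_eq_coeff_zero _ hV'', hns _ hgh]
  have hd2 : LinearMap.det (ρ h) = LinearMap.det (ρ'' h) := by
    rw [det_eq_coeff_zero _ hV, det_eq_coeff_zero _ hV'', hns _ hh]
  have hd3 : LinearMap.det (ρ'' h) ≠ 0 := by
    have h1 : LinearMap.det (ρ'' h) * LinearMap.det (ρ'' h⁻¹) = 1 := by
      rw [← map_mul, ← map_mul, mul_inv_cancel, map_one, map_one]
    exact left_ne_zero_of_mul_eq_one h1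
  have hdg : LinearMap.det (ρ'' g) = c ^ 2 := by
    have h1 : LinearMap.det (ρ (g * h)) = c ^ 2 * LinearMap.det (ρ h) := by
      rw [map_mul, hc, smul_mul_assoc, one_mul, LinearMap.det_smul, hV]
    rw [hd1, hd2, map_mul, map_mul] at h1
    exact mul_right_cancel₀ hd3 h1
  -- the relation at `g`
  set P := LinearMap.charpoly (ρ'' g) with hPdef
  have hPmonic : P.Monic := LinearMap.charpoly_monic _
  have hP0 : P.coeff 0 = c ^ 2 := by rw [← det_eq_coeff_zero _ hV'', hdg]
  have hP2 : P.coeff 2 = 1 := by
    have := hPmonic.coeff_natDegree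
    rwa [hdeg'' g] at this
  have heval : P.eval c = 0 := by
    have h1 := hrel g
    rw [hc, ← Algebra.algebraMap_eq_smul_one, Polynomial.aeval_algebraMap_apply_eq_algebraMap_eval]
      at h1
    exact (map_eq_zero_iff _ (algebraMap k (Module.End k V)).injective).mp h1
  have hPform : P = X ^ 2 + C (P.coeff 1) * X + C (P.coeff 0) := by
    ext n
    rcases Nat.lt_or_ge n 3 with hn | hn
    · interval_cases n
      · simp [coeff_X_pow]
      · simp [coeff_X_pow]
      · simp [coeff_X_pow, hP2]
    · have h1 : P.coeff n = 0 := coeff_eq_zero_of_natDegree_lt (by rw [hdeg'' g]; omega)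
      rw [h1]
      have hn2 : n ≠ 2 := by omega
      have hn1 : n ≠ 1 := by omega
      have hn0 : n ≠ 0 := by omega
      simp [coeff_X_pow, coeff_X, coeff_C, hn2, hn0, Ne.symm hn1]
  have hP1 : P.coeff 1 = -(2 * c) := by
    rw [hPform] at heval
    simp only [eval_add, eval_mul, eval_pow, eval_X, eval_C] at heval
    rw [hP0] at heval
    have h2 : c * (P.coeff 1 + 2 * c) = 0 := by linear_combination heval
    rcases mul_eq_zero.mp h2 with h3 | h3
    · exact absurd h3 hc0
    · linear_combination h3
  rw [hc, charpoly_smul_one, hV, hPform, hP0, hP1]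
  simp only [C_neg, C_mul, C_pow]
  have h2 : (C (2 : k) : k[X]) = 2 := C_ofNat 2
  rw [h2]
  ring

/-- Variant: the relation is only known on a set `S` of elements (Frobenius elements) which
covers `G` for both representations (Chebotarev at a common finite level). -/
theorem charpoly_eq_of_quadRel_of_cover [Module.Finite k V] [Module.Finite k V'']
    (hV : Module.finrank k V = 2) (hV'' : Module.finrank k V'' = 2)
    (ρ : G →* Module.End k V) (ρ'' : G →* Module.End k V'')
    (hirr : ∀ W : Submodule k V, (∀ g x, x ∈ W → ρ g x ∈ W) → W = ⊥ ∨ W = ⊤)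
    (S : Set G) (hcover : ∀ g, ∃ s ∈ S, ρ s = ρ g ∧ ρ'' s = ρ'' g)
    (hrel : ∀ s ∈ S, aeval (ρ s) (LinearMap.charpoly (ρ'' s)) = 0) :
    ∀ g, LinearMap.charpoly (ρ g) = LinearMap.charpoly (ρ'' g) := by
  refine charpoly_eq_of_quadRel hV hV'' ρ ρ'' hirr fun g => ?_
  obtain ⟨s, hs, h1, h2⟩ := hcover g
  rw [← h1, ← h2]
  exact hrel s hs

end Main

section Residual

variable {k : Type} [Field k]

/-- `charpoly_eq_of_quadRel` for residual Galois representations (Prelude vocabulary). -/
theorem residual_charpoly_eq_of_quadRel (ρ1 ρ2 : ResidualGaloisRep k) (hirr : ρ1.IsIrreducible)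
    (hrel : ∀ σ, aeval (ρ1.ρ σ) (LinearMap.charpoly (ρ2.ρ σ)) = 0) :
    ∀ σ, LinearMap.charpoly (ρ1.ρ σ) = LinearMap.charpoly (ρ2.ρ σ) :=
  charpoly_eq_of_quadRel ρ1.finrank_eq ρ2.finrank_eq ρ1.ρ ρ2.ρ hirr hrel

/-- Chebotarev form: the relation on a set `S` of Galois elements covering `G_ℚ` for both
representations. -/
theorem residual_charpoly_eq_of_quadRel_of_cover (ρ1 ρ2 : ResidualGaloisRep k)
    (hirr : ρ1.IsIrreducible) (S : Set (AlgebraicClosure ℚ ≃ₐ[ℚ] AlgebraicClosure ℚ))
    (hcover : ∀ σ, ∃ s ∈ S, ρ1.ρ s = ρ1.ρ σ ∧ ρ2.ρ s = ρ2.ρ σ)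
    (hrel : ∀ s ∈ S, aeval (ρ1.ρ s) (LinearMap.charpoly (ρ2.ρ s)) = 0) :
    ∀ σ, LinearMap.charpoly (ρ1.ρ σ) = LinearMap.charpoly (ρ2.ρ σ) :=
  charpoly_eq_of_quadRel_of_cover ρ1.finrank_eq ρ2.finrank_eq ρ1.ρ ρ2.ρ hirr S hcover hrel

/-- consequence: equal determinants -/
theorem residual_det_eq_of_quadRel (ρ1 ρ2 : ResidualGaloisRep k) (hirr : ρ1.IsIrreducible)
    (hrel : ∀ σ, aeval (ρ1.ρ σ) (LinearMap.charpoly (ρ2.ρ σ)) = 0) (σ) :
    LinearMap.det (ρ1.ρ σ) = LinearMap.det (ρ2.ρ σ) := by
  rw [det_eq_coeff_zero _ ρ1.finrank_eq, det_eq_coeff_zero _ ρ2.finrank_eq,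
    residual_charpoly_eq_of_quadRel ρ1 ρ2 hirr hrel σ]

end Residual

end Fermat.Agent.GB.Setup.QuadRel21
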